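import Fermat.Agent.MazurStep.Descent
import Fermat.Agent.FiniteFlat.JZeroModel
import Fermat.Agent.HeckeJacobian.KummerMap

/-!
# Divisions of rational points of `J₀(N)` give flat torsors at a prime of good reduction

For `n Q = P` rational the module `E = ℤ/n × J₀(N)[n]`, with `σ (i, g) = (i, σ g + i (σ Q - Q))`,
has coordinates: those of `i Q + g` for a representative `0 ≤ i < n` and the indicators of `i`.
-/

set_option autoImplicit false

noncomputable section

open GaloisRep ModularCurve
open FLTAgent.Density FLTAgent.FiniteFlat FLTAgent.GoodReduction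

namespace FLTAgent.MazurStep

section Abstract

variable {J : Type} [AddCommGroup J] [DistribMulAction GalQ J] {n : ℕ} {Q : J}

/-- The action of an element on the points killed by `n`. -/
def killedAct (n : ℕ) (σ : GalQ) : killedBy J n →+ killedBy J n :=
  ((DistribSMul.toAddMonoidHom J σ).comp (killedBy J n).subtype).codRestrict _ fun a => by
    show n • (σ • (a : J)) = 0
    rw [← gal_smul_nsmul, show n • (a : J) = 0 from a.2, smul_zero]

/-- `i ↦ i • (σ Q - Q)`. -/
def divisionHom (hQ : ∀ σ : GalQ, σ • (n • Q) = n • Q) (σ : GalQ) : ZMod n →+ killedBy J n :=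
  ZMod.lift n ⟨zmultiplesHom _ ⟨_, smul_sub_mem_killedBy hQ σ⟩, by
    rw [zmultiplesHom_apply, natCast_zsmul]
    exact Subtype.ext (smul_sub_mem_killedBy hQ σ)⟩

theorem coe_divisionHom [NeZero n] (hQ : ∀ σ : GalQ, σ • (n • Q) = n • Q) (σ : GalQ) (i : ZMod n) :
    (divisionHom hQ σ i : J) = i.val • (σ • Q - Q) := by
  have key : ∀ (z : ℤ), (divisionHom hQ σ ((z : ℤ) : ZMod n) : J) = z • (σ • Q - Q) := fun z => by
    rw [divisionHom, ZMod.lift_coe]
    rfl
  have h := key (i.val : ℤ)
  rw [Int.cast_natCast, natCast_zsmul, ZMod.natCast_zmod_val] at h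
  exact h

/-- The action of one element on the torsor of a division. -/
def torsorMap (hQ : ∀ σ : GalQ, σ • (n • Q) = n • Q) (σ : GalQ) :
    ZMod n × killedBy J n →+ ZMod n × killedBy J n :=
  (AddMonoidHom.fst _ _).prod
    ((killedAct n σ).comp (AddMonoidHom.snd _ _) + (divisionHom hQ σ).comp (AddMonoidHom.fst _ _))

theorem torsorMap_snd [NeZero n] (hQ : ∀ σ : GalQ, σ • (n • Q) = n • Q) (σ : GalQ)
    (e : ZMod n × killedBy J n) :
    ((torsorMap hQ σ e).2 : J) = σ • (e.2 : J) + e.1.val • (σ • Q - Q) := by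
  have h : (torsorMap hQ σ e).2 = killedAct n σ e.2 + divisionHom hQ σ e.1 := rfl
  rw [h, AddSubgroup.coe_add, coe_divisionHom]
  rfl

theorem torsorMap_one [NeZero n] (hQ : ∀ σ : GalQ, σ • (n • Q) = n • Q) :
    torsorMap hQ 1 = AddMonoidHom.id _ := by
  refine AddMonoidHom.ext fun e => Prod.ext rfl (Subtype.ext ?_)
  rw [torsorMap_snd, one_smul, one_smul, sub_self, smul_zero, add_zero]
  rfl

theorem torsorMap_mul [NeZero n] (hQ : ∀ σ : GalQ, σ • (n • Q) = n • Q) (σ τ : GalQ) :
    torsorMap hQ (σ * τ) = (torsorMap hQ σ).comp (torsorMap hQ τ) := by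
  refine AddMonoidHom.ext fun e => Prod.ext rfl (Subtype.ext ?_)
  have h1 : (torsorMap hQ τ e).1 = e.1 := rfl
  rw [AddMonoidHom.comp_apply, torsorMap_snd, torsorMap_snd, torsorMap_snd, h1, mul_smul, mul_smul,
    smul_add, gal_smul_nsmul, smul_sub, smul_sub, smul_sub, smul_sub]
  abel

/-- The torsor of a division. -/
def torsorAct [NeZero n] (hQ : ∀ σ : GalQ, σ • (n • Q) = n • Q) :
    GalQ →* AddMonoid.End (ZMod n × killedBy J n) where
  toFun σ := torsorMap hQ σ
  map_one' := torsorMap_one hQ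
  map_mul' σ τ := torsorMap_mul hQ σ τ

theorem torsorAct_fst [NeZero n] (hQ : ∀ σ : GalQ, σ • (n • Q) = n • Q) (σ : GalQ)
    (e : ZMod n × killedBy J n) : (torsorAct hQ σ e).1 = e.1 := rfl

theorem torsorAct_snd [NeZero n] (hQ : ∀ σ : GalQ, σ • (n • Q) = n • Q) (σ : GalQ)
    (e : ZMod n × killedBy J n) :
    ((torsorAct hQ σ e).2 : J) = σ • (e.2 : J) + e.1.val • (σ • Q - Q) :=
  torsorMap_snd hQ σ e

theorem torsorAct_inr [NeZero n] (hQ : ∀ σ : GalQ, σ • (n • Q) = n • Q) (σ : GalQ)
    (a b : killedBy J n) (h : (b : J) = σ • (a : J)) :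
    ((0 : ZMod n), b) = torsorAct hQ σ (0, a) := by
  refine Prod.ext rfl (Subtype.ext ?_)
  rw [torsorAct_snd]
  show (b : J) = σ • (a : J) + (0 : ZMod n).val • (σ • Q - Q)
  rw [ZMod.val_zero, zero_nsmul, add_zero, h]

theorem torsorAct_one_zero [NeZero n] (hQ : ∀ σ : GalQ, σ • (n • Q) = n • Q) (σ : GalQ)
    (b : killedBy J n) (h : (b : J) = σ • Q - Q) :
    torsorAct hQ σ (1, 0) = ((1 : ZMod n), 0) + (0, b) := by
  refine Prod.ext ?_ (Subtype.ext ?_)
  · show (1 : ZMod n) = 1 + 0
    rw [add_zero]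
  · rw [torsorAct_snd]
    show σ • (0 : J) + (1 : ZMod n).val • (σ • Q - Q) = ((0 : killedBy J n) + b : killedBy J n).1
    rw [zero_add, h, smul_zero, zero_add]
    rcases Nat.lt_or_ge 1 n with h1 | h1
    · have : Fact (1 < n) := ⟨h1⟩
      rw [ZMod.val_one, one_nsmul]
    · obtain rfl : n = 1 := le_antisymm h1 (Nat.pos_of_ne_zero (NeZero.ne n))
      have := smul_sub_mem_killedBy hQ σ
      rw [mem_killedBy, one_nsmul] at this
      rw [this, smul_zero]

end Abstract

/-- Divisions of rational points of `J₀(N)` give torsors which are flat at primes of good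
reduction. -/
theorem hasTorsorModel_jZero {ℓ N : ℕ} [Fact ℓ.Prime] [NeZero N] (hℓN : ¬ ℓ ∣ N)
    {A : ValuationSubring Qbar} (hA : A.LiesOverPrime ℓ)
    (H : X0GoodReduction A (IsLocalRing.residue A) N) {n : ℕ} (hn : n ≠ 0) (Q : JZero N)
    (hQ : ∀ σ : GalQ, σ • (n • Q) = n • Q) : HasTorsorModel ℓ n Q := by
  classical
  have : NeZero n := ⟨hn⟩
  have : Finite (killedBy (JZero N) n) :=
    (FLTAgent.HeckeJacobian.finite_torsion_jZero hn).to_subtype
  refine ⟨ZMod n × killedBy (JZero N) n, inferInstance, inferInstance, torsorAct hQ,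
    AddMonoidHom.inr _ _, (1, 0), ?_, fun a b h => congrArg Prod.snd h,
    fun σ a b h => torsorAct_inr hQ σ a b h, fun σ b h => torsorAct_one_zero hQ σ b h⟩
  -- the finite family of points
  let T := killedBy (JZero N) n
  let cl : Option (Fin (2 * n) × T) → JZero N := fun w =>
    w.elim (-(n • Q)) fun x => (x.1 : ℕ) • Q + (x.2 : JZero N)
  let E := ZMod n × T
  let w₀ : E → Option (Fin (2 * n) × T) := fun e =>
    some (⟨e.1.val, by have := ZMod.val_lt e.1; omega⟩, e.2)
  have hw₀ : ∀ e : E, cl (w₀ e) = e.1.val • Q + (e.2 : JZero N) := fun e => rfl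
  obtain ⟨κ, φ, hint, hfix, hsep, -, hadd⟩ := exists_coordinates_jZero hℓN hA H cl
  let Φ : κ ⊕ ZMod n → E → Qbar :=
    Sum.elim (fun q e => φ q (w₀ e)) fun a e => if e.1 = a then 1 else 0
  refine hasFlatModel_of_coordinates (act := torsorAct hQ) (Fact.out) hA ?_ Φ ?_ ?_ ?_ ?_
  · choose L hLfd hL using fun x : Option (Fin (2 * n) × T) =>
      GaloisAttach.openStabilizers N (cl x)
    obtain ⟨LQ, hLQfd, hLQ⟩ := GaloisAttach.openStabilizers N Q
    have := hLQfd
    have : ∀ x, FiniteDimensional ℚ (L x) := hLfd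
    refine ⟨LQ ⊔ ⨆ x, L x, inferInstance, fun σ hσ => ?_⟩
    refine AddMonoidHom.ext fun e => Prod.ext rfl (Subtype.ext ?_)
    show ((torsorAct hQ σ e).2 : JZero N) = (e.2 : JZero N)
    have h1 : σ • Q = Q := hLQ σ fun y hy => hσ y (SetLike.le_def.1 le_sup_left hy)
    have h2 : σ • cl (w₀ e) = cl (w₀ e) := hL _ σ fun y hy => hσ y
      (SetLike.le_def.1 ((le_iSup L (w₀ e)).trans le_sup_right) hy)
    rw [hw₀, smul_add, gal_smul_nsmul, h1, add_right_inj] at h2
    rw [torsorAct_snd, h1, sub_self, smul_zero, add_zero, h2]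
  · rintro (q | a) e
    · exact hint q _
    · show (if e.1 = a then (1 : Qbar) else 0) ∈ A
      split_ifs
      · exact one_mem A
      · exact zero_mem A
  · rintro (q | a) τ hτ e
    · let f : Option (Fin (2 * n) × T) → Option (Fin (2 * n) × T) :=
        Option.map fun x => (x.1, killedAct n τ x.2 +
          (x.1 : ℕ) • (⟨_, smul_sub_mem_killedBy hQ τ⟩ : T))
      have hf : ∀ x, cl (f x) = τ • cl x := by
        rintro (_ | ⟨i, g⟩)
        · show -(n • Q) = τ • -(n • Q)
          rw [smul_neg, hQ]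
        · show (i : ℕ) • Q + (τ • (g : JZero N) + ((i : ℕ) • (⟨_, _⟩ : T) : T).1) =
            τ • ((i : ℕ) • Q + (g : JZero N))
          rw [AddSubmonoidClass.coe_nsmul, smul_add, gal_smul_nsmul]
          show _ + (_ + (i : ℕ) • (τ • Q - Q)) = _
          rw [nsmul_sub]
          abel
      rw [show Φ (Sum.inl q) (torsorAct hQ τ e) = φ q (f (w₀ e)) from congrArg (φ q)
        (congrArg some (Prod.ext rfl (Subtype.ext (by
          rw [torsorAct_snd]; rfl))))]
      exact hfix τ hτ f hf q (w₀ e)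
    · show (if (torsorAct hQ τ e).1 = a then (1 : Qbar) else 0) =
        τ (if e.1 = a then (1 : Qbar) else 0)
      rw [torsorAct_fst]
      split_ifs <;> simp
  · intro x y h
    have h1 : x.1 = y.1 := by
      by_contra hne
      have := h (Sum.inr x.1)
      simp only [Φ, Sum.elim_inr, if_neg (Ne.symm hne), if_pos] at this
      exact one_ne_zero this
    have h2 := hsep (w₀ x) (w₀ y) fun q => h (Sum.inl q)
    rw [hw₀, hw₀, h1, add_right_inj] at h2
    exact Prod.ext h1 (Subtype.ext h2)
  · intro j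
    set B := Algebra.adjoin A (Set.range (fun j (p : E × E) => Φ j p.1) ∪
      Set.range (fun j (p : E × E) => Φ j p.2)) with hB
    have hind : ∀ (a b : ZMod n), (fun p : E × E =>
        (if p.1.1 = a then (1 : Qbar) else 0) * (if p.2.1 = b then 1 else 0)) ∈ B := fun a b =>
      B.mul_mem (Algebra.subset_adjoin (Or.inl ⟨Sum.inr a, rfl⟩))
        (Algebra.subset_adjoin (Or.inr ⟨Sum.inr b, rfl⟩))
    -- functions of the two indices alone
    have hidx : ∀ c : ZMod n → ZMod n → Qbar, (∀ a b, c a b ∈ A) →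
        (fun p : E × E => c p.1.1 p.2.1) ∈ B := by
      intro c hc
      have e : (fun p : E × E => c p.1.1 p.2.1) = ∑ ab : ZMod n × ZMod n,
          (⟨c ab.1 ab.2, hc _ _⟩ : A) • fun p : E × E =>
            (if p.1.1 = ab.1 then (1 : Qbar) else 0) * (if p.2.1 = ab.2 then 1 else 0) := by
        funext p
        rw [Finset.sum_apply, Finset.sum_eq_single (p.1.1, p.2.1)]
        · simp only [Pi.smul_apply, if_pos, mul_one]
          exact (mul_one _).symm
        · intro ab _ hne
          rw [Pi.smul_apply]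
          have : p.1.1 ≠ ab.1 ∨ p.2.1 ≠ ab.2 := by
            by_contra hcon
            rw [not_or, not_ne_iff, not_ne_iff] at hcon
            exact hne (Prod.ext hcon.1.symm hcon.2.symm)
          rcases this with h | h <;> simp [h]
        · exact fun hn => absurd (Finset.mem_univ _) hn
      rw [e]
      exact sum_mem fun ab _ => B.smul_mem (hind _ _) _
    rcases j with q | a
    · let wc : E × E → Option (Fin (2 * n) × T) := fun p =>
        some (⟨p.1.1.val + p.2.1.val, by
          have := ZMod.val_lt p.1.1; have := ZMod.val_lt p.2.1; omega⟩, p.1.2 + p.2.2)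
      let cB : ZMod n → ZMod n → Option (Fin (2 * n) × T) := fun a b =>
        if n ≤ a.val + b.val then none
        else some (⟨0, by have := Nat.pos_of_ne_zero hn; omega⟩, 0)
      let wb : E × E → Option (Fin (2 * n) × T) := fun p => cB p.1.1 p.2.1
      have hsum₁ : ∀ p : E × E, cl (w₀ p.1) + cl (w₀ p.2) = cl (wc p) := fun p => by
        rw [hw₀, hw₀]
        show _ = (p.1.1.val + p.2.1.val) • Q + ((p.1.2 : JZero N) + (p.2.2 : JZero N))
        rw [add_nsmul]
        abel
      have hsum₂ : ∀ p : E × E, cl (wc p) + cl (wb p) = cl (w₀ (p.1 + p.2)) := fun p => by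
        rw [hw₀]
        show (p.1.1.val + p.2.1.val) • Q + ((p.1.2 : JZero N) + (p.2.2 : JZero N)) +
          cl (cB p.1.1 p.2.1) = (p.1.1 + p.2.1).val • Q + ((p.1.2 : JZero N) + (p.2.2 : JZero N))
        simp only [cB]
        split_ifs with hk
        · rw [ZMod.val_add_of_le hk]
          show _ + -(n • Q) = _
          rw [← Nat.sub_add_cancel hk, add_nsmul, Nat.add_sub_cancel]
          abel
        · rw [ZMod.val_add_of_lt (not_le.1 hk)]
          show _ + ((0 : ℕ) • Q + (0 : JZero N)) = _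
          rw [zero_nsmul, add_zero, add_zero]
      have h1 : ∀ q' : κ, (fun p : E × E => φ q' (wc p)) ∈ B := fun q' => by
        refine Algebra.adjoin_le ?_ (hadd (fun p : E × E => w₀ p.1) (fun p => w₀ p.2) wc hsum₁ q')
        rintro _ (⟨i, rfl⟩ | ⟨i, rfl⟩)
        · exact Algebra.subset_adjoin (Or.inl ⟨Sum.inl i, rfl⟩)
        · exact Algebra.subset_adjoin (Or.inr ⟨Sum.inl i, rfl⟩)
      refine Algebra.adjoin_le ?_ (hadd wc wb (fun p : E × E => w₀ (p.1 + p.2)) hsum₂ q)
      rintro _ (⟨i, rfl⟩ | ⟨i, rfl⟩)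
      · exact h1 i
      · exact hidx (fun a b => φ i (cB a b)) fun a b => hint i _
    · refine hidx (fun a' b' => if a' + b' = a then 1 else 0) fun a' b' => ?_
      split_ifs
      · exact one_mem A
      · exact zero_mem A

end FLTAgent.MazurStep
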