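import Fermat.Agent.MazurStep.Inputs
import Fermat.Agent.GoodReduction.X0
import Fermat.Agent.Deuring.ModL
import Fermat.Agent.MazurStep.Torsor
import Fermat.Agent.GaloisAttach.Stabilizer
import Fermat.Agent.HeckeJacobian.KummerMap
import Fermat.Agent.Jacobian.General

/-!
# The facts about `J₀(p)` used by the Mazur step, from the congruence relation and inertia

`jacobianFacts_of_inputs` builds `JacobianFacts` from Mordell–Weil, the congruence relation,
unipotence at `p` and the conjugation bound.
-/

set_option autoImplicit false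

noncomputable section

open ModularCurve AlgebraicCurve

namespace FLTAgent.MazurStep

open FLTAgent.Density

/-- The existence of specialisations gives the quadratic relation of Frobenius. -/
theorem frobeniusQuadratic_of_specialization {N p : ℕ} [NeZero N]
    (h : letI := heckeModuleBar N
      haveI := FLTAgent.HeckeJacobian.smulCommClass_heckeModuleBar N
      SpecializationExists (K := ℚ) (L := Qbar) N p (JZero N)) :
    letI := heckeModuleBar N
    haveI := FLTAgent.HeckeJacobian.smulCommClass_heckeModuleBar N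
    FrobeniusQuadratic (K := ℚ) (L := Qbar) N p (JZero N) := by
  let := heckeModuleBar N
  have := FLTAgent.HeckeJacobian.smulCommClass_heckeModuleBar N
  intro ℓ hℓ hℓN A hA σ hσ x hx
  obtain ⟨J', _, _, sp, F, hsp, hrel⟩ := h ℓ hℓ hℓN A hA
  obtain ⟨n, hn⟩ := hx
  refine hsp.injective_torsion _ ⟨n, ?_⟩ ?_
  · rw [nsmul_add, nsmul_sub, ← mul_nsmul', mul_comm (p ^ n) ℓ, mul_nsmul', hn, nsmul_zero,
      smul_comm (p ^ n) (heckeGen _), ← gal_smul_nsmul, ← gal_smul_nsmul, hn]
    simp
  · rw [map_add, map_sub, hsp.frobenius_comm σ hσ, hsp.frobenius_comm σ hσ, hsp.hecke_comm,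
      hsp.frobenius_comm σ hσ, map_nsmul]
    exact hrel _

theorem reductionInputsModL_of_prime {p : ℕ} [NeZero p] (hp : p.Prime) {q : ℕ} (hq : q.Prime)
    (hqp : q ≠ p) {A : ValuationSubring Qbar} (hA : A.LiesOverPrime q) :
    ReductionInputsModL A p :=
  Deuring.Modular.reductionInputsModL (GoodReduction.x0GoodReduction p hq
    (fun h => hqp ((Nat.prime_dvd_prime_iff_eq hq hp).1 h)) A hA)

theorem exists_nsmul_eq_jZero {N : ℕ} [NeZero N] {n : ℕ} (hn : n ≠ 0) (P : JZero N) :
    ∃ Q : JZero N, n • Q = P := by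
  have := FLTAgent.GaloisAttach.isFunctionField_bar N
  exact FLTAgent.Jacobian.exists_nsmul_eq Qbar (modularFunctionFieldBar N) hn P

/-- The facts about `J₀(p)`, from Mordell–Weil, the congruence relation, unipotence at `p` and
the bound for complex conjugation. -/
theorem jacobianFacts_of_inputs {p r : ℕ} [NeZero p] (hp : p.Prime) (hr : r.Prime) (hrp : r ≠ p)
    (hfg : AddGroup.FG (rationalPts (JZero p)))
    (hspec : letI := heckeModuleBar p
      haveI := FLTAgent.HeckeJacobian.smulCommClass_heckeModuleBar p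
      SpecializationExists (K := ℚ) (L := Qbar) p r (JZero p))
    (hinertia : ∀ q : ℕ, q.Prime → q ≠ p → ∀ A : ValuationSubring Qbar, A.LiesOverPrime q →
      ∀ σ ∈ A.inertiaSubgroupIn ℚ, ∀ z : JZero p,
        reductionModL A p (σ • z) = reductionModL A p z)
    (hhecke : ∀ q : ℕ, q.Prime → q ≠ p → ∀ A : ValuationSubring Qbar, A.LiesOverPrime q →
      ∀ (t : HeckeAlg) (z : JZero p), reductionModL A p z = 0 →
        reductionModL A p (letI := heckeModuleBar p; t • z) = 0)
    (hinertiaSq : ∀ A : ValuationSubring Qbar, A.LiesOverPrime p → ∀ (k : ℕ),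
      ∀ σ ∈ A.inertiaSubgroupIn ℚ, ∀ Q : JZero p,
        (∀ ρ : GalQ, ρ • (r ^ k • Q) = r ^ k • Q) → σ • (σ • Q - Q) = σ • Q - Q)
    (hconj : ∃ D : ℕ, ∀ (k : ℕ) (t : HeckeAlg), letI := heckeModuleBar p
      (∀ x : JZero p, r ^ k • x = 0 → t • t • x = t • x) →
        Nat.card (piece (DistribSMul.toAddMonoidHom (JZero p) t) (r ^ k)) ≤
          D * Nat.card ↥(piece (DistribSMul.toAddMonoidHom (JZero p) t) (r ^ k) ⊓
            fixedBy {complexConjugation}) ^ 2) :
    JacobianFacts p r where
  fg := hfg
  divisible _ hn P := exists_nsmul_eq_jZero hn P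
  finite_torsion _ hn := FLTAgent.HeckeJacobian.finite_torsion_jZero hn
  stab := FLTAgent.GaloisAttach.openStabilizers p
  injective q hq hqp A hA m z hm hz hred := by
    have : Fact q.Prime := ⟨hq⟩
    exact FLTAgent.Deuring.Modular.eq_zero_of_reductionModL_eq_zero
      (FLTAgent.GoodReduction.x0GoodReduction p hq
        (fun h => hqp ((Nat.prime_dvd_prime_iff_eq hq hp).1 h)) A hA) hA
      (reductionInputsModL_of_prime hp hq hqp hA) hm z hz hred
  inertia := hinertia
  hecke := hhecke
  quadratic := frobeniusQuadratic_of_specialization hspec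
  inertiaSq := hinertiaSq
  torsor k Q hQ := by
    have : Fact r.Prime := ⟨hr⟩
    obtain ⟨A, hA⟩ := exists_liesOverPrime (q := r) hr
    have hrp' : ¬ r ∣ p := fun h => hrp ((Nat.prime_dvd_prime_iff_eq hr hp).1 h)
    exact hasTorsorModel_jZero hrp' hA (FLTAgent.GoodReduction.x0GoodReduction p hr hrp' A hA)
      (pow_pos hr.pos k).ne' Q hQ
  conjugation := hconj

end FLTAgent.MazurStep
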