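import Mathlib.LinearAlgebra.Matrix.NonsingularInverse
import Mathlib.Algebra.MvPolynomial.Funext
import Mathlib.Algebra.Algebra.Rat
import Mathlib.Analysis.Complex.Basic
import Mathlib.LinearAlgebra.FreeModule.Basic
import Mathlib.LinearAlgebra.Basis.VectorSpace
import Mathlib.Data.Rat.Cast.Lemmas
import Mathlib.Data.Nat.Cast.Field

/-!
# Integral solutions of linear matrix equations with nonzero determinant

If linear equations with integral coefficients have a complex solution of nonzero determinant,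
then they have an integral one.
-/

set_option autoImplicit false

noncomputable section

namespace FLTAgent.MazurStep

variable {ι : Type*} [Fintype ι] [DecidableEq ι]

omit [DecidableEq ι] in
theorem map_int_mul_left (lam : ℂ →ₗ[ℚ] ℚ) (A : Matrix ι ι ℤ) (M : Matrix ι ι ℂ) :
    (A.map (Int.cast : ℤ → ℂ) * M).map lam = A.map (Int.cast : ℤ → ℚ) * M.map lam := by
  ext i j
  simp only [Matrix.map_apply, Matrix.mul_apply, map_sum]
  refine Finset.sum_congr rfl fun l _ => ?_
  rw [← zsmul_eq_mul, map_zsmul, zsmul_eq_mul]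

omit [DecidableEq ι] in
theorem map_int_mul_right (lam : ℂ →ₗ[ℚ] ℚ) (A : Matrix ι ι ℤ) (M : Matrix ι ι ℂ) :
    (M * A.map (Int.cast : ℤ → ℂ)).map lam = M.map lam * A.map (Int.cast : ℤ → ℚ) := by
  ext i j
  simp only [Matrix.map_apply, Matrix.mul_apply, map_sum]
  refine Finset.sum_congr rfl fun l _ => ?_
  rw [mul_comm, ← zsmul_eq_mul, map_zsmul, zsmul_eq_mul, mul_comm]

/-- An integral matrix commuting with given ones, anticommuting with another one, of nonzero
determinant, exists as soon as a complex one does. -/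
theorem exists_int_matrix (S : Set (Matrix ι ι ℤ)) (I : Matrix ι ι ℤ) (M : Matrix ι ι ℂ)
    (hS : ∀ A ∈ S, A.map (Int.cast : ℤ → ℂ) * M = M * A.map (Int.cast : ℤ → ℂ))
    (hI : I.map (Int.cast : ℤ → ℂ) * M = -(M * I.map (Int.cast : ℤ → ℂ))) (hM : M.det ≠ 0) :
    ∃ N : Matrix ι ι ℤ, (∀ A ∈ S, A * N = N * A) ∧ I * N = -(N * I) ∧ N.det ≠ 0 := by
  classical
  let b := Module.Free.chooseBasis ℚ ℂ
  let s := Finset.univ.biUnion fun q : ι × ι => (b.repr (M q.1 q.2)).support
  have hMsum : ∀ i j, M i j = ∑ m : s, b m * ((b.coord m (M i j) : ℚ) : ℂ) := fun i j => by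
    conv_lhs => rw [← b.linearCombination_repr (M i j)]
    rw [Finsupp.linearCombination_apply, Finsupp.sum,
      Finset.sum_coe_sort s fun m => b m * ((b.coord m (M i j) : ℚ) : ℂ)]
    have hsub : (b.repr (M i j)).support ⊆ s :=
      fun m hm => Finset.mem_biUnion.mpr ⟨(i, j), Finset.mem_univ _, hm⟩
    rw [Finset.sum_subset hsub fun m _ hm => by
      rw [Finsupp.notMem_support_iff.mp hm, zero_smul]]
    refine Finset.sum_congr rfl fun m _ => ?_
    rw [Algebra.smul_def, mul_comm]
    rfl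
  let Ms : s → Matrix ι ι ℚ := fun m => M.map (b.coord m)
  have hSs : ∀ A ∈ S, ∀ m, A.map (Int.cast : ℤ → ℚ) * Ms m = Ms m * A.map (Int.cast : ℤ → ℚ) :=
    fun A hA m => by
      rw [← map_int_mul_left, hS A hA, map_int_mul_right]
  have hIs : ∀ m, I.map (Int.cast : ℤ → ℚ) * Ms m = -(Ms m * I.map (Int.cast : ℤ → ℚ)) :=
    fun m => by
      rw [← map_int_mul_left, hI, ← map_int_mul_right, Matrix.map_neg (f := b.coord m) (map_neg _)]
  -- the determinant of the general combination
  let G : Matrix ι ι (MvPolynomial s ℚ) :=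
    fun i j => ∑ m : s, MvPolynomial.X m * MvPolynomial.C (Ms m i j)
  have hG : G.det ≠ 0 := fun h0 => hM <| by
    have := congrArg (MvPolynomial.eval₂Hom (Rat.castHom ℂ) fun m : s => b m) h0
    rw [RingHom.map_det, map_zero] at this
    convert this
    refine Matrix.ext fun i j => ?_
    rw [hMsum i j, RingHom.mapMatrix_apply, Matrix.map_apply]
    simp [G, Ms]
  obtain ⟨x, hx⟩ : ∃ x : s → ℚ, MvPolynomial.eval x G.det ≠ 0 := by
    by_contra h
    push Not at h
    exact hG (MvPolynomial.funext fun x => by rw [h x, map_zero])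
  set Q : Matrix ι ι ℚ := ∑ m : s, x m • Ms m with hQ
  have hQdet : Q.det ≠ 0 := by
    rw [RingHom.map_det] at hx
    convert hx using 2
    refine Matrix.ext fun i j => ?_
    simp [hQ, G, Ms, Matrix.sum_apply]
  -- clear denominators
  set d : ℕ := ∏ q : ι × ι, (Q q.1 q.2).den with hd
  have hd0 : d ≠ 0 := Finset.prod_ne_zero_iff.mpr fun q _ => (Q q.1 q.2).den_nz
  let N : Matrix ι ι ℤ := fun i j => (Q i j).num * ↑(d / (Q i j).den)
  have hN : N.map (Int.cast : ℤ → ℚ) = (d : ℚ) • Q := Matrix.ext fun i j => by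
    have hdvd : (Q i j).den ∣ d :=
      Finset.dvd_prod_of_mem (fun q : ι × ι => (Q q.1 q.2).den) (Finset.mem_univ (i, j))
    show (((Q i j).num * ↑(d / (Q i j).den) : ℤ) : ℚ) = (d : ℚ) * Q i j
    rw [Int.cast_mul, Int.cast_natCast, Nat.cast_div_charZero hdvd]
    conv_rhs => rw [← Rat.num_div_den (Q i j)]
    ring
  have hinj : Function.Injective fun A : Matrix ι ι ℤ => A.map (Int.cast : ℤ → ℚ) :=
    Matrix.map_injective Int.cast_injective
  have hmul : ∀ A B : Matrix ι ι ℤ, (A * B).map (Int.cast : ℤ → ℚ) =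
      A.map (Int.cast : ℤ → ℚ) * B.map (Int.cast : ℤ → ℚ) := fun A B =>
    Matrix.map_mul (f := Int.castRingHom ℚ)
  refine ⟨N, fun A hA => hinj ?_, hinj ?_, fun h0 => ?_⟩
  · show (A * N).map Int.cast = (N * A).map Int.cast
    rw [hmul, hmul, hN, Matrix.mul_smul, Matrix.smul_mul, hQ, Matrix.mul_sum, Matrix.sum_mul]
    simp only [Matrix.mul_smul, Matrix.smul_mul, hSs A hA]
  · show (I * N).map Int.cast = (-(N * I)).map Int.cast
    rw [Matrix.map_neg (f := (Int.cast : ℤ → ℚ)) Int.cast_neg, hmul, hmul, hN, Matrix.mul_smul,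
      Matrix.smul_mul, hQ, Matrix.mul_sum, Matrix.sum_mul]
    simp only [Matrix.mul_smul, Matrix.smul_mul, hIs, smul_neg, Finset.sum_neg_distrib]
  · have : ((d : ℚ) • Q).det = 0 := by
      rw [← hN]
      exact ((Int.castRingHom ℚ).map_det N).symm.trans (by simp [h0])
    rw [Matrix.det_smul, mul_eq_zero] at this
    exact this.elim (pow_ne_zero _ (by exact_mod_cast hd0)) hQdet

end FLTAgent.MazurStep
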