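import Fermat.Agent.HeckeJacobian.LatticePeriods
import Fermat.Agent.MazurStep.SignMatrix
import Fermat.Agent.Periods.EichlerShimura
import Mathlib.LinearAlgebra.Matrix.ToLin

/-!
# An endomorphism of the lattice exchanging the eigenspaces of the reflection

Multiplication by `i` on holomorphic and by `-i` on antiholomorphic periods commutes with the
Hecke operators and anticommutes with the reflection; hence some integral endomorphism of the
lattice of nonzero determinant does.
-/

set_option autoImplicit false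

noncomputable section

open UpperHalfPlane CongruenceSubgroup AlgebraicCurve ModularCurve
open ModularCurve.Period
open scoped MatrixGroups

namespace FLTAgent.MazurStep

open FLTAgent.HeckeJacobian FLTAgent.Periods

local notation "Qbar" => AlgebraicClosure ℚ

variable {N : ℕ} [NeZero N]

/-- The reflection `φ ↦ -φ(ε · ε)` on the lattice. -/
def latticeIota : Module.End ℤ (charLattice N) :=
  (AddMonoidHom.mk' (fun φ => (⟨-(charInvolution N ℤ ℤ φ.1),
      neg_mem (charInvolution_mem_parabolicHoms N ℤ ℤ φ.2)⟩ : charLattice N))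
    fun φ ψ => Subtype.ext (by
      show -(charInvolution N ℤ ℤ (φ.1 + ψ.1)) = -(charInvolution N ℤ ℤ φ.1) +
          -(charInvolution N ℤ ℤ ψ.1)
      rw [map_add, neg_add])).toIntLinearMap

omit [NeZero N] in
theorem coe_latticeIota (φ : charLattice N) :
    (latticeIota φ).1 = -(charInvolution N ℤ ℤ φ.1) := rfl

theorem heckeHom_smul_complex (ℓ : ℕ) [NeZero ℓ] (z : ℂ) (ψ : Additive (Gamma0 N) →+ ℂ) :
    heckeHom N ℓ ℂ (z • ψ) = z • heckeHom N ℓ ℂ ψ :=
  heckeHom_comp N ℓ (AddMonoidHom.mulLeft z) ψ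

theorem exists_heckeHom_periodMap (ℓ : Nat.Primes) (a : CuspForm (Gamma0 N) 2) :
    haveI : NeZero (ℓ : ℕ) := ⟨ℓ.2.ne_zero⟩
    ∃ a', heckeHom N ℓ ℂ (ModularCurve.periodMap N a) = ModularCurve.periodMap N a' := by
  have := FLTAgent.Periods.finiteDimensional_cuspForm_two N
  obtain ⟨h, rfl⟩ := LinearMap.injective_iff_surjective.mp (frickeLin_injective N) a
  exact ⟨_, heckeHom_periodMap_fricke ℓ h⟩

theorem conjForm_conjForm (f : CuspForm (Gamma0 N) 2) : conjForm (conjForm f) = f := by
  ext τ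
  rw [conjForm_apply, conjForm_apply, Complex.conj_conj, ← mul_smul, ← sq, UpperHalfPlane.J_sq,
    one_smul]

/-- Reflected periods are conjugates of periods. -/
theorem charInvolution_periodMap (b : CuspForm (Gamma0 N) 2) :
    charInvolution N ℂ ℂ (ModularCurve.periodMap N b) =
      -((starRingEnd ℂ).toAddMonoidHom.comp (ModularCurve.periodMap N (conjForm b))) := by
  refine AddMonoidHom.ext fun γ => ?_
  obtain ⟨γ, rfl⟩ := Additive.ofMul.surjective γ
  show ModularCurve.periodMap N b (Additive.ofMul (jConjGamma0 N γ)) =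
    -(starRingEnd ℂ (ModularCurve.periodMap N (conjForm b) (Additive.ofMul γ)))
  rw [periodMap_conjForm, map_neg, Complex.conj_conj, neg_neg]

theorem exists_heckeHom_reflected (ℓ : Nat.Primes) (b : CuspForm (Gamma0 N) 2) :
    haveI : NeZero (ℓ : ℕ) := ⟨ℓ.2.ne_zero⟩
    ∃ b', heckeHom N ℓ ℂ (charInvolution N ℂ ℂ (ModularCurve.periodMap N b)) =
      charInvolution N ℂ ℂ (ModularCurve.periodMap N b') := by
  have : NeZero (ℓ : ℕ) := ⟨ℓ.2.ne_zero⟩
  obtain ⟨a, ha⟩ := exists_heckeHom_periodMap ℓ (conjForm b)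
  refine ⟨conjForm a, ?_⟩
  rw [charInvolution_periodMap, charInvolution_periodMap, map_neg, heckeHom_comp, ha,
    conjForm_conjForm]

variable (N) in
/-- Pairs of forms and complex parabolic homomorphisms. -/
def periodPairLin : (CuspForm (Gamma0 N) 2 × CuspForm (Gamma0 N) 2) →ₗ[ℂ]
    (Additive (Gamma0 N) →+ ℂ) :=
  LinearMap.coprod (periodMapLin N) ((charInvolution N ℂ ℂ).comp (periodMapLin N))

theorem periodPairLin_apply (a b : CuspForm (Gamma0 N) 2) :
    periodPairLin N (a, b) =
      ModularCurve.periodMap N a + charInvolution N ℂ ℂ (ModularCurve.periodMap N b) := rfl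

theorem periodHomPair_eq (q : CuspForm (Gamma0 N) 2 × CuspForm (Gamma0 N) 2) :
    periodHomPair N q = periodPairLin N (q.1 + q.2, q.1 - q.2) := by
  obtain ⟨f, g⟩ := q
  rw [periodPairLin_apply, periodHomPair_apply, ← periodMapLin_apply, ← periodMapLin_apply,
    ← periodMapLin_apply, ← periodMapLin_apply]
  rw [map_add, map_sub, map_sub]
  abel

theorem periodPairLin_injective : Function.Injective (periodPairLin N) := by
  rw [injective_iff_map_eq_zero]
  rintro ⟨a, b⟩ h
  have h2 : periodHomPair N (a + b, a - b) = 0 := by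
    rw [periodHomPair_eq, show (((a + b, a - b) : _ × _).1 + ((a + b, a - b) : _ × _).2,
      ((a + b, a - b) : _ × _).1 - ((a + b, a - b) : _ × _).2) = (2 : ℂ) • (a, b) from
      Prod.ext (show a + b + (a - b) = (2 : ℂ) • a by rw [two_smul]; abel)
        (show a + b - (a - b) = (2 : ℂ) • b by rw [two_smul]; abel), map_smul, h, smul_zero]
  have h3 := (map_eq_zero_iff _ (FLTAgent.Periods.periodHomPair_eichlerShimura N).1).mp h2
  simp only [Prod.mk_eq_zero] at h3
  obtain ⟨h4, h5⟩ := h3
  have hab : a = b := sub_eq_zero.mp h5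
  subst hab
  have : (2 : ℂ) • a = 0 := by rw [two_smul]; exact h4
  rw [(smul_eq_zero.mp this).resolve_left two_ne_zero]
  rfl

theorem range_periodPairLin :
    LinearMap.range (periodPairLin N) = parabolicHoms ℂ (Gamma0 N) ℂ := by
  rw [← (FLTAgent.Periods.periodHomPair_eichlerShimura N).2]
  refine le_antisymm ?_ ?_
  · rintro _ ⟨⟨a, b⟩, rfl⟩
    refine ⟨(2⁻¹ : ℂ) • (a + b, a - b), ?_⟩
    rw [map_smul, periodHomPair_eq, ← map_smul]
    congr 1
    refine Prod.ext ?_ ?_
    · show (2⁻¹ : ℂ) • ((a + b) + (a - b)) = a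
      rw [add_add_sub_cancel, ← two_smul ℂ a, smul_smul, inv_mul_cancel₀ two_ne_zero, one_smul]
    · show (2⁻¹ : ℂ) • ((a + b) - (a - b)) = b
      rw [add_sub_sub_cancel, ← two_smul ℂ b, smul_smul, inv_mul_cancel₀ two_ne_zero, one_smul]
  · rintro _ ⟨q, rfl⟩
    exact ⟨_, (periodHomPair_eq q).symm⟩

theorem mul_eq_neg_mul_of_toMatrix {R M κ : Type*} [CommRing R] [AddCommGroup M] [Module R M]
    [Fintype κ] [DecidableEq κ] (b : Module.Basis κ R M) {A B : Module.End R M}
    (h : LinearMap.toMatrix b b A * LinearMap.toMatrix b b B =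
      -(LinearMap.toMatrix b b B * LinearMap.toMatrix b b A)) : A * B = -(B * A) := by
  refine (LinearMap.toMatrixAlgEquiv b).injective ?_
  rw [map_mul, map_neg, map_mul]
  exact h

theorem mul_apply_eq_det_smul {R M κ : Type*} [CommRing R] [AddCommGroup M] [Module R M]
    [Fintype κ] [DecidableEq κ] (b : Module.Basis κ R M) (K : Matrix κ κ R) (φ : M) :
    Matrix.toLin b b K.adjugate (Matrix.toLin b b K φ) = K.det • φ := by
  rw [← LinearMap.comp_apply, ← Matrix.toLin_mul b b b, Matrix.adjugate_mul, map_smul,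
    Matrix.toLin_one]
  rfl

variable {p : ℕ} [Fact p.Prime] [Algebra Qbar ℂ]

/-- An integral endomorphism of nonzero determinant commuting with the Hecke operators and
anticommuting with the reflection. -/
theorem exists_lattice_sign (hT : TorsionCount N p) :
    ∃ (j j' : Module.End ℤ (charLattice N)) (d : ℤ), d ≠ 0 ∧
      (∀ t : HeckeAlg, latticeEval hT t * j = j * latticeEval hT t) ∧
      latticeIota * j = -(j * latticeIota) ∧ ∀ φ, j' (j φ) = d • φ := by
  classical
  let W := parabolicHoms ℂ (Gamma0 N) ℂ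
  have : Module.Finite ℂ W := FLTAgent.Periods.finite_parabolicHoms (K := ℂ) (Γ := Gamma0 N)
    (by simp [Gamma0_mem])
  let cC : charLattice N →+ W := AddMonoidHom.mk'
    (fun φ => ⟨(Int.castAddHom ℂ).comp φ.1, fun γ hγ => by simp [φ.2 γ hγ]⟩)
    fun φ ψ => Subtype.ext (AddMonoidHom.ext fun x => map_add (Int.castAddHom ℂ) _ _)
  -- the basis
  let b := Module.Free.chooseBasis ℤ (charLattice N)
  let vC : Module.Free.ChooseBasisIndex ℤ (charLattice N) → W := fun i => cC (b i)
  have hrepr : ∀ φ, cC φ = ∑ i, ((b.repr φ i : ℤ) : ℂ) • vC i := fun φ => by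
    conv_lhs => rw [← b.sum_repr φ]
    rw [map_sum]
    refine Finset.sum_congr rfl fun i _ => ?_
    rw [map_zsmul]
    exact (Int.cast_smul_eq_zsmul ℂ _ _).symm
  have hspan : ⊤ ≤ Submodule.span ℂ (Set.range vC) := by
    rintro ⟨ψ, hψ⟩ -
    obtain ⟨κ, _, c, φ, he⟩ := exists_sum_charLattice hψ
    have : (⟨ψ, hψ⟩ : W) = ∑ i, c i • cC (φ i) := Subtype.ext (by
      rw [Submodule.coe_sum]
      show ψ = _
      rw [he]
      refine Finset.sum_congr rfl fun i _ => AddMonoidHom.ext fun x => ?_
      show zmultiplesHom ℂ (c i) ((φ i).1 x) = c i • (((φ i).1 x : ℤ) : ℂ)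
      rw [zmultiplesHom_apply, zsmul_eq_mul, smul_eq_mul, mul_comm])
    rw [this]
    refine sum_mem fun i _ => Submodule.smul_mem _ _ ?_
    rw [hrepr]
    exact sum_mem fun l _ => Submodule.smul_mem _ _ (Submodule.subset_span ⟨l, rfl⟩)
  have hcard : Fintype.card (Module.Free.ChooseBasisIndex ℤ (charLattice N)) =
    Module.finrank ℂ W := by
    refine le_antisymm ?_ ?_
    · rw [← Module.finrank_eq_card_chooseBasisIndex]
      exact finrank_charLattice_le N
    · have h := finrank_range_le_card (R := ℂ) vC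
      rw [Set.finrank, top_le_iff.mp hspan, finrank_top] at h
      exact h
  let bW := basisOfTopLeSpanOfCardEqFinrank vC hspan hcard
  have hbW : ∀ i, bW i = vC i := fun i =>
    congrFun (coe_basisOfTopLeSpanOfCardEqFinrank vC hspan hcard) i
  -- compatibility of matrices
  have hmat : ∀ (T : Module.End ℤ (charLattice N)) (S : Module.End ℂ W),
      (∀ φ, S (cC φ) = cC (T φ)) →
      LinearMap.toMatrix bW bW S = (LinearMap.toMatrix b b T).map (Int.cast : ℤ → ℂ) := by
    intro T S h
    refine Matrix.ext fun i l => ?_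
    have : S (bW l) = ∑ m, ((b.repr (T (b l)) m : ℤ) : ℂ) • bW m := by
      rw [hbW, h, hrepr]
      simp only [hbW]
    rw [LinearMap.toMatrix_apply, this, bW.repr_sum_self, Matrix.map_apply,
      LinearMap.toMatrix_apply]
  -- multiplication by `i`
  let e := LinearEquiv.ofBijective
    (LinearMap.codRestrict W (periodPairLin N) fun q =>
      (le_of_eq (range_periodPairLin (N := N))) (LinearMap.mem_range_self _ q))
    ⟨fun q q' h => periodPairLin_injective (congrArg Subtype.val h), fun w => by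
      obtain ⟨q, hq⟩ : (w : Additive (Gamma0 N) →+ ℂ) ∈ LinearMap.range (periodPairLin N) :=
        (range_periodPairLin (N := N)).symm ▸ w.2
      exact ⟨q, Subtype.ext hq⟩⟩
  let J₀ : Module.End ℂ (CuspForm (Gamma0 N) 2 × CuspForm (Gamma0 N) 2) :=
    LinearMap.prodMap (Complex.I • LinearMap.id) (-(Complex.I • LinearMap.id))
  let J : Module.End ℂ W := e.toLinearMap ∘ₗ J₀ ∘ₗ e.symm.toLinearMap
  have hJ : ∀ a a', J (e (a, a')) = e (Complex.I • a, -(Complex.I • a')) := fun a a' => by
    show e (J₀ (e.symm (e (a, a')))) = _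
    rw [e.symm_apply_apply]
    rfl
  have hJ2 : J * J = -1 := LinearMap.ext fun w => by
    obtain ⟨⟨a, a'⟩, rfl⟩ := e.surjective w
    rw [Module.End.mul_apply, hJ, hJ, LinearMap.neg_apply, Module.End.one_apply, ← map_neg]
    congr 1
    refine Prod.ext ?_ ?_
    · show Complex.I • Complex.I • a = -a
      rw [smul_smul, Complex.I_mul_I, neg_one_smul]
    · show -(Complex.I • -(Complex.I • a')) = -a'
      rw [smul_neg, smul_smul, Complex.I_mul_I, neg_one_smul, neg_neg]
  -- the Hecke operators on the complex homomorphisms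
  have hTW : ∀ ℓ : Nat.Primes, ∃ S : Module.End ℂ W, S * J = J * S ∧
      ∀ φ, S (cC φ) = cC (latticeHecke hT ℓ φ) := fun ℓ => by
    have : NeZero (ℓ : ℕ) := ⟨ℓ.2.ne_zero⟩
    let T : (Additive (Gamma0 N) →+ ℂ) →ₗ[ℂ] (Additive (Gamma0 N) →+ ℂ) :=
      { toFun := heckeHom N ℓ ℂ
        map_add' := map_add _
        map_smul' := fun z ψ => heckeHom_smul_complex (ℓ : ℕ) z ψ }
    have hpair : ∀ q, ∃ q', T (periodPairLin N q) = periodPairLin N q' ∧
        T (periodPairLin N (Complex.I • q.1, -(Complex.I • q.2))) =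
          periodPairLin N (Complex.I • q'.1, -(Complex.I • q'.2)) := fun ⟨a, a'⟩ => by
      obtain ⟨c₁, h₁⟩ := exists_heckeHom_periodMap ℓ a
      obtain ⟨c₂, h₂⟩ := exists_heckeHom_reflected ℓ a'
      have h₁' : T (periodMapLin N a) = periodMapLin N c₁ := h₁
      have h₂' : T (charInvolution N ℂ ℂ (periodMapLin N a')) =
          charInvolution N ℂ ℂ (periodMapLin N c₂) := h₂
      refine ⟨(c₁, c₂), ?_, ?_⟩ <;>
        simp only [periodPairLin, LinearMap.coprod_apply, LinearMap.comp_apply, map_add, map_neg,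
          map_smul, h₁', h₂']
    have hpres : ∀ ψ ∈ W, T ψ ∈ W := fun ψ hψ => by
      obtain ⟨q, rfl⟩ : ψ ∈ LinearMap.range (periodPairLin N) :=
        (range_periodPairLin (N := N)).symm ▸ hψ
      obtain ⟨q', hq', -⟩ := hpair q
      rw [hq']
      exact (le_of_eq (range_periodPairLin (N := N))) (LinearMap.mem_range_self _ q')
    refine ⟨T.restrict hpres, LinearMap.ext fun w => ?_, fun φ => Subtype.ext ?_⟩
    · obtain ⟨⟨a, a'⟩, rfl⟩ := e.surjective w
      obtain ⟨⟨c₁, c₂⟩, h₁, h₂⟩ := hpair (a, a')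
      have e1 : T.restrict hpres (e (a, a')) = e (c₁, c₂) := Subtype.ext h₁
      have e2 : T.restrict hpres (e (Complex.I • a, -(Complex.I • a'))) =
          e (Complex.I • c₁, -(Complex.I • c₂)) := Subtype.ext h₂
      rw [Module.End.mul_apply, Module.End.mul_apply, hJ, e1, hJ, e2]
    · show heckeHom N ℓ ℂ ((Int.castAddHom ℂ).comp φ.1) = (Int.castAddHom ℂ).comp _
      rw [heckeHom_comp, coe_latticeHecke]
  -- the reflection
  let R : Module.End ℂ W := -((charInvolution N ℂ ℂ).restrict
    fun _ h => charInvolution_mem_parabolicHoms N ℂ ℂ h)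
  have hR : R * J = -(J * R) := LinearMap.ext fun w => by
    obtain ⟨⟨a, a'⟩, rfl⟩ := e.surjective w
    have hRe : ∀ x y, R (e (x, y)) = e (-y, -x) := fun x y => Subtype.ext (by
      show -(charInvolution N ℂ ℂ (periodPairLin N (x, y))) = periodPairLin N (-y, -x)
      simp only [periodPairLin, LinearMap.coprod_apply, LinearMap.comp_apply, map_add, map_neg,
        charInvolution_charInvolution]
      abel)
    rw [Module.End.mul_apply, hJ, hRe, LinearMap.neg_apply, Module.End.mul_apply, hRe, hJ,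
      ← map_neg]
    congr 1
    refine Prod.ext ?_ ?_ <;> simp
  have hRc : ∀ φ, R (cC φ) = cC (latticeIota φ) := fun φ =>
    Subtype.ext (AddMonoidHom.ext fun x => by
    show -(((φ.1 (Additive.ofMul (jConjGamma0 N (Additive.toMul x))) : ℤ)) : ℂ) =
      (((-(φ.1 (Additive.ofMul (jConjGamma0 N (Additive.toMul x))))) : ℤ) : ℂ)
    rw [Int.cast_neg])
  -- descend to the integers
  set M := LinearMap.toMatrix bW bW J with hMdef
  have hMdet : M.det ≠ 0 := fun h0 => by
    have := congrArg Matrix.det (LinearMap.toMatrix_mul bW J J)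
    rw [hJ2, Matrix.det_mul, ← hMdef, h0, mul_zero,
      map_neg (LinearMap.toMatrix bW bW) (_ : W →ₗ[ℂ] W), LinearMap.toMatrix_one, Matrix.det_neg,
      Matrix.det_one, mul_one] at this
    exact pow_ne_zero _ (by norm_num) this
  obtain ⟨K, hKT, hKI, hK0⟩ := exists_int_matrix
    (Set.range fun ℓ : Nat.Primes => LinearMap.toMatrix b b (latticeHecke hT ℓ))
    (LinearMap.toMatrix b b latticeIota) M
    (by
      rintro _ ⟨ℓ, rfl⟩
      obtain ⟨S, hSJ, hSc⟩ := hTW ℓ
      rw [← hmat _ S hSc, hMdef, ← LinearMap.toMatrix_mul, ← LinearMap.toMatrix_mul, hSJ])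
    (by rw [← hmat _ R hRc, hMdef, ← LinearMap.toMatrix_mul, ← LinearMap.toMatrix_mul, hR,
        map_neg (LinearMap.toMatrix bW bW) (_ : W →ₗ[ℂ] W)])
    hMdet
  let j : Module.End ℤ (charLattice N) := Matrix.toLin b b K
  have hj : LinearMap.toMatrix b b j = K := LinearMap.toMatrix_toLin b b K
  refine ⟨j, Matrix.toLin b b K.adjugate, K.det, hK0, fun t => ?_, ?_, fun φ => ?_⟩
  · have hgen : ∀ ℓ, latticeHecke hT ℓ * j = j * latticeHecke hT ℓ := fun ℓ =>
      (LinearMap.toMatrix b b).injective (by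
        rw [LinearMap.toMatrix_mul, LinearMap.toMatrix_mul, hj]
        exact hKT _ ⟨ℓ, rfl⟩)
    induction t using MvPolynomial.induction_on with
    | C a => rw [latticeEval_C]; exact (Int.cast_commute a j).eq
    | add s t hs ht => rw [map_add, add_mul, mul_add, hs, ht]
    | mul_X t ℓ ht =>
      rw [map_mul, show (MvPolynomial.X ℓ : HeckeAlg) = heckeGen ℓ from rfl, latticeEval_heckeGen]
      exact Commute.mul_left ht (hgen ℓ)
  · exact mul_eq_neg_mul_of_toMatrix b (by rw [hj]; exact hKI)
  · exact mul_apply_eq_det_smul b K φ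

end FLTAgent.MazurStep
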