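import Fermat.Agent.MazurStep.Reflect
import Fermat.Agent.MazurStep.LatticeConj
import Fermat.Agent.MazurStep.Fields
import Fermat.Agent.HeckeJacobian.Main

/-!
# Complex conjugation fixes about half of every Hecke direct summand of the torsion

`exists_conjugation_bound`: an endomorphism anticommuting with complex conjugation shows that its
invariants on a Hecke direct summand of `J₀(N)[r^k]` are about half of it.
-/

set_option autoImplicit false

noncomputable section

open AlgebraicCurve ModularCurve CongruenceSubgroup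

namespace FLTAgent.MazurStep

open FLTAgent.Density FLTAgent.HeckeJacobian

section Abstract

variable {J : Type} [AddCommGroup J] [DistribMulAction GalQ J]

/-- The count, from an endomorphism of the `n`-torsion anticommuting with an involution. -/
theorem card_piece_le_of_sign (T : J →+ J) (c : GalQ) (n D : ℕ) (hc2 : c * c = 1)
    (hT : ∀ x, T (c • x) = c • T x) [Finite (killedBy J n)]
    (jJ : killedBy J n →+ killedBy J n)
    (hjT : ∀ a b : killedBy J n, (b : J) = T a → (jJ b : J) = T (jJ a))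
    (hjc : ∀ a b : killedBy J n, (b : J) = c • (a : J) → (jJ b : J) = -(c • (jJ a : J)))
    {S : AddSubgroup J} [Finite S] (hS : Nat.card S ≤ D)
    (hker : ∀ a, jJ a = 0 → (a : J) ∈ S) :
    Nat.card (piece T n) ≤ D * Nat.card ↥(piece T n ⊓ fixedBy {c}) ^ 2 := by
  classical
  set G := piece T n with hG
  have hGk : ∀ g ∈ G, n • g = 0 := by
    rintro _ ⟨a, ha, rfl⟩
    rw [← map_nsmul, show n • a = 0 from ha, map_zero]
  have : Finite G := Finite.of_surjective
    (fun a : killedBy J n => (⟨T a, a, a.2, rfl⟩ : G))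
    fun ⟨_, a, ha, ea⟩ => ⟨⟨a, ha⟩, Subtype.ext ea⟩
  let δ : G →+ killedBy J n := AddMonoidHom.mk' (fun g => ⟨c • (g : J) - g, by
      rw [mem_killedBy, smul_sub, ← gal_smul_nsmul, hGk _ g.2, smul_zero, sub_zero]⟩)
    fun a b => Subtype.ext (by
      show c • ((a : J) + b) - ((a : J) + b) = c • (a : J) - a + (c • (b : J) - b)
      rw [smul_add]; abel)
  set Gc := G ⊓ fixedBy {c}
  have : Finite Gc := Finite.of_injective (fun g : Gc => (⟨(g : J), g.2.1⟩ : G))
    fun a b h => Subtype.ext (congrArg (fun t : G => (t : J)) h)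
  -- the image
  let f : G →+ killedBy J n := jJ.comp δ
  have hmem : ∀ g, (f g : J) ∈ Gc := by
    intro g
    obtain ⟨a, ha, hag⟩ := g.2
    have hca : c • a - a ∈ killedBy J n := by
      rw [mem_killedBy, smul_sub, ← gal_smul_nsmul, show n • a = 0 from ha, smul_zero, sub_zero]
    refine ⟨⟨(jJ ⟨c • a - a, hca⟩ : J), (jJ _).2, ?_⟩, ?_⟩
    · refine (hjT _ (δ g) ?_).symm
      show c • (g : J) - g = T (c • a - a)
      rw [map_sub, hT, hag]
    · intro σ hσ
      rw [Set.mem_singleton_iff] at hσ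
      rw [hσ]
      have h := hjc (δ g) (-δ g) (by
        show -(c • (g : J) - g) = c • (c • (g : J) - g)
        rw [smul_sub, ← mul_smul, hc2, one_smul, neg_sub])
      rw [map_neg, AddSubgroup.coe_neg, neg_inj] at h
      exact h.symm
  have hrange : Nat.card f.range ≤ Nat.card Gc :=
    Nat.card_le_card_of_injective (fun b => (⟨(b : killedBy J n), by
        obtain ⟨g, hg⟩ := b.2; rw [← hg]; exact hmem g⟩ : Gc))
      fun a b h => Subtype.ext (Subtype.ext (congrArg (fun t : Gc => (t : J)) h))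
  -- the kernel
  let δ' : f.ker →+ killedBy J n := δ.comp f.ker.subtype
  have hrange' : Nat.card δ'.range ≤ D := by
    refine le_trans (Nat.card_le_card_of_injective (fun b => (⟨((b : killedBy J n) : J), by
        obtain ⟨g, hg⟩ := b.2
        refine hker _ ?_
        rw [← hg]
        exact g.2⟩ : S))
      fun a b h => Subtype.ext (Subtype.ext (congrArg (fun t : S => (t : J)) h))) hS
  have hker' : Nat.card δ'.ker ≤ Nat.card Gc :=
    Nat.card_le_card_of_injective (fun g => (⟨((g : f.ker) : G), ((g : f.ker) : G).2, fun σ hσ => by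
        rw [Set.mem_singleton_iff] at hσ
        rw [hσ]
        exact sub_eq_zero.mp (congrArg Subtype.val (g.2 : δ' g = 0))⟩ : Gc))
      fun a b h => Subtype.ext (Subtype.ext (Subtype.ext (congrArg (fun t : Gc => (t : J)) h)))
  rw [← card_range_mul_card_ker f, ← card_range_mul_card_ker δ']
  calc Nat.card f.range * (Nat.card δ'.range * Nat.card δ'.ker)
      ≤ Nat.card Gc * (D * Nat.card Gc) := by gcongr
    _ = D * Nat.card Gc ^ 2 := by ring

end Abstract

variable {N : ℕ} [NeZero N]

theorem kummerRel_eq_of_same [Algebra Qbar ℂ] {n : ℕ} (hn : n ≠ 0) {x y : JZero N}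
    {c : Additive (Gamma0 N) →+ Additive ℂˣ} (hx : KummerRel N n x c) (hy : KummerRel N n y c) :
    x = y := by
  have h := hx.add (hy.zsmul hn (-1))
  have h0 : c + (-1 : ℤ) • c = 0 := AddMonoidHom.ext fun g => by
    show c g + (-1 : ℤ) • c g = 0
    rw [neg_one_zsmul, add_neg_cancel]
  rw [h0] at h
  have h1 : x + (-1 : ℤ) • y = 0 := h.eq_zero hn
  rw [neg_one_zsmul, ← sub_eq_add_neg] at h1
  exact sub_eq_zero.mp h1

/-- Complex conjugation has about half of each Hecke direct summand of `J₀(N)[r^k]` as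
invariants. -/
theorem exists_conjugation_bound (r : ℕ) [Fact r.Prime] :
    ∃ D : ℕ, ∀ (k : ℕ) (t : HeckeAlg), letI := heckeModuleBar N
      Nat.card (piece (DistribSMul.toAddMonoidHom (JZero N) t) (r ^ k)) ≤
        D * Nat.card ↥(piece (DistribSMul.toAddMonoidHom (JZero N) t) (r ^ k) ⊓
          fixedBy {complexConjugation}) ^ 2 := by
  classical
  let : Algebra Qbar ℂ := complexEmbedding.toRingHom.toAlgebra
  have hσ : ∀ a, algebraMap Qbar ℂ (complexConjugation a) =
      starRingEnd ℂ (algebraMap Qbar ℂ a) := complexEmbedding_complexConjugation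
  have hr : r.Prime := Fact.out
  have hT := torsionCount (N := N) r
  obtain ⟨j, j', d, hd, hjt, hji, hjj⟩ := exists_lattice_sign hT
  obtain ⟨E, hE⟩ := exists_lift (N := N) hr
  let S : AddSubgroup (JZero N) := killedBy (JZero N) d.natAbs
  have : Finite S := (finite_torsion_jZero (Int.natAbs_ne_zero.mpr hd)).to_subtype
  refine ⟨Nat.card S, fun k t => ?_⟩
  let := heckeModuleBar N
  set n := r ^ k with hn
  have hn0 : n ≠ 0 := pow_ne_zero k hr.ne_zero
  have : Finite (killedBy (JZero N) n) := (finite_torsion_jZero hn0).to_subtype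
  -- the map from the lattice
  choose θ₀ hθ₀ using exists_kummerRel_redChar hT k (N := N)
  let θ : charLattice N →+ killedBy (JZero N) n :=
    AddMonoidHom.mk' (fun φ => ⟨θ₀ φ, (hθ₀ φ).nsmul_self_eq_zero⟩) fun φ ψ => Subtype.ext <| by
      refine kummerRel_eq_of_same hn0 (hθ₀ _) ?_
      rw [map_add]
      exact (hθ₀ φ).add (hθ₀ ψ)
  have hθeq : ∀ φ (x : killedBy (JZero N) n),
      KummerRel N n (x : JZero N) (redChar n φ) → θ φ = x := fun φ x h =>
    Subtype.ext (kummerRel_eq_of_same hn0 (hθ₀ φ) h)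
  have hθsurj : Function.Surjective θ := by
    intro x
    obtain ⟨y, hy⟩ := exists_nsmul_eq_jZero (pow_ne_zero E hr.ne_zero) (x : JZero N)
    have hy' : r ^ (k + E) • y = 0 := by rw [pow_add, mul_nsmul', hy]; exact x.2
    obtain ⟨d', hd'⟩ := KummerRel.exists_of_torsion (pow_ne_zero (k + E) hr.ne_zero) hy'
    obtain ⟨φ, hφ⟩ := hE k d' (hd'.parabolic (pow_ne_zero _ hr.ne_zero))
      (hd'.nsmul_eq_zero (pow_ne_zero _ hr.ne_zero))
    refine ⟨φ, hθeq φ x ?_⟩
    rw [pow_add] at hd'
    have := hd'.of_mul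
    rw [hy] at this
    show KummerRel N (r ^ k) _ (redChar (r ^ k) φ)
    rw [hφ]
    exact this
  have hθker : ∀ φ, θ φ = 0 → ∃ w, φ = n • w := fun φ h => by
    have h' := hθ₀ φ
    rw [show θ₀ φ = 0 from congrArg Subtype.val h] at h'
    exact (redChar_eq_zero_iff hn0).mp (h'.unique hn0 KummerRel.zero)
  have hle : θ.ker ≤ (θ.comp j.toAddMonoidHom).ker := fun φ hφ => by
    obtain ⟨w, rfl⟩ := hθker φ hφ
    show θ (j (n • w)) = 0
    rw [map_nsmul, map_nsmul]
    exact Subtype.ext (θ (j w)).2
  let jJ : killedBy (JZero N) n →+ killedBy (JZero N) n :=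
    θ.liftOfSurjective hθsurj ⟨θ.comp j.toAddMonoidHom, hle⟩
  have hjJ : ∀ φ, jJ (θ φ) = θ (j φ) := fun φ =>
    AddMonoidHom.liftOfRightInverse_comp_apply _ _ _ _ φ
  have hsmul : ∀ φ, (θ (latticeEval hT t φ) : JZero N) = t • (θ φ : JZero N) := fun φ =>
    kummerRel_eq_of_same hn0 (hθ₀ _) (kummerRel_smul hT k t _ φ (hθ₀ φ))
  have hconj : ∀ φ, (θ (latticeIota φ) : JZero N) = complexConjugation • (θ φ : JZero N) := fun φ =>
    kummerRel_eq_of_same hn0 (hθ₀ _)
      (kummerRel_conj_redChar hr.ne_zero hσ (coe_latticeIota φ) (hθ₀ φ))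
  have := FLTAgent.HeckeJacobian.smulCommClass_heckeModuleBar N
  refine card_piece_le_of_sign (DistribSMul.toAddMonoidHom (JZero N) t) complexConjugation n _
    complexConjugation_mul_self (fun x => (smul_comm complexConjugation t x).symm) jJ
    (fun a b hab => ?_) (fun a b hab => ?_) le_rfl fun a ha => ?_
  · obtain ⟨φ, rfl⟩ := hθsurj a
    have hb : b = θ (latticeEval hT t φ) := Subtype.ext (hab.trans (hsmul φ).symm)
    rw [hb, hjJ, hjJ, show j (latticeEval hT t φ) = latticeEval hT t (j φ) from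
      (LinearMap.congr_fun (hjt t) φ).symm]
    exact hsmul (j φ)
  · obtain ⟨φ, rfl⟩ := hθsurj a
    have hb : b = θ (latticeIota φ) := Subtype.ext (hab.trans (hconj φ).symm)
    rw [hb, hjJ, hjJ, show j (latticeIota φ) = -latticeIota (j φ) from by
      rw [← Module.End.mul_apply latticeIota j, hji, LinearMap.neg_apply, neg_neg,
        Module.End.mul_apply], map_neg, AddSubgroup.coe_neg, hconj]
  · obtain ⟨φ, rfl⟩ := hθsurj a
    rw [hjJ] at ha
    obtain ⟨w, hw⟩ := hθker _ ha
    have h := hjj φ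
    rw [hw, map_nsmul] at h
    have h2 : (d • θ φ : killedBy (JZero N) n) = 0 := by
      rw [← map_zsmul, ← h, map_nsmul]
      exact Subtype.ext (θ (j' w)).2
    show d.natAbs • (θ φ : JZero N) = 0
    have h3 : d • (θ φ : JZero N) = 0 := congrArg Subtype.val h2
    exact natAbs_nsmul_eq_zero.mpr h3

end FLTAgent.MazurStep
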