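import Fermat.Agent.MazurStep.Basics
import Fermat.Agent.HeckeJacobian.HeckeCommute
import Fermat.Prelude.Def_ModularCurve_ReductionModL

/-!
# What the Mazur step needs from the arithmetic of `J₀(p)`

The structure `JacobianFacts`: the properties of `J₀(p)`, its reductions, inertia and Hecke
operators consumed by `MazurStep.Argument`.
-/

set_option autoImplicit false

noncomputable section

namespace FLTAgent.MazurStep

open FLTAgent.Density ModularCurve

/-- The arithmetic of `J₀(p)` used by the Mazur step. -/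
structure JacobianFacts (p r : ℕ) [NeZero p] : Prop where
  /-- Mordell–Weil. -/
  fg : AddGroup.FG (rationalPts (JZero p))
  divisible : ∀ (n : ℕ), n ≠ 0 → ∀ P : JZero p, ∃ Q : JZero p, n • Q = P
  finite_torsion : ∀ n : ℕ, n ≠ 0 → {x : JZero p | n • x = 0}.Finite
  stab : ∀ x : JZero p, ∃ L : IntermediateField ℚ Qbar, FiniteDimensional ℚ L ∧
    ∀ σ : GalQ, (∀ z ∈ L, σ z = z) → σ • x = x
  /-- Reduction at a place of good reduction is injective on torsion prime to its residue
  characteristic. -/
  injective : ∀ q : ℕ, q.Prime → q ≠ p → ∀ A : ValuationSubring Qbar, A.LiesOverPrime q →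
    ∀ (m : ℕ) (z : JZero p), ¬ q ∣ m → m • z = 0 → reductionModL A p z = 0 → z = 0
  /-- Reduction commutes with inertia. -/
  inertia : ∀ q : ℕ, q.Prime → q ≠ p → ∀ A : ValuationSubring Qbar, A.LiesOverPrime q →
    ∀ σ ∈ A.inertiaSubgroupIn ℚ, ∀ z : JZero p,
      reductionModL A p (σ • z) = reductionModL A p z
  /-- The kernel of reduction is stable under Hecke operators. -/
  hecke : ∀ q : ℕ, q.Prime → q ≠ p → ∀ A : ValuationSubring Qbar, A.LiesOverPrime q →
    ∀ (t : HeckeAlg) (z : JZero p), reductionModL A p z = 0 →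
      reductionModL A p (letI := heckeModuleBar p; t • z) = 0
  quadratic : letI := heckeModuleBar p
    haveI := FLTAgent.HeckeJacobian.smulCommClass_heckeModuleBar p
    FrobeniusQuadratic (K := ℚ) (L := Qbar) p r (JZero p)
  /-- Inertia at `p` is unipotent of level two on divisions of rational points. -/
  inertiaSq : ∀ A : ValuationSubring Qbar, A.LiesOverPrime p → ∀ (k : ℕ),
    ∀ σ ∈ A.inertiaSubgroupIn ℚ, ∀ Q : JZero p,
      (∀ ρ : GalQ, ρ • (r ^ k • Q) = r ^ k • Q) → σ • (σ • Q - Q) = σ • Q - Q
  /-- Divisions of rational points give torsors which are flat at `r`. -/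
  torsor : ∀ (k : ℕ) (Q : JZero p), (∀ σ : GalQ, σ • (r ^ k • Q) = r ^ k • Q) →
    HasTorsorModel r (r ^ k) Q
  /-- Complex conjugation has at least about half of every Hecke direct summand as invariants. -/
  conjugation : ∃ D : ℕ, ∀ (k : ℕ) (t : HeckeAlg), letI := heckeModuleBar p
    (∀ x : JZero p, r ^ k • x = 0 → t • t • x = t • x) →
      Nat.card (piece (DistribSMul.toAddMonoidHom (JZero p) t) (r ^ k)) ≤
        D * Nat.card ↥(piece (DistribSMul.toAddMonoidHom (JZero p) t) (r ^ k) ⊓
          fixedBy {complexConjugation}) ^ 2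

end FLTAgent.MazurStep
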