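import Fermat.Agent.MazurStep.InertiaSq
import Fermat.Agent.MazurStep.Inputs
import Fermat.Agent.Deuring.Modular
import Fermat.Agent.GaloisAttach.Stabilizer
import Fermat.Agent.GammaH.Orders
import Fermat.Agent.GammaH.Conj

/-!
# Rational classes on `X₀(N)` have rational divisors, and the unipotence at a bad prime

The cusp at infinity is a rational place. Hence, given a pair reduction of `X₀(N)` on which inertia
acts trivially, inertia is unipotent of level two on divisions of rational points.
-/

set_option autoImplicit false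

noncomputable section

open AlgebraicCurve ModularCurve

namespace FLTAgent.MazurStep

open FLTAgent.FFBasic FLTAgent.Density FLTAgent.Semistable FLTAgent.Semistable.PairReduction

variable (N : ℕ) [NeZero N]

theorem order_coeffMap_equiv (σ : GalQ) (f : LaurentSeries Qbar) :
    (coeffMap (σ : Qbar →+* Qbar) f).order = f.order := by
  rcases eq_or_ne f 0 with rfl | hf
  · rw [map_zero]
  refine le_antisymm (HahnSeries.order_le_of_coeff_ne_zero ?_) (le_of_not_gt fun h => ?_)
  · rw [coeffMap_coeff]
    simpa using HahnSeries.coeff_order_eq_zero.not.mpr hf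
  · have hne : coeffMap (σ : Qbar →+* Qbar) f ≠ 0 := fun h0 => hf <| HahnSeries.ext <|
      funext fun i => by simpa using congrArg (fun z : LaurentSeries Qbar => z.coeff i) h0
    refine HahnSeries.coeff_order_eq_zero.not.mpr hne ?_
    rw [coeffMap_coeff, HahnSeries.coeff_eq_zero_of_lt_order h, map_zero]

/-- The order at the cusp at infinity. -/
def qOrderVal : GammaH.IntVal Qbar (modularFunctionFieldBar N) where
  w x := (x : LaurentSeries Qbar).order
  map_mul x y hx hy := HahnSeries.order_mul (by simpa using hx) (by simpa using hy)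
  map_add x y hx hy hxy := HahnSeries.min_order_le_order_add (x := (x : LaurentSeries Qbar))
    (y := (y : LaurentSeries Qbar)) (fun h => hxy (Subtype.ext h))
  map_const c hc := by
    show (algebraMap Qbar (LaurentSeries Qbar) c).order = 0
    rw [algebraMap_laurentSeries_eq_single]
    exact HahnSeries.order_single (by simpa using hc)

/-- A place fixed by all of Galois. -/
theorem exists_galois_fixed_place : ∃ O : Place Qbar (modularFunctionFieldBar N),
    ∀ σ : GalQ, arithmeticGalois (modularFunctionFieldFull N) σ • O = O := by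
  have := FLTAgent.GaloisAttach.isFunctionField_bar N
  have hj : jqModC Qbar ∈ modularFunctionFieldBar N := Deuring.Modular.jqModC_mem_FF Qbar N
  have hord : (jqModC Qbar).order = -1 := by
    refine le_antisymm (HahnSeries.order_le_of_coeff_ne_zero ?_) (le_of_not_gt fun h => ?_)
    · rw [coeff_jqModC_neg_one]; exact one_ne_zero
    · exact HahnSeries.coeff_order_eq_zero.not.mpr (jqModC_ne_zero_of_nontrivial Qbar)
        (GammaH.coeff_jqModC_below (by omega))
  obtain ⟨v, e, he, hv⟩ := (qOrderVal N).exists_place ⟨⟨jqModC Qbar, hj⟩,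
    fun h => jqModC_ne_zero_of_nontrivial Qbar (congrArg Subtype.val h),
    fun h => by have h' : (jqModC Qbar).order = 0 := h; omega⟩
  refine ⟨v, fun σ => (place_ext_ord fun f hf => ?_).symm⟩
  set g := arithmeticGalois (modularFunctionFieldFull N) σ
  rcases eq_or_ne f 0 with rfl | hf0
  · simp
  have h1 : v.ord (g⁻¹ • f) = v.ord f := by
    have hg : g⁻¹ • f ≠ 0 := fun h => hf0 ((inv_smul_eq_iff.1 h).trans (smul_zero g))
    have h2 := hv _ hg
    have h3 : (qOrderVal N).w (g⁻¹ • f) = (qOrderVal N).w f := by
      show ((g⁻¹ • f : modularFunctionFieldBar N) : LaurentSeries Qbar).order = _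
      rw [show g⁻¹ = arithmeticGalois (modularFunctionFieldFull N) σ⁻¹ from (map_inv _ σ).symm]
      exact (congrArg HahnSeries.order (coe_arithmeticGalois_smul _ σ⁻¹ f)).trans
        (order_coeffMap_equiv σ⁻¹ _)
    rw [h3, hv _ hf0] at h2
    exact mul_left_cancel₀ (by omega) h2.symm
  have h4 := SemilinearAut.ord_smul g v (g⁻¹ • f)
  rw [smul_inv_smul] at h4
  omega

variable {N}
variable {k : Type*} [Field k] {A : ValuationSubring Qbar} {π : A →+* k}
variable {F₁ F₂ : Type*} [Field F₁] [Field F₂] [Algebra k F₁] [Algebra k F₂]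
  {ι : Type*} [Fintype ι]

/-- Inertia is unipotent of level two on divisions of rational points. -/
theorem inertiaSq_of_pairReduction [IsAlgClosed k] [IsFunctionField k F₁] [IsFunctionField k F₂]
    (C : PairReduction A π (modularFunctionFieldBar N) F₁ F₂ ι) {m : ℕ} (hA : Admissible π m)
    (σ : GalQ) (Φ : Morph C C) (hg : Φ.g = arithmeticGalois (modularFunctionFieldFull N) σ)
    (h₁ : ∀ a, Φ.σ₁ a = a) (h₂ : ∀ a, Φ.σ₂ a = a) (hτ : ∀ c, Φ.τ c = c)
    (hperm : ∀ s, Φ.perm s = s) {Q : JZero N} (hQ : ∀ ρ : GalQ, ρ • (m • Q) = m • Q) :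
    σ • (σ • Q - Q) = σ • Q - Q := by
  have := FLTAgent.GaloisAttach.isFunctionField_bar N
  have : IsCurveOver Qbar (modularFunctionFieldBar N) := inferInstance
  obtain ⟨O, hO⟩ := exists_galois_fixed_place N
  obtain ⟨DP, hDP, hfix⟩ := exists_fixed_divisor O (m • Q)
    (Set.range (arithmeticGalois (modularFunctionFieldFull N)))
    fun g ⟨ρ, hρ⟩ => hρ ▸ ⟨hO ρ, hQ ρ⟩
  have h := smul_smul_sub_of_fixed Φ hA h₁ h₂ hτ hperm (hg ▸ hfix _ ⟨σ, rfl⟩) hDP.symm
  rw [hg] at h
  exact h

end FLTAgent.MazurStep
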