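import Fermat.Agent.Semistable.Relations
import Fermat.Agent.Jacobian.Descent

/-!
# Inertia on divisions of fixed classes, for a pair reduction

A division of a class with a fixed divisor is moved by a morphism trivial on the reductions into
the toric part. A class fixed by semilinear automorphisms fixing a place has a fixed divisor.
-/

set_option autoImplicit false

noncomputable section

open AlgebraicCurve FLTAgent.FFBasic FLTAgent.FFRiemannRoch

namespace FLTAgent.MazurStep

open FLTAgent.Semistable FLTAgent.Semistable.PairReduction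

section Fixed

variable {K F : Type*} [Field K] [Field F] [Algebra K F] [IsFunctionField K F] [IsAlgClosed K]
  [IsCurveOver K F]

open FLTAgent.Jacobian in
/-- A fixed class has a fixed divisor. -/
theorem exists_fixed_divisor (O : Place K F) (y : Pic0 K F) (S : Set (SemilinearAut K F))
    (hS : ∀ g ∈ S, g • O = O ∧ g • y = y) :
    ∃ D : Divisor.degZero (K := K) (F := F), Pic0.mk D = y ∧
      ∀ g ∈ S, g • (D : Divisor K F) = D := by
  obtain ⟨E, hE⟩ := exists_isMinimalRep O y
  refine ⟨_, hE.2.1, fun g hg => ?_⟩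
  obtain ⟨hO, hy⟩ := hS g hg
  have hrel : ∀ (h : SemilinearAut K F) (E' : Divisor K F), h • O = O →
      h • relClass O E' = relClass O (h • E') := fun h E' hhO => by
    rw [relClass, relClass, SemilinearAut.pic0_smul_mk]
    refine congrArg Pic0.mk (Subtype.ext ?_)
    rw [SemilinearAut.coe_degZeroSMulHom, smul_sub, SemilinearAut.smul_single, hhO]
    show _ = h • E' - Finsupp.single O (Divisor.degree (h • E'))
    rw [SemilinearAut.degree_smul]
  have hnonneg : ∀ (h : SemilinearAut K F) {E' : Divisor K F}, 0 ≤ E' → 0 ≤ h • E' :=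
    fun h E' h' w => by rw [SemilinearAut.divisor_smul_apply]; exact h' _
  have hgE : g • E = E := by
    refine isMinimalRep_unique ⟨hnonneg g hE.1, ?_, fun E' hE' hy' => ?_⟩ hE
    · rw [← hrel g E hO, hE.2.1, hy]
    · rw [SemilinearAut.degree_smul, ← SemilinearAut.degree_smul g⁻¹ E']
      refine hE.2.2 _ (hnonneg g⁻¹ hE') ?_
      rw [← hrel g⁻¹ E' (inv_smul_eq_iff.2 hO.symm), hy', inv_smul_eq_iff, hy]
  show g • (E - Finsupp.single O (Divisor.degree E)) = E - Finsupp.single O (Divisor.degree E)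
  rw [smul_sub, SemilinearAut.smul_single, hO, hgE]

end Fixed

variable {L k : Type*} [Field L] [Field k] {A : ValuationSubring L} {π : A →+* k}
variable {F F₁ F₂ : Type*} [Field F] [Field F₁] [Field F₂]
  [Algebra L F] [Algebra k F₁] [Algebra k F₂] {ι : Type*} [Fintype ι]
variable {C : PairReduction A π F F₁ F₂ ι} {m : ℕ}
variable [IsAlgClosed k] [IsFunctionField k F₁] [IsFunctionField k F₂]
  [IsAlgClosed L] [IsFunctionField L F]
variable (Φ : Morph C C)


omit [IsFunctionField k F₁] [IsFunctionField k F₂] [IsFunctionField L F] in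
/-- A morphism trivial on the reductions moves divisions of fixed divisors by toric classes. -/
theorem isTorus_sub_of_fixed (hm : 0 < m) (h₁ : ∀ a, Φ.σ₁ a = a) (h₂ : ∀ a, Φ.σ₂ a = a)
    {Q : Pic0 L F} {DP : Divisor.degZero (K := L) (F := F)}
    (hDP : Φ.g • (DP : Divisor L F) = DP) (hQ : m • Q = Pic0.mk DP) :
    C.IsTorus m (Φ.g • Q - Q) := by
  obtain ⟨D, rfl⟩ := Pic0.mk_surjective Q
  have h : (Pic0.mk (m • D - DP) : Pic0 L F) = 0 := by
    show (QuotientAddGroup.mk (m • D - DP) : Pic0 L F) = 0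
    rw [QuotientAddGroup.mk_sub, QuotientAddGroup.mk_nsmul, sub_eq_zero]
    exact hQ
  rw [Pic0.mk, QuotientAddGroup.eq_zero_iff, AddSubgroup.mem_addSubgroupOf] at h
  obtain ⟨f, hf, hfD⟩ := h
  obtain ⟨c₁, -, hm₁, hr₁⟩ := C.b₁.exists_red_ne_zero hf
  obtain ⟨c₂, -, hm₂, hr₂⟩ := C.b₂.exists_red_ne_zero hf
  set c : L × L := (c₁, c₂)
  have hc : C.Mem c f := ⟨hm₁, hm₂⟩
  have hfv : ∀ v, (m : ℤ) * (D : Divisor L F) v - (DP : Divisor L F) v = v.ord f := fun v => by
    simpa using hfD v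
  have hfv' : ∀ v, (m : ℤ) * (Φ.g • (D : Divisor L F)) v - (DP : Divisor L F) v =
      v.ord (Φ.g • f) := fun v => by
    have h' := SemilinearAut.ord_smul Φ.g (Φ.g⁻¹ • v) f
    rw [smul_inv_smul] at h'
    rw [h', ← hfv, ← SemilinearAut.divisor_smul_apply, ← SemilinearAut.divisor_smul_apply, hDP]
  have hred : C.red (Φ.base c * c ^ (m - 1)) (Φ.g • f * f ^ (m - 1)) =
      (Φ.σ₁ (C.red c f).1, Φ.σ₂ (C.red c f).2) * C.red c f ^ (m - 1) := by
    rw [red_mul (Φ.mem_map hc) (hc.pow _), red_pow hc, Φ.red_map hc]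
  let T : C.TorsionData m :=
    { D := Φ.g • (D : Divisor L F) + (m - 1) • (D : Divisor L F) - (DP : Divisor L F)
      degree_eq := by
        rw [map_sub, map_add, SemilinearAut.degree_smul, map_nsmul,
          Divisor.mem_degZero.1 D.2, Divisor.mem_degZero.1 DP.2]
        simp
      f := Φ.g • f * f ^ (m - 1)
      f_ne := mul_ne_zero (Φ.smul_ne hf) (pow_ne_zero _ hf)
      div_eq := fun v => by
        rw [v.ord_mul (Φ.smul_ne hf) (pow_ne_zero _ hf), ← zpow_natCast, v.ord_zpow, ← hfv',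
          ← hfv, Finsupp.sub_apply, Finsupp.add_apply, Finsupp.smul_apply, nsmul_eq_mul,
          Nat.cast_sub (by omega : 1 ≤ m)]
        push_cast
        ring
      c := Φ.base c * c ^ (m - 1)
      mem := (Φ.mem_map hc).mul (hc.pow _)
      ne₁ := by
        rw [hred, Prod.fst_mul, Prod.pow_fst, h₁]
        exact mul_ne_zero hr₁ (pow_ne_zero _ hr₁)
      ne₂ := by
        rw [hred, Prod.snd_mul, Prod.pow_snd, h₂]
        exact mul_ne_zero hr₂ (pow_ne_zero _ hr₂) }
  have e : T.cls = Φ.g • Pic0.mk D - Pic0.mk D := by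
    have h' : T.cls = Φ.g • Pic0.mk D + (m - 1) • Pic0.mk D - Pic0.mk DP := by
      rw [SemilinearAut.pic0_smul_mk]
      rfl
    rw [h', ← hQ]
    obtain ⟨n, rfl⟩ := Nat.exists_eq_succ_of_ne_zero hm.ne'
    rw [Nat.succ_sub_one, succ_nsmul]
    abel
  rw [← e]
  refine isTorus_of_bar hm T (φ := C.red c f) (a₁ := 1) (a₂ := 1) ?_ ?_
  · show (C.red (Φ.base c * c ^ (m - 1)) (Φ.g • f * f ^ (m - 1))).1 = _
    rw [hred, Prod.fst_mul, Prod.pow_fst, h₁, ← pow_succ', Nat.sub_add_cancel hm, one_smul]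
  · show (C.red (Φ.base c * c ^ (m - 1)) (Φ.g • f * f ^ (m - 1))).2 = _
    rw [hred, Prod.snd_mul, Prod.pow_snd, h₂, ← pow_succ', Nat.sub_add_cancel hm, one_smul]

/-- Inertia type morphisms are unipotent of echelon two on divisions of fixed divisors. -/
theorem smul_smul_sub_of_fixed (hA : Admissible π m) (h₁ : ∀ a, Φ.σ₁ a = a)
    (h₂ : ∀ a, Φ.σ₂ a = a) (hτ : ∀ c, Φ.τ c = c) (hperm : ∀ s, Φ.perm s = s)
    {Q : Pic0 L F} {DP : Divisor.degZero (K := L) (F := F)}
    (hDP : Φ.g • (DP : Divisor L F) = DP) (hQ : m • Q = Pic0.mk DP) :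
    Φ.g • (Φ.g • Q - Q) = Φ.g • Q - Q :=
  Φ.smul_eq_self hA hτ hperm (isTorus_sub_of_fixed Φ hA.pos h₁ h₂ hDP hQ)

end FLTAgent.MazurStep
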