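import Fermat.Agent.Semistable.Branches
import Fermat.Agent.SemistableHecke.TrivFrob
import Fermat.Agent.Density.Frobenius

/-!
# Inertia on the two branches of `X₀(Mq)` at `q`

Inertia preserves both Gauss branches and acts trivially on their residues.
-/

set_option autoImplicit false

noncomputable section

open AlgebraicCurve ModularCurve

namespace FLTAgent.MazurStep

open FLTAgent.Semistable FLTAgent.Semistable.Level

local notation "Qbar" => AlgebraicClosure ℚ

section Inertia

variable {A : ValuationSubring Qbar} {σ : Qbar ≃ₐ[ℚ] Qbar}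

/-- Inertia preserves the valuation ring. -/
theorem inertia_mem (hσ : σ ∈ A.inertiaSubgroupIn ℚ) {x : Qbar} (hx : x ∈ A) : σ x ∈ A := by
  have h := (Density.mem_inertiaSubgroupIn_iff.mp hσ).2 x hx
  obtain ⟨h1, -⟩ := ValuationSubring.mem_nonunits_iff_exists_mem_maximalIdeal.mp h
  simpa using add_mem h1 hx

/-- Inertia acts trivially on residues. -/
theorem residue_inertia (hσ : σ ∈ A.inertiaSubgroupIn ℚ) (x : A) :
    IsLocalRing.residue A ⟨σ x, inertia_mem hσ x.2⟩ = IsLocalRing.residue A x := by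
  obtain ⟨h1, h2⟩ := ValuationSubring.mem_nonunits_iff_exists_mem_maximalIdeal.mp
    ((Density.mem_inertiaSubgroupIn_iff.mp hσ).2 x x.2)
  rw [← sub_eq_zero, ← map_sub, IsLocalRing.residue_eq_zero_iff]
  exact h2

end Inertia

variable {M q : ℕ} [NeZero M] [Fact q.Prime] {k : Type} [Field k]
variable {A : ValuationSubring Qbar} {π : A →+* k}
variable {σ : Qbar ≃ₐ[ℚ] Qbar} {hd : ∀ a ∈ A, σ a ∈ A}

/-- An automorphism preserving `A` acts on the Gauss branch at infinity through its residual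
action on the coefficients. -/
theorem gauss_galois {τ : k ≃+* k} (hτ : ∀ a : A, π ⟨σ a, hd a a.2⟩ = τ (π a))
    {f : modularFunctionFieldBar (M * q)} (hf : f ∈ Gauss.ring A π (ι₁ M q)) :
    ∃ h : arithmeticGalois (modularFunctionFieldFull (M * q)) σ • f ∈ Gauss.ring A π (ι₁ M q),
      Gauss.res A π (ι₁ M q) ⟨_, h⟩ =
        coeffMap (τ : k →+* k) (Gauss.res A π (ι₁ M q) ⟨f, hf⟩) := by
  obtain ⟨y, z, hz, he⟩ := hf
  set s : A →+* A :=
    ((σ : Qbar →+* Qbar).comp A.subtype).codRestrict A.toSubring fun a => hd a a.2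
  have hincl : ∀ y : LaurentSeries A,
      Gauss.incl A (coeffMap s y) = coeffMap (σ : Qbar →+* Qbar) (Gauss.incl A y) := fun y => by
    rw [Gauss.incl, coeffMap_coeffMap, coeffMap_coeffMap]
    exact coeffMap_congr (RingHom.ext fun a => rfl) y
  have hred : ∀ y : LaurentSeries A,
      coeffMap π (coeffMap s y) = coeffMap (τ : k →+* k) (coeffMap π y) := fun y => by
    rw [coeffMap_coeffMap, coeffMap_coeffMap]
    exact coeffMap_congr (RingHom.ext fun a => hτ a) y
  have he' : ι₁ M q (arithmeticGalois (modularFunctionFieldFull (M * q)) σ • f) *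
      Gauss.incl A (coeffMap s z) = Gauss.incl A (coeffMap s y) := by
    rw [hincl, hincl, ← he, map_mul]
    congr 1
  have hz' : coeffMap π (coeffMap s z) ≠ 0 := fun h0 =>
    hz (CongruenceRel.coeffMap_injective (f := (τ : k →+* k)) τ.injective
      (((hred z).symm.trans h0).trans (map_zero _).symm))
  refine ⟨⟨coeffMap s y, coeffMap s z, hz', he'⟩, ?_⟩
  refine (Gauss.res_mk A π (ι₁ M q) _ hz' he').trans (Eq.trans ?_
    (congrArg (coeffMap (τ : k →+* k)) (Gauss.res_mk A π (ι₁ M q) _ hz he)).symm)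
  rw [hred, hred, map_div₀]

/-- An automorphism preserving `A` and trivial modulo `π` preserves the Gauss branch at infinity
and its residues. -/
theorem gauss_smul (hπ : ∀ a : A, π ⟨σ a, hd a a.2⟩ = π a)
    {f : modularFunctionFieldBar (M * q)} (hf : f ∈ Gauss.ring A π (ι₁ M q)) :
    ∃ h : arithmeticGalois (modularFunctionFieldFull (M * q)) σ • f ∈ Gauss.ring A π (ι₁ M q),
      Gauss.res A π (ι₁ M q) ⟨_, h⟩ = Gauss.res A π (ι₁ M q) ⟨f, hf⟩ := by
  obtain ⟨h, e⟩ := gauss_galois (τ := RingEquiv.refl k) hπ hf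
  exact ⟨h, e.trans (coeffMap_id _)⟩

theorem w_smul (I : ALData M q) (f : modularFunctionFieldBar (M * q)) :
    I.w (arithmeticGalois (modularFunctionFieldFull (M * q)) σ • f) =
      arithmeticGalois (modularFunctionFieldFull (M * q)) σ • I.w f :=
  (SemistableHecke.al_intertwines I.w_alpha I.w_beta σ f).symm

variable [IsAlgClosed k] [CharP k q] (S : Setting M q A π)

theorem branch₁_smul (hπ : ∀ a : A, π ⟨σ a, hd a a.2⟩ = π a)
    {f : modularFunctionFieldBar (M * q)} (hf : f ∈ (branch₁ S).O) :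
    ∃ h : arithmeticGalois (modularFunctionFieldFull (M * q)) σ • f ∈ (branch₁ S).O,
      (branch₁ S).res ⟨_, h⟩ = (branch₁ S).res ⟨f, hf⟩ := by
  obtain ⟨h, e⟩ := gauss_smul (M := M) (q := q) hπ (f := f) hf
  exact ⟨h, Subtype.ext e⟩

theorem branch₂_smul (hπ : ∀ a : A, π ⟨σ a, hd a a.2⟩ = π a)
    {f : modularFunctionFieldBar (M * q)} (hf : f ∈ (branch₂ S).O) :
    ∃ h : arithmeticGalois (modularFunctionFieldFull (M * q)) σ • f ∈ (branch₂ S).O,
      (branch₂ S).res ⟨_, h⟩ = (branch₂ S).res ⟨f, hf⟩ := by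
  obtain ⟨h, e⟩ := gauss_smul (M := M) (q := q) hπ ((mem_ring₂_iff π S.al f).mp hf)
  have h' : arithmeticGalois (modularFunctionFieldFull (M * q)) σ • f ∈
      Gauss.ring A π (ι₂ S.al) := (mem_ring₂_iff π S.al _).mpr (by rw [w_smul]; exact h)
  refine ⟨h', Subtype.ext ?_⟩
  rw [coe_res₂, coe_res₂, res₂_eq π S.al h', res₂_eq π S.al hf, ← e]
  exact congrArg _ (Subtype.ext (w_smul S.al f))

end FLTAgent.MazurStep
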