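import Fermat.Agent.ECReduction.GlobalInertia
import Mathlib.NumberTheory.Padics.PadicVal.Basic

/-!
# Inertia and the `q`-adic value of radicals of rational numbers

If every inertia group at `q` fixes an `r`-th root of a rational `a`, then `r` divides the
`q`-adic valuation of `a`.
-/

set_option autoImplicit false

noncomputable section

open scoped Pointwise NumberField

namespace FLTAgent.MazurStep

open FLTAgent.Density FLTAgent.ECReduction

/-- A radical fixed by all inertia groups at `q` has no `q` to the first power under it. -/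
theorem not_fixed_radical {q r : ℕ} (hq : q.Prime) (hr : 2 ≤ r) {β : Qbar} {n : ℤ}
    (hn : ¬ (q : ℤ) ∣ n) (hβ : β ^ r = (q : Qbar) * (n : Qbar))
    (hfix : ∀ A : ValuationSubring Qbar, A.LiesOverPrime q →
      ∀ σ ∈ A.inertiaSubgroupIn ℚ, σ β = β) : False := by
  let F : IntermediateField ℚ Qbar := IntermediateField.adjoin ℚ {β}
  have : FiniteDimensional ℚ F :=
    IntermediateField.adjoin.finiteDimensional (Algebra.IsIntegral.isIntegral β)
  let L := IntermediateField.normalClosure ℚ F Qbar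
  have : FiniteDimensional ℚ L := normalClosure.is_finiteDimensional ℚ F Qbar
  have : IsGalois ℚ L := IsGalois.normalClosure ℚ F Qbar
  have : NumberField L := { }
  have hβL : β ∈ L := IntermediateField.le_normalClosure F
    (IntermediateField.subset_adjoin ℚ _ rfl)
  have hL : ∀ A : ValuationSubring Qbar, A.LiesOverPrime q →
      ∀ σ ∈ A.inertiaSubgroupIn ℚ, ∀ x ∈ L, σ x = x := by
    intro A hA σ hσ x hx
    let S : Subgroup GalQ := Subgroup.closure {σ}
    suffices h' : L ≤ IntermediateField.fixedField S from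
      (IntermediateField.mem_fixedField_iff _ _).1 (h' hx) σ (Subgroup.subset_closure rfl)
    rw [show L = ⨆ f : F →ₐ[ℚ] Qbar, f.fieldRange from normalClosure_def ..]
    refine iSup_le fun f => ?_
    obtain ⟨ρ, hρ⟩ : ∃ ρ : GalQ, ∀ z : F, ρ (z : Qbar) = f z :=
      ⟨AlgEquiv.ofBijective (f.liftNormal Qbar) (AlgHom.normal_bijective ℚ Qbar Qbar _),
        fun z => f.liftNormal_commutes Qbar z⟩
    have hle : F ≤ (IntermediateField.fixedField S).comap ρ.toAlgHom := by
      rw [IntermediateField.adjoin_le_iff, Set.singleton_subset_iff]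
      show ρ β ∈ IntermediateField.fixedField S
      rw [IntermediateField.mem_fixedField_iff]
      intro g hg
      have : S ≤ MulAction.stabilizer GalQ (ρ β) := by
        rw [Subgroup.closure_le, Set.singleton_subset_iff]
        show σ (ρ β) = ρ β
        have hfix' := hfix _ (smul_liesOverPrime ρ⁻¹ hA) (ρ⁻¹ * σ * ρ)
          (by simpa using mem_inertiaSubgroupIn_smul hσ ρ⁻¹)
        have := congrArg ρ hfix'
        simpa [← AlgEquiv.mul_apply, mul_assoc] using this
      exact this hg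
    rintro _ ⟨z, rfl⟩
    show f z ∈ IntermediateField.fixedField S
    rw [← hρ]
    exact hle z.2
  -- a prime of `L` above `q`
  obtain ⟨P, hPmax, hqP⟩ : ∃ P : Ideal (𝓞 L), P.IsMaximal ∧ (q : 𝓞 L) ∈ P := by
    have hne : Ideal.span {(q : 𝓞 L)} ≠ ⊤ := fun htop => by
      have hu : IsUnit (q : 𝓞 L) := Ideal.span_singleton_eq_top.1 htop
      obtain ⟨A, hA⟩ := exists_liesOverPrime (q := q) hq
      obtain ⟨u, hu⟩ := hu.exists_right_inv
      have h1 := congrArg (fun z : 𝓞 L => ((z : L) : Qbar)) hu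
      push_cast at h1
      have hum : ((u : L) : Qbar) ∈ A :=
        mem_of_isIntegral A ((u.isIntegral_coe).map (L.val.restrictScalars ℤ))
      have hlt : A.valuation ((q : Qbar) * ((u : L) : Qbar)) < 1 := by
        rw [map_mul]
        exact lt_of_le_of_lt (mul_le_of_le_one_right' ((A.valuation_le_one_iff _).2 hum))
          (A.mem_nonunits_iff.1 hA)
      simp [h1] at hlt
    obtain ⟨P, hP, hle⟩ := Ideal.exists_le_maximal _ hne
    exact ⟨P, hP, hle (Ideal.subset_span rfl)⟩
  have := hPmax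
  have htriv : ∀ τ ∈ P.inertia (L ≃ₐ[ℚ] L), τ = 1 := fun τ hτ => by
    obtain ⟨A, hA, σ, hσ, hστ⟩ := exists_inertia_lift_of_mem L P hq hqP hτ
    exact AlgEquiv.ext fun y => Subtype.ext ((hστ y).symm.trans (hL A hA σ hσ _ y.2))
  have hP0 : P ≠ ⊥ := Ideal.IsMaximal.ne_bot_of_isIntegral_int P
  have : (P.under ℤ).IsMaximal := Ideal.isMaximal_comap_of_isIntegral_of_isMaximal P
  have : Finite (ℤ ⧸ P.under ℤ) :=
    Ideal.finiteQuotientOfFreeOfNeBot _ fun h0 => hP0 (Ideal.eq_bot_of_comap_eq_bot h0)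
  have : PerfectField (P.under ℤ).ResidueField := PerfectField.ofFinite
  have hcard : Nat.card (P.inertia (L ≃ₐ[ℚ] L)) = 1 := by
    rw [(Subgroup.eq_bot_iff_forall _).2 htriv, Subgroup.card_bot]
  rw [Ideal.card_inertia_eq_ramificationIdxIn (G := L ≃ₐ[ℚ] L) (P.under ℤ) P,
    Ideal.ramificationIdxIn_eq_ramificationIdx (P.under ℤ) P (L ≃ₐ[ℚ] L)] at hcard
  -- but `q ∈ P ^ 2`
  have hunder : P.under ℤ = Ideal.span {(q : ℤ)} := by
    symm
    refine ((Ideal.span_singleton_prime (by exact_mod_cast hq.ne_zero)).2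
      (Nat.prime_iff_prime_int.1 hq)).isMaximal (by simpa using hq.ne_zero) |>.eq_of_le
      (Ideal.IsPrime.ne_top inferInstance) ?_
    rw [Ideal.span_singleton_le_iff_mem, Ideal.under_def, Ideal.mem_comap, map_natCast]
    exact hqP
  let β' : 𝓞 L := ⟨⟨β, hβL⟩, by
    refine (isIntegral_algHom_iff (L.val.restrictScalars ℤ) Subtype.val_injective).1 ?_
    refine IsIntegral.of_pow (n := r) (by omega) ?_
    show IsIntegral ℤ (β ^ r)
    rw [hβ, show (q : Qbar) * (n : Qbar) = algebraMap ℤ Qbar (q * n) by simp]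
    exact isIntegral_algebraMap⟩
  have hβ' : β' ^ r = (q : 𝓞 L) * (n : 𝓞 L) := Subtype.ext (Subtype.ext hβ)
  have hnP : (n : 𝓞 L) ∉ P := fun hnP => hn (by
    have : n ∈ P.under ℤ := by
      rw [Ideal.under_def, Ideal.mem_comap, eq_intCast]; exact hnP
    rwa [hunder, Ideal.mem_span_singleton] at this)
  have hβP : β' ∈ P := Ideal.IsPrime.mem_of_pow_mem inferInstance r
    (hβ' ▸ P.mul_mem_right _ hqP)
  have hq2 : (q : 𝓞 L) ∈ P ^ 2 := by
    obtain ⟨v, w, hw, e⟩ := Ideal.IsMaximal.exists_inv inferInstance hnP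
    have h1 : (q : 𝓞 L) * (n : 𝓞 L) ∈ P ^ 2 := by
      rw [← hβ']; exact Ideal.pow_le_pow_right hr (Ideal.pow_mem_pow hβP r)
    have h2 : (q : 𝓞 L) * w ∈ P ^ 2 := by rw [pow_two]; exact Ideal.mul_mem_mul hqP hw
    have := add_mem ((P ^ 2).mul_mem_left v h1) h2
    convert this using 1
    linear_combination -(q : 𝓞 L) * e
  have hle : Ideal.map (algebraMap ℤ (𝓞 L)) (P.under ℤ) ≤ P ^ 2 := by
    rw [hunder, Ideal.map_span, Set.image_singleton, Ideal.span_singleton_le_iff_mem, map_natCast]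
    exact hq2
  have hpne : P.under ℤ ≠ ⊥ := by
    rw [hunder, Ne, Ideal.span_singleton_eq_bot]; exact_mod_cast hq.ne_zero
  rw [← Ideal.ramificationIdx'_eq_ramificationIdx (P.under ℤ) P hpne] at hcard
  exact (Ideal.ramificationIdx'_ne_one_iff (hle.trans (Ideal.pow_le_self two_ne_zero))).2 hle hcard

/-- If every inertia group at `q` fixes an `r`-th root of `a`, then `r ∣ v_q(a)`. -/
theorem dvd_padicValRat_of_fixed {q r : ℕ} (hq : q.Prime) (hr : r.Prime) {a : ℚ} (ha : a ≠ 0)
    {α : Qbar} (hα : α ^ r = algebraMap ℚ Qbar a)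
    (hfix : ∀ A : ValuationSubring Qbar, A.LiesOverPrime q →
      ∀ σ ∈ A.inertiaSubgroupIn ℚ, σ α = α) : (r : ℤ) ∣ padicValRat q a := by
  have : Fact q.Prime := ⟨hq⟩
  by_contra hdvd
  set m := padicValRat q a
  obtain ⟨i, j, hij⟩ : ∃ i j : ℤ, i * m + (r : ℤ) * j = 1 := by
    obtain ⟨x, y, hxy⟩ := ((Nat.prime_iff_prime_int.1 hr).coprime_iff_not_dvd).2 hdvd
    exact ⟨y, x, by linear_combination hxy⟩
  set b : ℚ := a ^ i * (q : ℚ) ^ ((r : ℤ) * j - 1) with hb
  have hq0 : (q : ℚ) ≠ 0 := by exact_mod_cast hq.ne_zero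
  have hb0 : b ≠ 0 := mul_ne_zero (zpow_ne_zero _ ha) (zpow_ne_zero _ hq0)
  have hvb : padicValRat q b = 0 := by
    rw [hb, padicValRat.mul (zpow_ne_zero _ ha) (zpow_ne_zero _ hq0), padicValRat.zpow,
      padicValRat.zpow, padicValRat.self hq.one_lt]
    linarith
  have hb' : b.num ≠ 0 := Rat.num_ne_zero.2 hb0
  have hnum : ¬ (q : ℤ) ∣ b.num ∧ ¬ q ∣ b.den := by
    rw [padicValRat_def, sub_eq_zero, Nat.cast_inj] at hvb
    constructor
    · intro h
      have h1 : 1 ≤ padicValInt q b.num := by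
        rw [padicValInt]
        exact one_le_padicValNat_of_dvd (by simpa using hb') (by
          rw [← Int.natCast_dvd]; exact h)
      have h2 : 1 ≤ padicValNat q b.den := hvb ▸ h1
      exact Nat.not_coprime_of_dvd_of_dvd hq.one_lt (Int.natCast_dvd.1 h)
        (dvd_of_one_le_padicValNat h2) b.reduced
    · intro h
      have h1 : 1 ≤ padicValInt q b.num := by
        rw [hvb]; exact one_le_padicValNat_of_dvd b.den_nz h
      exact Nat.not_coprime_of_dvd_of_dvd hq.one_lt (dvd_of_one_le_padicValNat h1) h b.reduced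
  set β : Qbar := α ^ i * (q : Qbar) ^ j * (b.den : Qbar)
  refine not_fixed_radical hq hr.two_le (β := β) (n := b.num * (b.den : ℤ) ^ (r - 1)) ?_ ?_ ?_
  · intro h
    rcases (Nat.prime_iff_prime_int.1 hq).dvd_mul.1 h with h | h
    · exact hnum.1 h
    · exact hnum.2 (by exact_mod_cast (Nat.prime_iff_prime_int.1 hq).dvd_of_dvd_pow h)
  · have e : (algebraMap ℚ Qbar a) ^ i * (q : Qbar) ^ ((r : ℤ) * j) =
        (q : Qbar) * algebraMap ℚ Qbar b := by
      rw [hb, map_mul, map_zpow₀, map_zpow₀, map_natCast, mul_left_comm]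
      congr 1
      rw [show ((r : ℤ) * j) = 1 + ((r : ℤ) * j - 1) by ring, zpow_add₀
        (by exact_mod_cast hq.ne_zero), zpow_one]
      ring_nf
    have hbden : algebraMap ℚ Qbar b * (b.den : Qbar) = (b.num : Qbar) := by
      rw [← map_natCast (algebraMap ℚ Qbar), ← map_mul, Rat.mul_den_eq_num, map_intCast]
    have hr1 : r = r - 1 + 1 := by have := hr.pos; omega
    calc β ^ r = (algebraMap ℚ Qbar a) ^ i * (q : Qbar) ^ ((r : ℤ) * j) * (b.den : Qbar) ^ r := by
          simp only [β, mul_pow]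
          rw [← hα, ← zpow_natCast (α ^ i), ← zpow_natCast ((q : Qbar) ^ j), ← zpow_mul,
            ← zpow_mul, mul_comm i, mul_comm j, zpow_mul α, zpow_natCast]
      _ = _ := by
          rw [e]
          push_cast
          conv_lhs => rw [hr1, pow_succ]
          linear_combination (q : Qbar) * (b.den : Qbar) ^ (r - 1) * hbden
  · intro A hA σ hσ
    simp [β, map_zpow₀, hfix A hA σ hσ]

end FLTAgent.MazurStep
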