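import Fermat.Agent.MazurStep.InertiaSetting
import Fermat.Agent.MazurStep.CuspFixed

/-!
# Inertia at `q` is unipotent of level two on divisions of rational points of `J₀(Mq)`

`inertiaSq_of_setting` and its case of prime level `inertiaSq_prime`, the unipotence at `p` used
by S15.
-/

set_option autoImplicit false

noncomputable section

open AlgebraicCurve ModularCurve FLTAgent.Deuring FLTAgent.FFBasic

namespace FLTAgent.MazurStep

open FLTAgent.Semistable FLTAgent.Semistable.Level FLTAgent.Semistable.PairReduction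

local notation "Qbar" => AlgebraicClosure ℚ

variable {M q : ℕ} [NeZero M] [Fact q.Prime] {k : Type} [Field k] [IsAlgClosed k] [CharP k q]
variable {A : ValuationSubring Qbar} {π : A →+* k}
variable [IsFunctionField k (modularFunctionFieldFullC k M)]
variable (S : Setting M q A π)
  (hk : (hbar S : LaurentSeries k) ∈ IntermediateField.adjoin k {jqModC k})

/-- The morphism of an automorphism trivial modulo `π`. -/
def inertiaMorph {σ : Qbar ≃ₐ[ℚ] Qbar} (hd : ∀ a ∈ A, σ a ∈ A)
    (hπ : ∀ a : A, π ⟨σ a, hd a a.2⟩ = π a) :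
    Morph (pairReduction S hk) (pairReduction S hk) where
  g := arithmeticGalois (modularFunctionFieldFull (M * q)) σ
  τ := RingEquiv.refl k
  σ₁ := RingEquiv.refl _
  σ₂ := RingEquiv.refl _
  σ₁_algebraMap _ := rfl
  σ₂_algebraMap _ := rfl
  map_mem₁ _ hu := (branch₁_smul S hπ hu).1
  map_mem₂ _ hu := (branch₂_smul S hπ hu).1
  map_res₁ _ hu := (branch₁_smul S hπ hu).2
  map_res₂ _ hu := (branch₂_smul S hπ hu).2
  perm := id
  map_node₁ _ _ := rfl
  map_node₂ _ _ := rfl
  bound := ⟨1, by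
    have := FLTAgent.GaloisAttach.isFunctionField_bar (M * q)
    show _ • pol (K := Qbar) (jA M q) ≤ 1 • pol (K := Qbar) (jA M q)
    rw [one_smul, smul_pol (smul_jA σ)]⟩

include S hk in
/-- Inertia is unipotent of level two on divisions of rational points. -/
theorem inertiaSq_of_setting {m : ℕ} (hm : Admissible π m) {σ : Qbar ≃ₐ[ℚ] Qbar}
    (hd : ∀ a ∈ A, σ a ∈ A) (hπ : ∀ a : A, π ⟨σ a, hd a a.2⟩ = π a)
    {Q : JZero (M * q)} (hQ : ∀ ρ : Qbar ≃ₐ[ℚ] Qbar, ρ • (m • Q) = m • Q) :
    σ • (σ • Q - Q) = σ • Q - Q :=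
  inertiaSq_of_pairReduction (pairReduction S hk) hm σ (inertiaMorph S hk hd hπ) rfl
    (fun _ => rfl) (fun _ => rfl) (fun _ => rfl) (fun _ => rfl) hQ

omit [Fact q.Prime] in
/-- Inertia at `p` is unipotent of level two on divisions of rational points of `J₀(p)` of
multiplicity prime to `p`. -/
theorem inertiaSq_prime {p : ℕ} [NeZero p] (hp : p.Prime) {A : ValuationSubring Qbar}
    (hA : A.LiesOverPrime p) {m : ℕ} (hm : ¬ p ∣ m) {σ : Qbar ≃ₐ[ℚ] Qbar}
    (hσ : σ ∈ A.inertiaSubgroupIn ℚ) {Q : JZero p}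
    (hQ : ∀ ρ : Qbar ≃ₐ[ℚ] Qbar, ρ • (m • Q) = m • Q) : σ • (σ • Q - Q) = σ • Q - Q := by
  have : Fact p.Prime := ⟨hp⟩
  have : IsAlgClosed (IsLocalRing.ResidueField A) := Deuring.isAlgClosed_residueField A
  have := Semistable.charP_residueField hA
  have := (setting 1 p hp.not_dvd_one hA).isFunctionField
  have key : ∀ N [NeZero N], N = 1 * p → ∀ Q : JZero N,
      (∀ ρ : Qbar ≃ₐ[ℚ] Qbar, ρ • (m • Q) = m • Q) → σ • (σ • Q - Q) = σ • Q - Q := by
    intro N _ hN
    subst hN
    exact fun Q hQ => inertiaSq_of_setting (setting 1 p hp.not_dvd_one hA)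
      (hbar_mem_kj _ (setting 1 p hp.not_dvd_one hA)) (admissible_residue hA hm)
      (fun _ ha => inertia_mem hσ ha) (fun a => residue_inertia hσ a) hQ
  exact key p (one_mul p).symm Q hQ

end FLTAgent.MazurStep
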