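import Fermat.Agent.MazurStep.Argument
import Fermat.Agent.MazurStep.Conjugation
import Fermat.Agent.MazurStep.InertiaUnipotent
import Fermat.Agent.CongruenceRel.Assembly
import Fermat.Agent.MazurModuli.Main
import Fermat.Agent.MordellWeil.ModularCurveMW
import Fermat.Prelude.Def_EllipticCurve_ZeroComponentAt
import Fermat.Prelude.Def_FLTPrelim_Ramification

/-!
# Mazur's step: a rational point of order `p` avoids the zero components

`jacobianFacts` gives the facts about `J₀(p)`; with the moduli points of `MazurModuli.Main` the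
argument of `MazurStep.Argument` gives `not_inZeroComponentAt`, used by S15 and `IsogenyDescent`.
-/

set_option autoImplicit false

noncomputable section

open ModularCurve AlgebraicCurve WeierstrassCurve WeierstrassCurve.Affine

namespace FLTAgent.MazurStep

open FLTAgent.Density

theorem rationalPts_fg (p : ℕ) [NeZero p] :
    AddGroup.FG (rationalPts (JZero p)) := by
  have h := MordellWeil.jZero_fg_invariants p
  have e : rationalPts (JZero p) = FixedPoints.addSubgroup GalQ (JZero p) :=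
    SetLike.ext fun x => ⟨fun hx σ => mem_fixedBy.1 hx σ trivial, fun hx =>
        mem_fixedBy.2 fun σ _ => hx σ⟩
  rw [e]
  exact h

/-- The facts about `J₀(p)`. -/
theorem jacobianFacts {p r : ℕ} [NeZero p] (hp : p.Prime)
    (hr : r.Prime) (hrp : r ≠ p) :
    JacobianFacts p r := by
  have : Fact r.Prime := ⟨hr⟩
  have hcomm := FLTAgent.HeckeJacobian.heckeOperatorsCommuteBar p
  have hdvd : ∀ q : ℕ, q.Prime → q ≠ p → ¬ q ∣ p := fun q hq hqp h =>
    hqp ((Nat.prime_dvd_prime_iff_eq hq hp).1 h)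
  refine jacobianFacts_of_inputs hp hr hrp (rationalPts_fg p)
    (FLTAgent.CongruenceRel.specializationExists p r hcomm
      (FLTAgent.HeckeJacobian.smulCommClass_heckeModuleBar p))
    (fun q hq hqp A hA σ hσ z => ?_) (fun q hq hqp A hA t z hz => ?_)
    (fun A hA k σ hσ Q hQ => inertiaSq_prime hp hA
      (fun h => hrp ((Nat.prime_dvd_prime_iff_eq hp hr).mp (hp.dvd_of_dvd_pow h)).symm) hσ hQ) ?_
  · obtain ⟨h, hI⟩ := FLTAgent.CongruenceRel.fibreInputs p hq (hdvd q hq hqp) A hA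
    exact FLTAgent.CongruenceRel.reduction_inertia hI hσ z
  · obtain ⟨h, hI⟩ := FLTAgent.CongruenceRel.fibreInputs p hq (hdvd q hq hqp) A hA
    exact FLTAgent.CongruenceRel.reduction_smul_zero hcomm hI t z hz
  · obtain ⟨D, hD⟩ := exists_conjugation_bound (N := p) r
    exact ⟨D, fun k t _ => hD k t⟩

theorem five_le_of_notMem {p : ℕ} (hp : p.Prime) (hp' : p ∉ ({2, 3, 5, 7, 13} : Finset ℕ)) :
    5 ≤ p := by
  by_contra h
  have := hp.two_le
  interval_cases p
  all_goals first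
    | exact hp' (by decide)
    | exact absurd hp (by decide)

theorem exists_prime_pow_not_dvd {p : ℕ} (hp : p.Prime)
    (hp' : p ∉ ({2, 3, 5, 7, 13} : Finset ℕ)) :
    ∃ r : ℕ, r.Prime ∧ r ∣ p - 1 ∧ ¬ r ^ (p - 1).factorization r ∣ 24 := by
  have hn : p - 1 ≠ 0 := by have := hp.two_le; omega
  have h24 : ¬ p - 1 ∣ 24 := fun h => by
    have hle : p ≤ 25 := by have := Nat.le_of_dvd (by norm_num) h; omega
    simp only [Finset.mem_insert, Finset.mem_singleton] at hp'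
    interval_cases p <;> first | omega | exact absurd hp (by norm_num)
  by_contra hcon
  push Not at hcon
  refine h24 ((Nat.dvd_iff_prime_pow_dvd_dvd _ _).2 fun r k hr hk => ?_)
  rcases Nat.eq_zero_or_pos k with rfl | hk0
  · simp
  · exact (pow_dvd_pow r ((hr.pow_dvd_iff_le_factorization hn).1 hk)).trans
      (hcon r hr ((dvd_pow_self r hk0.ne').trans hk))

/-- **Mazur's step**: a rational point of order `p` in a nonzero component at `2` and at `3` lies in
a nonzero component at every multiplicative prime other than `p`. -/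
theorem not_inZeroComponentAt {p : ℕ} (hp : p.Prime)
    (hp' : p ∉ ({2, 3, 5, 7, 13} : Finset ℕ))
    (W : WeierstrassCurve ℤ) (hΔ : W.Δ ≠ 0)
    (Q : ((W.map (Int.castRingHom ℚ))⁄(AlgebraicClosure ℚ)).Point)
    (hQfix : ∀ σ : AlgebraicClosure ℚ ≃ₐ[ℚ] AlgebraicClosure ℚ, σ • Q = Q)
    (hQord : addOrderOf Q = p)
    (h2Δ : (2 : ℤ) ∣ W.Δ) (h2c₄ : ¬ (2 : ℤ) ∣ W.c₄)
    (h2 : ∀ A : ValuationSubring (AlgebraicClosure ℚ), A.LiesOverPrime 2 →
      ¬ W.InZeroComponentAt A Q)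
    (h3Δ : (3 : ℤ) ∣ W.Δ) (h3c₄ : ¬ (3 : ℤ) ∣ W.c₄)
    (h3 : ∀ A : ValuationSubring (AlgebraicClosure ℚ), A.LiesOverPrime 3 →
      ¬ W.InZeroComponentAt A Q)
    {ℓ : ℕ} (hℓ : ℓ.Prime) (hℓp : ℓ ≠ p) (hℓΔ : (ℓ : ℤ) ∣ W.Δ) (hℓc₄ : ¬ (ℓ : ℤ) ∣ W.c₄)
    (A : ValuationSubring (AlgebraicClosure ℚ)) (hA : A.LiesOverPrime ℓ) :
    ¬ W.InZeroComponentAt A Q := by
  have : NeZero p := ⟨hp.ne_zero⟩
  have hp5 := five_le_of_notMem hp hp'
  intro hin
  rcases lt_or_ge ℓ 5 with hℓ5 | hℓ5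
  · interval_cases ℓ
    all_goals first
      | exact h2 A hA hin
      | exact h3 A hA hin
      | exact absurd hℓ (by decide)
  simp only [Finset.mem_insert, Finset.mem_singleton, not_or] at hp'
  obtain ⟨r, hr, hrp1, hr24⟩ := exists_prime_pow_not_dvd hp
    (by simp only [Finset.mem_insert, Finset.mem_singleton, not_or]; exact hp')
  have hrp : r ≠ p := fun h => by
    have := Nat.le_of_dvd (by have := hp.two_le; omega) hrp1
    have := hp.two_le
    omega
  obtain ⟨y, t, H⟩ := MazurModuli.exists_moduliPoints hp hp5 W hΔ Q hQfix hQord hℓ hℓ5 hℓp hℓΔ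
    hℓc₄ hA hin
  obtain ⟨q₀, hq₀, hq₀5, hq₀r, hq₀Δ, hq₀c, hq₀Q⟩ : ∃ q₀ : ℕ, q₀.Prime ∧ q₀ < 5 ∧ q₀ ≠ r ∧
      (q₀ : ℤ) ∣ W.Δ ∧ ¬ (q₀ : ℤ) ∣ W.c₄ ∧ ∀ B : ValuationSubring (AlgebraicClosure ℚ),
        B.LiesOverPrime q₀ → ¬ W.InZeroComponentAt B Q := by
    by_cases hr2 : r = 2
    · exact ⟨3, Nat.prime_three, by norm_num, by omega, h3Δ, h3c₄, h3⟩
    · exact ⟨2, Nat.prime_two, by norm_num, fun h => hr2 h.symm, h2Δ, h2c₄, h2⟩
  have hq₀p : q₀ ≠ p := by omega
  obtain ⟨B, hB⟩ := exists_liesOverPrime hq₀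
  have F := jacobianFacts hp hr hrp
  refine reduction_contradiction F hp hr hrp.symm H.fix_y H.fix_t H.torsion_t hq₀ hq₀p hq₀r hB
    (H.outside q₀ hq₀ hq₀p hq₀Δ hq₀c B hB (reductionInputsModL_of_prime hp hq₀ hq₀p hB)
      (hq₀Q B hB)) hℓ hℓp hA
    (H.inside ℓ hℓ hℓ5 hℓp hℓΔ hℓc₄ A hA (reductionInputsModL_of_prime hp hℓ hℓp hA) hin) ?_
  set v := (p - 1).factorization r
  set s := ((p - 1) / r ^ v) • t
  obtain ⟨Ar, hAr⟩ := exists_liesOverPrime hr
  by_cases hℓr : ℓ = r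
  · exact H.red_ne_zero r hr hrp hr24 A (hℓr ▸ hA) (reductionInputsModL_of_prime hp hℓ hℓp hA)
  intro h0
  refine H.red_ne_zero r hr hrp hr24 Ar hAr (reductionInputsModL_of_prime hp hr hrp hAr) ?_
  have hs : r ^ v • s = 0 := by
    rw [← mul_nsmul', Nat.ordProj_mul_ordCompl_eq_self (p - 1) r, H.torsion_t]
  rw [show ((p - 1) / r ^ v) • t = s from rfl, F.injective ℓ hℓ hℓp A hA (r ^ v) s
    (fun h => hℓr ((Nat.prime_dvd_prime_iff_eq hℓ hr).1 (hℓ.dvd_of_dvd_pow h))) hs h0, map_zero]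

end FLTAgent.MazurStep
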