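import Fermat.Agent.FiniteFlat.Operations
import Fermat.Agent.Density.Frobenius
import Mathlib.RingTheory.Polynomial.Cyclotomic.Eval

/-!
# Characters and torsors of finite Galois modules with a flat model

For a finite Galois module with a flat model at `r` and a place `A` above `r`: every character is
an `A`-combination of functions of the model; on a module with trivial action (`r` odd) reduction
at `A` separates points; a torsor under a piece with equivariant character has a unit eigenvalue.
-/

set_option autoImplicit false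

open scoped TensorProduct

namespace FLTAgent.MazurStep

open GaloisRep FLTAgent.FiniteFlat FLTAgent.FiniteFlat.IsFlatModel
open FLTAgent.Density (Qbar GalQ)

variable {A : ValuationSubring Qbar} {r : ℕ}

theorem val_natCast_le (n : ℕ) : A.valuation (n : Qbar) ≤ 1 :=
  (A.valuation_le_one_iff _).2 (natCast_mem A n)

theorem val_intCast_le (n : ℤ) : A.valuation (n : Qbar) ≤ 1 :=
  (A.valuation_le_one_iff _).2 (intCast_mem A n)

theorem val_den_eq_one (hr : r.Prime) (hA : A.LiesOverPrime r) (c : ratLocalizedAt r) :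
    A.valuation (((c : ℚ).den : ℕ) : Qbar) = 1 := by
  refine le_antisymm (val_natCast_le _) (not_lt.1 fun hlt => ?_)
  refine FLTAgent.Density.natCast_notMem_nonunits hr hA ?_ (A.mem_nonunits_iff.2 hlt)
  exact (Nat.Prime.coprime_iff_not_dvd hr).1 (c.2 : (c : ℚ).den.Coprime r).symm

theorem val_coe_ratLocalized (hr : r.Prime) (hA : A.LiesOverPrime r) (c : ratLocalizedAt r) :
    A.valuation (algebraMap (ratLocalizedAt r) Qbar c) =
      A.valuation (((c : ℚ).num : ℤ) : Qbar) := by
  have h : algebraMap (ratLocalizedAt r) Qbar c * (((c : ℚ).den : ℕ) : Qbar) =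
      (((c : ℚ).num : ℤ) : Qbar) := by
    rw [IsScalarTower.algebraMap_apply (ratLocalizedAt r) ℚ Qbar,
      ← map_natCast (algebraMap ℚ Qbar), ← map_intCast (algebraMap ℚ Qbar), ← map_mul]
    exact congrArg _ (Rat.mul_den_eq_num _)
  rw [← h, map_mul, val_den_eq_one hr hA, mul_one]

theorem val_algebraMap_le (hr : r.Prime) (hA : A.LiesOverPrime r) (c : ratLocalizedAt r) :
    A.valuation (algebraMap (ratLocalizedAt r) Qbar c) ≤ 1 := by
  rw [val_coe_ratLocalized hr hA]; exact val_intCast_le _

theorem val_algebraMap_le_of_lt (hr : r.Prime) (hA : A.LiesOverPrime r) (c : ratLocalizedAt r)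
    (h : A.valuation (algebraMap (ratLocalizedAt r) Qbar c) < 1) :
    A.valuation (algebraMap (ratLocalizedAt r) Qbar c) ≤ A.valuation (r : Qbar) := by
  rw [val_coe_ratLocalized hr hA] at h ⊢
  obtain ⟨m, hm⟩ := (FLTAgent.Density.natCast_mem_nonunits_iff hr hA _).1 (A.mem_nonunits_iff.2 h)
  rw [hm, Int.cast_mul, map_mul, Int.cast_natCast]
  exact mul_le_of_le_one_right' (val_intCast_le m)

theorem val_le_one_of_isIntegral (hr : r.Prime) (hA : A.LiesOverPrime r) {x : Qbar}
    (hx : IsIntegral (ratLocalizedAt r) x) : A.valuation x ≤ 1 := by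
  let f : ratLocalizedAt r →+* A := (algebraMap (ratLocalizedAt r) Qbar).codRestrict A.toSubring
    fun c => (A.valuation_le_one_iff _).1 (val_algebraMap_le hr hA c)
  have hx' : IsIntegral A x := by
    obtain ⟨p, hp, hp0⟩ := hx
    refine ⟨p.map f, hp.map f, ?_⟩
    rw [Polynomial.eval₂_map]
    exact hp0
  obtain ⟨y, hy⟩ := IsIntegrallyClosed.algebraMap_eq_of_integral (R := A) hx'
  rw [← hy]
  exact (A.valuation_le_one_iff _).2 y.2

variable {M : Type} [AddCommGroup M] [Finite M]
  {act : GalQ →* AddMonoid.End M} {H : Subalgebra (ratLocalizedAt r) (M → Qbar)}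

omit [Finite M] in
/-- Restriction of a flat model along an injective equivariant map. -/
theorem isFlatModel_map (h : IsFlatModel r act H) {N : Type} [AddCommGroup N]
    {actN : GalQ →* AddMonoid.End N} (i : N →+ M) (hi : Function.Injective i)
    (hact : ∀ σ a, i (actN σ a) = act σ (i a)) :
    IsFlatModel r actN (H.map (pullback r i)) where
  equivariant := by
    rintro f ⟨g, hg, rfl⟩ σ a
    show g (i (actN σ a)) = σ (g (i a))
    rw [hact, h.equivariant g hg]
  integral := by
    rintro f ⟨g, hg, rfl⟩ a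
    exact h.integral g hg _
  separates := fun a b hab => hi (h.separates _ _ fun g hg => hab _ ⟨g, hg, rfl⟩)
  add_mem := by
    rintro f ⟨g, hg, rfl⟩
    let i2 : N × N → M × M := fun p => (i p.1, i p.2)
    set T := (H.map (pullback r i)).map (pullback r (Prod.fst : N × N → N)) ⊔
      (H.map (pullback r i)).map (pullback r (Prod.snd : N × N → N))
    have e : pullback r (fun p : N × N => p.1 + p.2) (pullback r i g) =
        pullback r i2 (pullback r (fun p : M × M => p.1 + p.2) g) :=
      funext fun p => by simp [i2]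
    show pullback r (fun p : N × N => p.1 + p.2) (pullback r i g) ∈ T
    rw [e]
    suffices H.map (pullback r (Prod.fst : M × M → M)) ⊔
        H.map (pullback r (Prod.snd : M × M → M)) ≤ T.comap (pullback r i2) from
      this (h.add_mem g hg)
    refine sup_le (Subalgebra.map_le.mpr fun v hv => ?_) (Subalgebra.map_le.mpr fun v hv => ?_)
    · exact (le_sup_left : _ ≤ T) ⟨pullback r i v, ⟨v, hv, rfl⟩, rfl⟩
    · exact (le_sup_right : _ ≤ T) ⟨pullback r i v, ⟨v, hv, rfl⟩, rfl⟩

/-- A character of a module with a flat model is an `A`-combination of functions of the model. -/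
theorem exists_character_expansion (hr : r.Prime) (hA : A.LiesOverPrime r)
    (h : IsFlatModel r act H) {χ : M → Qbar} (hχ : ∀ a b, χ (a + b) = χ a * χ b) :
    ∃ (ι : Type) (_ : Fintype ι) (u : ι → H) (c : ι → Qbar),
      (∀ i, A.valuation (c i) ≤ 1) ∧ ∀ a, χ a = ∑ i, c i * (u i).1 a := by
  classical
  obtain ⟨_, _⟩ := h.finite_and_free
  obtain ⟨ι, _, ⟨b⟩⟩ : ∃ (ι : Type) (_ : Fintype ι),
      Nonempty (Module.Basis ι (ratLocalizedAt r) H) :=
    ⟨_, inferInstance, ⟨Module.Free.chooseBasis (ratLocalizedAt r) H⟩⟩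
  have hli := h.linearIndependent_basis b
  have hsp : ⊤ ≤ Submodule.span Qbar (Set.range fun i => (b i : M → Qbar)) := by
    rw [← h.span_eq_top, Submodule.span_le]
    intro f hf
    have h2 := congrArg Subtype.val (b.sum_repr ⟨f, hf⟩)
    simp only [AddSubmonoidClass.coe_finsetSum, Subalgebra.coe_smul] at h2
    rw [SetLike.mem_coe, ← h2]
    refine Submodule.sum_mem _ fun i _ => ?_
    rw [← algebraMap_smul Qbar]
    exact Submodule.smul_mem _ _ (Submodule.subset_span (Set.mem_range_self i))
  obtain ⟨c, hexp⟩ : ∃ c : ι → Qbar, ∀ a, χ a = ∑ i, c i * (b i).1 a := by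
    obtain ⟨c, hc⟩ := Submodule.mem_span_range_iff_exists_fun Qbar |>.1
      (hsp (Submodule.mem_top (x := χ)))
    refine ⟨c, fun a => ?_⟩
    rw [← hc]
    simp [Finset.sum_apply]
  refine ⟨ι, inferInstance, b, c, ?_, hexp⟩
  let C := fun i p => algebraMap (ratLocalizedAt r) Qbar
    ((b.tensorProduct b).repr (h.comulHom (b i)) p)
  have hC : ∀ i x y, (b i).1 (x + y) = ∑ p, C i p * ((b p.1).1 x * (b p.2).1 y) := by
    intro i x y
    rw [← h.mulMap_comulHom (b i) (x, y)]
    conv_lhs => rw [← (b.tensorProduct b).sum_repr (h.comulHom (b i))]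
    simp [map_sum, map_smul, C, Module.Basis.tensorProduct_apply', Algebra.smul_def]
  have hprod : ∀ p, c p.1 * c p.2 = ∑ i, c i * C i p := by
    have hli2 := linearIndependent_prod_functions (X := M) (Y := M) (K := Qbar)
      (f := fun i => (b i : M → Qbar)) (g := fun i => (b i : M → Qbar)) hli hli
    have hind := Fintype.linearIndependent_iff.1 hli2
      (fun p => c p.1 * c p.2 - ∑ i, c i * C i p) (funext fun z => by
        have hz := hχ z.1 z.2
        rw [hexp, hexp z.1, hexp z.2, Finset.sum_mul_sum, ← Fintype.sum_prod_type'] at hz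
        simp only [hC, Finset.mul_sum] at hz
        rw [Finset.sum_comm] at hz
        simp only [Finset.sum_apply, Pi.smul_apply, smul_eq_mul, sub_mul, Finset.sum_sub_distrib,
          Finset.sum_mul, Pi.zero_apply]
        rw [sub_eq_zero]
        refine Eq.trans (Finset.sum_congr rfl fun p _ => by ring) (hz.symm.trans
          (Finset.sum_congr rfl fun p _ => Finset.sum_congr rfl fun i _ => by ring)))
    exact fun p => sub_eq_zero.1 (hind p)
  intro i₀
  by_contra hlt
  obtain ⟨j, -, hj⟩ := Finset.exists_max_image Finset.univ (fun i => A.valuation (c i))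
    ⟨i₀, Finset.mem_univ _⟩
  have h1 : 1 < A.valuation (c j) := lt_of_lt_of_le (not_le.1 hlt) (hj i₀ (Finset.mem_univ _))
  have h2 : A.valuation (c j) * A.valuation (c j) ≤ A.valuation (c j) := by
    rw [← map_mul, hprod (j, j)]
    refine A.valuation.map_sum_le fun i _ => ?_
    rw [map_mul]
    exact (mul_le_of_le_one_right' (val_algebraMap_le hr hA _)).trans (hj i (Finset.mem_univ _))
  exact absurd h2 (not_le.2 (lt_mul_of_one_lt_left (zero_lt_one.trans h1) h1))

/-- Congruence of two points with respect to the functions of a model. -/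
def CongrAt (A : ValuationSubring Qbar) (H : Subalgebra (ratLocalizedAt r) (M → Qbar))
    (a b : M) : Prop :=
  ∀ f ∈ H, A.valuation (f a - f b) < 1

omit [AddCommGroup M] [Finite M] in
/-- Congruence at a place is transitive. -/
theorem CongrAt.trans {a b c : M} (h₁ : CongrAt A H a b) (h₂ : CongrAt A H b c) :
    CongrAt A H a c := fun f hf => by
  rw [← sub_add_sub_cancel (f a) (f b) (f c)]
  exact A.valuation.map_add_lt (h₁ f hf) (h₂ f hf)

theorem CongrAt.add_right (hr : r.Prime) (hA : A.LiesOverPrime r) (h : IsFlatModel r act H)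
    {a a' : M} (hcong : CongrAt A H a a') (b : M) : CongrAt A H (a + b) (a' + b) := by
  intro f hf
  have key : ∀ t : H ⊗[ratLocalizedAt r] H,
      A.valuation (mulMap H t (a, b) - mulMap H t (a', b)) < 1 := by
    intro t
    induction t using TensorProduct.induction_on with
    | zero => simp
    | tmul x y =>
      rw [mulMap_tmul, mulMap_tmul, ← sub_mul, map_mul]
      exact lt_of_le_of_lt
        (mul_le_of_le_one_right' (val_le_one_of_isIntegral hr hA (h.integral _ y.2 _)))
        (hcong _ x.2)
    | add u w hu hw =>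
      rw [map_add, Pi.add_apply, Pi.add_apply, add_sub_add_comm]
      exact A.valuation.map_add_lt hu hw
  have := key (h.comulHom ⟨f, hf⟩)
  rwa [h.mulMap_comulHom, h.mulMap_comulHom] at this

theorem CongrAt.nsmul (hr : r.Prime) (hA : A.LiesOverPrime r) (h : IsFlatModel r act H)
    {a : M} (hcong : CongrAt A H a 0) : ∀ n : ℕ, CongrAt A H (n • a) 0
  | 0 => fun f _ => by simp
  | n + 1 => by
    rw [succ_nsmul']
    have h1 := CongrAt.add_right hr hA h hcong (n • a)
    rw [zero_add] at h1
    exact h1.trans (CongrAt.nsmul hr hA h hcong n)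

/-- With trivial Galois action and `2 < r`, reduction is injective on `r`-power torsion. -/
theorem eq_zero_of_congrAt (hr : r.Prime) (hr2 : 2 < r) (hA : A.LiesOverPrime r)
    (h : IsFlatModel r act H) (htriv : ∀ σ a, act σ a = a) :
    ∀ (k : ℕ) (a : M), r ^ k • a = 0 → CongrAt A H a 0 → a = 0
  | 0 => fun a ha _ => by simpa using ha
  | k + 1 => fun a ha hcong => by
    have hra : r • a = 0 := eq_zero_of_congrAt hr hr2 hA h htriv k _
      (by rw [← mul_nsmul']; simpa [pow_succ] using ha) (hcong.nsmul hr hA h r)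
    by_contra ha0
    have : Fact r.Prime := ⟨hr⟩
    have : NeZero r := ⟨hr.ne_zero⟩
    let i : ZMod r →+ M := ZMod.lift r ⟨zmultiplesHom M a, by simpa using hra⟩
    have hi1 : ∀ n : ℕ, i (n : ZMod r) = n • a := fun n => by
      have := ZMod.lift_coe r ⟨zmultiplesHom M a, by simpa using hra⟩ (n : ℤ)
      simpa [i] using this
    have hi : Function.Injective i := by
      rw [injective_iff_map_eq_zero]
      intro x hx
      rw [← ZMod.natCast_zmod_val x] at hx ⊢
      rw [hi1] at hx
      have hord : addOrderOf a = r := addOrderOf_eq_prime hra ha0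
      rw [ZMod.natCast_eq_zero_iff]; refine (dvd_of_eq hord.symm).trans ?_
      exact addOrderOf_dvd_of_nsmul_eq_zero hx
    have hmod := isFlatModel_map h (actN := (1 : GalQ →* AddMonoid.End (ZMod r))) i hi
      (fun σ x => by rw [htriv]; rfl)
    obtain ⟨ζ, hζ⟩ : ∃ ζ : Qbar, IsPrimitiveRoot ζ r := by
      have : NeZero (r : Qbar) := ⟨Nat.cast_ne_zero.2 hr.ne_zero⟩
      obtain ⟨ζ, hζ⟩ := IsAlgClosed.exists_root (Polynomial.cyclotomic r Qbar)
        (Polynomial.degree_cyclotomic_pos r Qbar hr.pos).ne'
      exact ⟨ζ, Polynomial.isRoot_cyclotomic_iff.1 hζ⟩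
    obtain ⟨ι, _, u, c, hc, hexp⟩ := exists_character_expansion hr hA hmod
      (χ := fun x : ZMod r => ζ ^ x.val) (fun x y => by
        rw [← pow_add, ZMod.val_add, ← pow_eq_pow_mod _ hζ.pow_eq_one])
    have hz : A.valuation (ζ - 1) ≤ A.valuation (r : Qbar) := by
      have h1 := hexp 1
      have h0 := hexp 0
      rw [ZMod.val_one, pow_one] at h1
      rw [ZMod.val_zero, pow_zero] at h0
      rw [h1, h0, ← Finset.sum_sub_distrib]
      refine A.valuation.map_sum_le fun j _ => ?_
      rw [← mul_sub, map_mul]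
      refine (mul_le_of_le_one_left' (hc j)).trans ?_
      obtain ⟨g, hg, hgu⟩ := (u j).2
      rw [← hgu]
      show A.valuation (g (i 1) - g (i 0)) ≤ _
      have hi1' : i 1 = a := by simpa using hi1 1
      rw [hi1', map_zero]
      obtain ⟨q, hq⟩ := exists_algebraMap_eq_of_fixed (ℓ := r) (x := g a - g 0)
        (fun σ => by rw [map_sub, ← h.equivariant g hg, ← h.equivariant g hg, htriv, htriv])
        ((h.integral g hg a).sub (h.integral g hg 0))
      rw [← hq]
      exact val_algebraMap_le_of_lt hr hA q (by rw [hq]; exact hcong g hg)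
    -- but `r = ∏ (1 - ζ ^ i)` has at least two factors of value `< 1`
    have hprod : (r : Qbar) = ∏ μ ∈ primitiveRoots r Qbar, (1 - μ) := by
      have h1 := Polynomial.eval_one_cyclotomic_prime (R := Qbar) (p := r)
      rw [Polynomial.cyclotomic_eq_prod_X_sub_primitiveRoots hζ, Polynomial.eval_prod] at h1
      rw [← h1]; simp
    have hle : ∀ μ ∈ primitiveRoots r Qbar, A.valuation (1 - μ) ≤ 1 := fun μ hμ => by
      have hμ1 : μ ^ r = 1 := ((mem_primitiveRoots hr.pos).1 hμ).pow_eq_one
      have : A.valuation μ = 1 := by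
        have h2 := congrArg A.valuation hμ1
        rw [map_pow, map_one] at h2
        rcases pow_eq_one_iff.1 h2 with h3 | h3
        · exact h3
        · exact absurd h3 hr.ne_zero
      exact (A.valuation.map_sub _ _).trans (by simp [this])
    have hrlt : A.valuation (r : Qbar) < 1 := A.mem_nonunits_iff.1 hA
    have hz1 : A.valuation (ζ - 1) < 1 := lt_of_le_of_lt hz hrlt
    have hζ0 : A.valuation (ζ - 1) ≠ 0 := by
      rw [map_ne_zero, sub_ne_zero]; exact hζ.ne_one hr.one_lt
    have hz2 : A.valuation (1 - ζ ^ 2) < 1 := by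
      rw [show (1 : Qbar) - ζ ^ 2 = -((ζ - 1) * ((ζ - 1) + (1 + 1))) by ring, Valuation.map_neg,
        map_mul]
      refine lt_of_le_of_lt (mul_le_of_le_one_right' ?_) hz1
      exact (A.valuation.map_add _ _).trans (max_le hz1.le
        ((A.valuation_le_one_iff _).2 (add_mem (one_mem A) (one_mem A))))
    have hne : ζ ≠ ζ ^ 2 := by
      intro e
      exact hζ.ne_one hr.one_lt (by
        have h0 : ζ ≠ 0 := hζ.ne_zero hr.ne_zero
        apply mul_left_cancel₀ h0; rw [mul_one, ← sq]; exact e.symm)
    have hm1 : ζ ∈ primitiveRoots r Qbar := (mem_primitiveRoots hr.pos).2 hζ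
    have hm2 : ζ ^ 2 ∈ (primitiveRoots r Qbar).erase ζ :=
      Finset.mem_erase.2 ⟨hne.symm, (mem_primitiveRoots hr.pos).2
        (hζ.pow_of_coprime 2 ((Nat.coprime_primes Nat.prime_two hr).2 (by omega)))⟩
    have hlt : A.valuation (r : Qbar) < A.valuation (ζ - 1) := by
      rw [hprod, map_prod, ← Finset.mul_prod_erase _ _ hm1, ← Finset.mul_prod_erase _ _ hm2,
        A.valuation.map_sub_swap 1 ζ]
      have hrest : ∏ μ ∈ ((primitiveRoots r Qbar).erase ζ).erase (ζ ^ 2), A.valuation (1 - μ) ≤ 1 :=
        Finset.prod_le_one' fun μ hμ =>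
          hle μ (Finset.mem_of_mem_erase (Finset.mem_of_mem_erase hμ))
      calc A.valuation (ζ - 1) * (A.valuation (1 - ζ ^ 2) * _)
          ≤ A.valuation (ζ - 1) * A.valuation (1 - ζ ^ 2) :=
            mul_le_mul_right (mul_le_of_le_one_right' hrest) _
        _ < A.valuation (ζ - 1) := mul_lt_of_lt_one_right (pos_of_ne_zero hζ0) hz2
    exact absurd hz (not_le.2 hlt)

/-- A torsor under a piece with an equivariant character has a unit eigenvalue. -/
theorem exists_eigen_unit (hr : r.Prime) (hA : A.LiesOverPrime r) (h : IsFlatModel r act H)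
    {P : Type} [AddCommGroup P] {actP : GalQ →* AddMonoid.End P}
    (i : P →+ M) (hi : Function.Injective i) (hiact : ∀ σ g, i (actP σ g) = act σ (i g))
    {χ : P → Qbar} (hχ0 : χ 0 = 1) (hχ : ∀ a b, χ (a + b) = χ a * χ b)
    (hχeq : ∀ σ g, χ (actP σ g) = σ (χ g))
    (x : M) (z : GalQ → P) (hz : ∀ σ, act σ x = x + i (z σ)) :
    ∃ α : Qbar, A.valuation α = 1 ∧ ∀ σ : GalQ, σ α = χ (z σ) * α := by
  classical
  have : Finite P := Finite.of_injective i hi
  obtain ⟨ι', _, u, c, hc, hexp⟩ := exists_character_expansion hr hA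
    (isFlatModel_map h i hi hiact) hχ
  choose f hf hfu using fun l => (u l).2
  -- the torsor and its space of functions
  let pt : P → M := fun g => x + i g
  let aX : GalQ → P → P := fun σ g => actP σ g + z σ
  have hpt : ∀ σ g, pt (aX σ g) = act σ (pt g) := fun σ g => by
    simp only [pt, aX, map_add, hz, hiact]; abel
  have haX : ∀ σ, Function.Surjective (aX σ) := fun σ => by
    refine Finite.injective_iff_surjective.1 fun a b e => hi ?_
    have e' : act σ (pt a) = act σ (pt b) := by rw [← hpt, ← hpt, e]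
    have := Finite.injective_iff_surjective.2 (IsFlatModel.act_surjective (act := act) σ) e'
    exact add_left_cancel this
  obtain ⟨_, _⟩ := h.finite_and_free
  let res : H →ₐ[ratLocalizedAt r] (P → Qbar) := (pullback r pt).comp H.val
  have : Module.Finite (ratLocalizedAt r) (LinearMap.range res.toLinearMap) :=
    Module.Finite.range res.toLinearMap
  have : Module.IsTorsionFree (ratLocalizedAt r) (LinearMap.range res.toLinearMap) :=
    Function.Injective.moduleIsTorsionFree _ Subtype.val_injective fun _ _ => rfl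
  have : Module.Free (ratLocalizedAt r) (LinearMap.range res.toLinearMap) :=
    Module.free_of_finite_type_torsion_free'
  obtain ⟨ι₂, _, ⟨bW⟩⟩ : ∃ (ι : Type) (_ : Fintype ι),
      Nonempty (Module.Basis ι (ratLocalizedAt r) (LinearMap.range res.toLinearMap)) :=
    ⟨_, inferInstance, ⟨Module.Free.chooseBasis (ratLocalizedAt r) _⟩⟩
  let w := fun m => (bW m : P → Qbar)
  have hweq : ∀ m, IsEquivFun aX (w m) := fun m σ g => by
    obtain ⟨a, ha⟩ := (bW m).2
    show (bW m).1 (aX σ g) = σ ((bW m).1 g)
    rw [← ha]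
    show a.1 (pt (aX σ g)) = σ (a.1 (pt g))
    rw [hpt, h.equivariant _ a.2]
  have hwli : LinearIndependent Qbar w :=
    linearIndependent_qbar_of_equivariant haX hweq
      (bW.linearIndependent.map' (Submodule.subtype _) (Submodule.ker_subtype _))
  have hwle : ∀ m g, A.valuation (w m g) ≤ 1 := fun m g => by
    obtain ⟨a, ha⟩ := (bW m).2
    show A.valuation ((bW m).1 g) ≤ 1
    rw [← ha]
    exact val_le_one_of_isIntegral hr hA (h.integral _ a.2 _)
  -- decomposition of `(g', g) ↦ t (pt g', - pt g)`
  have key : ∀ t : H ⊗[ratLocalizedAt r] H, ∃ V : _ → P → Qbar,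
      (∀ m g, A.valuation (V m g) ≤ 1) ∧
        ∀ g' g, mulMap H t (pt g', -pt g) = ∑ m, V m g' * w m g := by
    intro t
    induction t using TensorProduct.induction_on with
    | zero => exact ⟨fun _ _ => 0, fun _ _ => by simp, fun _ _ => by simp⟩
    | tmul a b =>
      let b' : H := ⟨_, h.neg_mem b⟩
      let bb : LinearMap.range res.toLinearMap := ⟨res b', b', rfl⟩
      refine ⟨fun m g' => a.1 (pt g') * algebraMap (ratLocalizedAt r) Qbar (bW.repr bb m),
        fun m g' => ?_, fun g' g => ?_⟩
      · rw [map_mul]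
        exact mul_le_one' (val_le_one_of_isIntegral hr hA (h.integral _ a.2 _))
          (val_algebraMap_le hr hA _)
      · have e := congrFun (congrArg Subtype.val (bW.sum_repr bb)) g
        simp only [AddSubmonoidClass.coe_finsetSum, SetLike.val_smul, Finset.sum_apply,
          Pi.mul_apply, Pi.algebraMap_apply, Algebra.smul_def] at e
        rw [mulMap_tmul, show b.1 (-pt g) = bb.1 g from rfl, ← e, Finset.mul_sum]
        exact Finset.sum_congr rfl fun m _ => by simp only [w]; ring
    | add s t hs ht =>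
      obtain ⟨V, hV, hVe⟩ := hs
      obtain ⟨W, hW, hWe⟩ := ht
      exact ⟨fun m g => V m g + W m g,
        fun m g => (A.valuation.map_add _ _).trans (max_le (hV m g) (hW m g)),
        fun g' g => by simp [map_add, hVe, hWe, add_mul, Finset.sum_add_distrib]⟩
  choose V₀ hV₀ hV₀e using fun l => key (h.comulHom ⟨f l, hf l⟩)
  let V := fun m g' => ∑ l, c l * V₀ l m g'
  have hV : ∀ m g', A.valuation (V m g') ≤ 1 := fun m g' =>
    A.valuation.map_sum_le fun l _ => by
      rw [map_mul]; exact mul_le_one' (hc l) (hV₀ l m g')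
  have hdiff : ∀ g' g, χ (g' - g) = ∑ m, V m g' * w m g := by
    intro g' g
    have e : ∀ l, (u l).1 (g' - g) = ∑ m, V₀ l m g' * w m g := fun l => by
      rw [← hV₀e, h.mulMap_comulHom, ← hfu l]
      show f l (i (g' - g)) = f l (pt g' + -pt g)
      congr 1
      simp only [pt, map_sub]; abel
    simp only [hexp, e, V, Finset.mul_sum, Finset.sum_mul]
    rw [Finset.sum_comm]
    exact Finset.sum_congr rfl fun m _ => Finset.sum_congr rfl fun l _ => by ring
  have hind : ∀ {a b : _ → Qbar}, (∀ g, ∑ m, a m * w m g = ∑ m, b m * w m g) → ∀ m, a m = b m :=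
    fun {a b} he m => sub_eq_zero.1 (Fintype.linearIndependent_iff.1 hwli (fun m => a m - b m)
      (funext fun g => by
        simp [Finset.sum_apply, sub_mul, Finset.sum_sub_distrib, he g]) m)
  have heig : ∀ d g' m, V m (g' + d) = χ d * V m g' := fun d g' => hind fun g => by
    calc ∑ m, V m (g' + d) * w m g = χ (d + (g' - g)) := by
          rw [← hdiff]; congr 1; abel
      _ = ∑ m, χ d * V m g' * w m g := by
          rw [hχ, hdiff, Finset.mul_sum]
          exact Finset.sum_congr rfl fun m _ => by ring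
  have hVeq : ∀ σ g' m, V m (aX σ g') = σ (V m g') := fun σ g' => hind fun y => by
    obtain ⟨g, rfl⟩ := haX σ y
    calc ∑ m, V m (aX σ g') * w m (aX σ g) = χ (actP σ (g' - g)) := by
          rw [← hdiff]; congr 1; simp only [aX, map_sub]; abel
      _ = σ (∑ m, V m g' * w m g) := by rw [hχeq, hdiff]
      _ = ∑ m, σ (V m g') * w m (aX σ g) := by
          rw [map_sum]
          exact Finset.sum_congr rfl fun m _ => by rw [map_mul, hweq m σ g]
  obtain ⟨m, hm⟩ : ∃ m, A.valuation (V m 0) = 1 := by
    by_contra hc'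
    push Not at hc'
    have h1 : A.valuation (χ (0 - 0)) < 1 := by
      rw [hdiff]
      refine A.valuation.map_sum_lt one_ne_zero fun m _ => ?_
      rw [map_mul]
      exact lt_of_le_of_lt (mul_le_of_le_one_right' (hwle m 0)) (lt_of_le_of_ne (hV m 0) (hc' m))
    rw [sub_zero, hχ0, map_one] at h1
    exact lt_irrefl _ h1
  refine ⟨V m 0, hm, fun σ => ?_⟩
  rw [← hVeq, show aX σ 0 = 0 + z σ by simp [aX], heig]

end FLTAgent.MazurStep
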