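import Fermat.Agent.HeckeJacobian.Lattice
import Fermat.Agent.ModularFF.JFunction
import Fermat.Agent.Periods.Injective

/-!
# Complex conjugation and the Kummer map

The reflection `τ ↦ -conj τ` of the upper half plane realises complex conjugation on `J₀(N)`:
the character of the conjugate of a torsion class is `γ ↦ c(εγε)⁻¹`, `ε = diag(-1, 1)`.
-/

set_option autoImplicit false

noncomputable section

open UpperHalfPlane CongruenceSubgroup AlgebraicCurve ModularCurve
open ModularCurve.Period
open scoped Manifold MatrixGroups ModularForm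

namespace FLTAgent.MazurStep

open FLTAgent.HeckeJacobian FLTAgent.ModularFF

local notation "Qbar" => AlgebraicClosure ℚ
local notation "conj" => starRingEnd ℂ
local notation "𝕢" => Function.Periodic.qParam

theorem qParam_J_smul (τ : ℍ) :
    𝕢 1 ((UpperHalfPlane.J • τ : ℍ) : ℂ) = conj (𝕢 1 (τ : ℂ)) := by
  rw [Function.Periodic.qParam, Function.Periodic.qParam, ← Complex.exp_conj,
    UpperHalfPlane.coe_J_smul]
  simp [map_ofNat]

/-- The `j`-function has real `q`-expansion. -/
theorem jFun_J_smul (τ : ℍ) : jFun (UpperHalfPlane.J • τ) = conj (jFun τ) := by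
  have h2 := (Complex.hasSum_conj'.mpr (powerSum_q_mul_jFun τ))
  have h1 := powerSum_q_mul_jFun (UpperHalfPlane.J • τ)
  simp only [PowerSeries.coeff_map, map_mul, map_pow, eq_intCast, map_intCast,
    ← qParam_J_smul] at h1 h2
  exact mul_left_cancel₀ (Complex.exp_ne_zero _) (h1.unique h2)

theorem jAt_J_smul (d : ℕ) [NeZero d] (τ : ℍ) :
    jAt d (UpperHalfPlane.J • τ) = conj (jAt d τ) := by
  rw [jAt, jAt, ← jFun_J_smul]
  refine congrArg jFun (UpperHalfPlane.ext ?_)
  rw [coe_scaleH, UpperHalfPlane.coe_J_smul, UpperHalfPlane.coe_J_smul, coe_scaleH, map_mul,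
    map_natCast, mul_neg]

/-- `f ↦ (τ ↦ conj (f (-conj τ)))`. -/
def reflH : Hol →+* Hol where
  toFun f := ⟨fun τ => conj ((f : ℍ → ℂ) (UpperHalfPlane.J • τ)), by
    have h := MDifferentiable.slash f.2 (0 : ℤ) UpperHalfPlane.J
    have e : (f : ℍ → ℂ) ∣[(0 : ℤ)] UpperHalfPlane.J =
        fun τ => conj ((f : ℍ → ℂ) (UpperHalfPlane.J • τ)) := funext fun τ => by
      simp [ModularForm.slash_def, UpperHalfPlane.J, UpperHalfPlane.σ, Matrix.det_fin_two,
        show ¬((1 : ℝ) < 0) from not_lt.mpr zero_le_one]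
    exact e ▸ h⟩
  map_one' := Subtype.ext (funext fun _ => map_one conj)
  map_mul' _ _ := Subtype.ext (funext fun _ => map_mul conj _ _)
  map_zero' := Subtype.ext (funext fun _ => map_zero conj)
  map_add' _ _ := Subtype.ext (funext fun _ => map_add conj _ _)

theorem coe_reflH (f : Hol) (τ : ℍ) :
    (reflH f : ℍ → ℂ) τ = conj ((f : ℍ → ℂ) (UpperHalfPlane.J • τ)) := rfl

theorem reflH_injective : Function.Injective reflH := fun f g h => by
  refine Subtype.ext (funext fun τ => ?_)
  have := congrFun (congrArg Subtype.val h) (UpperHalfPlane.J • τ)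
  rw [coe_reflH, coe_reflH, ← mul_smul, ← sq, UpperHalfPlane.J_sq, one_smul] at this
  exact (starRingEnd ℂ).injective this

theorem reflH_smul (z : ℂ) (f : Hol) : reflH (z • f) = conj z • reflH f :=
  Subtype.ext (funext fun _ => map_mul conj _ _)

theorem actH_reflH (γ : SL(2, ℤ)) (f : Hol) :
    actH γ (reflH f) = reflH (actH (jConjSL γ) f) :=
  Subtype.ext (funext fun τ => by
    show conj ((f : ℍ → ℂ) (UpperHalfPlane.J • (γ • τ))) =
      conj ((f : ℍ → ℂ) (jConjSL γ • (UpperHalfPlane.J • τ)))
    rw [FLTAgent.Periods.J_smul_sl])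

/-- The reflection on meromorphic functions. -/
def reflM : Mero →+* Mero :=
  IsFractionRing.lift (g := (algebraMap Hol Mero).comp reflH)
    ((IsFractionRing.injective Hol Mero).comp reflH_injective)

theorem reflM_algebraMap (f : Hol) : reflM (algebraMap Hol Mero f) =
    algebraMap Hol Mero (reflH f) :=
  IsFractionRing.lift_algebraMap _ f

variable [Algebra Qbar ℂ] {N : ℕ} [NeZero N]
variable {σ : Qbar ≃ₐ[ℚ] Qbar} (hσ : ∀ a, algebraMap Qbar ℂ (σ a) = conj (algebraMap Qbar ℂ a))

omit [Algebra Qbar ℂ] in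
theorem arithmeticGalois_gen (i : Divs N) :
    arithmeticGalois (modularFunctionFieldFull N) σ • gen Qbar N i = gen Qbar N i := by
  refine Subtype.ext ((coe_arithmeticGalois_smul _ σ (gen Qbar N i)).trans ?_)
  rw [show (gen Qbar N i : LaurentSeries Qbar) = coeffEmb Qbar (qExpand ℚ i.1 jq) from
    (coeffEmb_qExpand_jq Qbar i.1).symm]
  exact coeffMap_coeffEmb σ _

include hσ in
theorem realF_arithmeticGalois (x : modularFunctionFieldBar N) :
    realF N (arithmeticGalois (modularFunctionFieldFull N) σ • x) = reflM (realF N x) := by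
  let φ : modularFunctionFieldBar N →+* modularFunctionFieldBar N :=
    (SemilinearAut.toRingAut (arithmeticGalois (modularFunctionFieldFull N) σ) :
      modularFunctionFieldBar N ≃+* modularFunctionFieldBar N).toRingHom
  have hC : ∀ a : Qbar, φ (algebraMap Qbar (modularFunctionFieldBar N) a) =
      algebraMap Qbar (modularFunctionFieldBar N) (σ a) :=
    fun a => SemilinearAut.commutes (arithmeticGalois (modularFunctionFieldFull N) σ) a
  have hG : ∀ i, φ (gen Qbar N i) = gen Qbar N i := fun i => arithmeticGalois_gen i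
  have hφ : (realF N).comp φ = reflM.comp (realF N) := by
    refine realF_hom_ext N (fun a => ?_) fun i => ?_
    · rw [RingHom.comp_apply, RingHom.comp_apply, hC, realF_algebraMap, realF_algebraMap,
        reflM_algebraMap]
      exact congrArg _ (Subtype.ext (funext fun _ => hσ a))
    · rw [RingHom.comp_apply, RingHom.comp_apply, hG, ← evalField_X, realF_evalField,
        reflM_algebraMap]
      refine congrArg _ (Subtype.ext (funext fun τ => ?_))
      rw [coe_reflH, evalHol_X, jAt_J_smul, Complex.conj_conj]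
  exact RingHom.congr_fun hφ x

include hσ in
/-- The character of the conjugate class. -/
theorem kummerRel_conj {n : ℕ} (hn : n ≠ 0) {x : JZero N}
    {c : Additive (Gamma0 N) →+ Additive ℂˣ} (h : KummerRel N n x c) :
    KummerRel N n (σ • x) (-(charInvolution N ℤ (Additive ℂˣ) c)) := by
  obtain ⟨D, f, H, a, hx, hf, hD, hr, ha, hc⟩ := h
  set g := arithmeticGalois (modularFunctionFieldFull N) σ
  have hnc : n • c = 0 := KummerRel.nsmul_eq_zero hn ⟨D, f, H, a, hx, hf, hD, hr, ha, hc⟩
  refine ⟨SemilinearAut.degZeroSMulHom g D, g • f, reflH H, reflH a, ?_, ?_, fun v => ?_, ?_,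
    by rw [← map_pow, ha], fun γ => ?_⟩
  · rw [← SemilinearAut.pic0_smul_mk, hx]
    rfl
  · exact fun h0 => hf (MulAction.injective g (h0.trans (smul_zero g).symm))
  · have h' := SemilinearAut.ord_smul g (g⁻¹ • v) f
    rw [smul_inv_smul] at h'
    rw [h', SemilinearAut.coe_degZeroSMulHom, SemilinearAut.divisor_smul_apply, hD]
  · show realF N (g • f) = _
    rw [realF_arithmeticGalois hσ, hr, reflM_algebraMap]
  · show actH (γ : SL(2, ℤ)) (reflH a) = _
    rw [actH_reflH, show jConjSL (γ : SL(2, ℤ)) = (jConjGamma0 N γ : SL(2, ℤ)) from rfl, hc,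
      reflH_smul]
    congr 1
    set u : ℂˣ := Additive.toMul (c (Additive.ofMul (jConjGamma0 N γ))) with hu
    have hun : (u : ℂ) ^ n = 1 := by
      rw [← Units.val_pow_eq_pow_val, hu, ← toMul_nsmul,
        show n • c (Additive.ofMul (jConjGamma0 N γ)) = 0 from DFunLike.congr_fun hnc _,
        toMul_zero, Units.val_one]
    show conj (u : ℂ) = ((u⁻¹ : ℂˣ) : ℂ)
    rw [Units.val_inv_eq_inv_val, Complex.inv_def, Complex.normSq_eq_norm_sq,
      Complex.norm_eq_one_of_pow_eq_one hun hn]
    simp

/-- The conjugation of the lattice. -/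
theorem kummerRel_conj_redChar {k p : ℕ} (hp : p ≠ 0) {x : JZero N} {φ ψ : charLattice N}
    (hσ : ∀ a, algebraMap Qbar ℂ (σ a) = conj (algebraMap Qbar ℂ a))
    (hψ : ψ.1 = -(charInvolution N ℤ ℤ φ.1))
    (h : KummerRel N (p ^ k) x (redChar (p ^ k) φ)) :
    KummerRel N (p ^ k) (σ • x) (redChar (p ^ k) ψ) := by
  convert kummerRel_conj hσ (pow_ne_zero k hp) h
  refine AddMonoidHom.ext fun γ => ?_
  show expChar (p ^ k) (ψ.1 γ) = -(expChar (p ^ k) _)
  rw [hψ]
  exact map_neg (expChar (p ^ k)) _

end FLTAgent.MazurStep
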