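import Mathlib.RingTheory.Ideal.IdempotentFG
import Mathlib.RingTheory.Ideal.Maps
import Mathlib.Algebra.Module.Submodule.Lattice
import Mathlib.RingTheory.Ideal.Quotient.Operations

/-!
# Idempotents cutting out the part where given operators are nilpotent

`exists_projector`: from `exists_idempotent_pow` in a finite commutative ring, a projector on
`M[n]` with nilpotent operators on its image and fixing their common kernel.
-/

set_option autoImplicit false

namespace FLTAgent.MazurStep

/-- In a finite commutative ring a positive power of any ideal is generated by an idempotent. -/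
theorem exists_idempotent_pow {S : Type*} [CommRing S] [Finite S] (I : Ideal S) :
    ∃ (m : ℕ) (f : S), 0 < m ∧ IsIdempotentElem f ∧ I ^ m = Ideal.span {f} := by
  have : Finite (Ideal S) := Finite.of_injective _ SetLike.coe_injective
  obtain ⟨a, b, hne, hab⟩ := Finite.exists_ne_map_eq_of_infinite fun i : ℕ => I ^ (i + 1)
  wlog hlt : a < b generalizing a b
  · exact this b a hne.symm hab.symm (by omega)
  obtain ⟨d, rfl⟩ : ∃ d, b = a + (d + 1) := ⟨b - a - 1, by omega⟩
  have hstep : ∀ i, a + 1 ≤ i → I ^ (i + (d + 1)) = I ^ i := fun i hi => by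
    obtain ⟨c, rfl⟩ := Nat.exists_eq_add_of_le hi
    rw [show a + 1 + c + (d + 1) = (a + (d + 1) + 1) + c by ring, pow_add I (a + (d + 1) + 1),
      pow_add I (a + 1), hab]
  have hmul : ∀ j i, a + 1 ≤ i → I ^ (i + j * (d + 1)) = I ^ i := by
    intro j
    induction j with
    | zero => intro i _; simp
    | succ j ih =>
      intro i hi
      rw [show i + (j + 1) * (d + 1) = i + j * (d + 1) + (d + 1) by ring,
        hstep _ (by omega), ih i hi]
  set m := (a + 1) * (d + 1) with hm
  have hidem : IsIdempotentElem (I ^ m) := by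
    show I ^ m * I ^ m = I ^ m
    rw [← pow_add]
    nth_rw 2 [hm]
    exact hmul (a + 1) m (Nat.le_mul_of_pos_right _ d.succ_pos)
  obtain ⟨f, hf, hfI⟩ := (Ideal.isIdempotentElem_iff_of_fg (I ^ m)
    (Submodule.fg_def.2 ⟨_, Set.toFinite _, Submodule.span_eq _⟩)).1 hidem
  exact ⟨m, f, Nat.mul_pos a.succ_pos d.succ_pos, hf, hfI⟩

variable {R M : Type*} [CommRing R] [AddCommGroup M] [Module R M]

/-- A projector `t` on `M[n]`: the operators `η i` are nilpotent on its image, and it fixes the
common kernel of the `η i`. -/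
theorem exists_projector (n : ℕ) [Finite {x : M // n • x = 0}] {ι : Type*} (η : ι → R) :
    ∃ t : R, (∀ x : M, n • x = 0 → t • t • x = t • x) ∧
      (∀ i, ∃ m : ℕ, ∀ x : M, n • x = 0 → η i ^ m • t • x = 0) ∧
      ∀ x : M, n • x = 0 → (∀ i, η i • x = 0) → t • x = x := by
  let ann : Ideal R :=
    { carrier := {a | ∀ x : M, n • x = 0 → a • x = 0}
      zero_mem' := fun x _ => zero_smul R x
      add_mem' := fun ha hb x hx => by rw [add_smul, ha x hx, hb x hx, add_zero]
      smul_mem' := fun a b hb x hx => by rw [smul_eq_mul, mul_smul, hb x hx, smul_zero] }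
  have hmem : ∀ (a : R) (x : M), n • x = 0 → n • (a • x) = 0 := fun a x hx => by
    rw [smul_comm, hx, smul_zero]
  let φ : R ⧸ ann → ({x : M // n • x = 0} → {x : M // n • x = 0}) := Quotient.lift
    (fun a x => ⟨a • (x : M), hmem a x x.2⟩) fun a b hab => funext fun x => Subtype.ext <| by
      have h := (Submodule.quotientRel_def ann).1 hab x x.2
      rw [sub_smul, sub_eq_zero] at h
      exact h
  have : Finite (R ⧸ ann) := by
    refine Finite.of_injective φ ?_
    rintro ⟨a⟩ ⟨b⟩ h
    refine Ideal.Quotient.eq.2 fun x hx => ?_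
    have h' := congrArg Subtype.val (congrFun h ⟨x, hx⟩)
    rw [sub_smul, sub_eq_zero]
    exact h'
  obtain ⟨m, f, hm, hf, hI⟩ := exists_idempotent_pow
    (Ideal.span (Set.range fun i => Ideal.Quotient.mk ann (η i)))
  obtain ⟨f₀, rfl⟩ := Ideal.Quotient.mk_surjective f
  have hzero : ∀ {a : R}, Ideal.Quotient.mk ann a = 0 → ∀ x : M, n • x = 0 → a • x = 0 :=
    fun h => Ideal.Quotient.eq_zero_iff_mem.1 h
  refine ⟨1 - f₀, fun x hx => ?_, fun i => ⟨m, fun x hx => ?_⟩, fun x hx hη => ?_⟩
  · rw [← sub_eq_zero, ← mul_smul, ← sub_smul]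
    refine hzero ?_ x hx
    rw [map_sub, map_mul, map_sub, map_one, hf.one_sub.eq, sub_self]
  · rw [← mul_smul]
    refine hzero ?_ x hx
    obtain ⟨c, hc⟩ : ∃ c, c * Ideal.Quotient.mk ann f₀ = Ideal.Quotient.mk ann (η i) ^ m :=
      Ideal.mem_span_singleton'.1 (hI ▸ Ideal.pow_mem_pow
          (Ideal.subset_span (Set.mem_range_self i)) m)
    rw [map_mul, map_pow, map_sub, map_one, ← hc, mul_assoc, mul_sub, mul_one, hf.eq, sub_self,
      mul_zero]
  · suffices h : f₀ • x = 0 by rw [sub_smul, one_smul, h, sub_zero]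
    have hmemI : Ideal.Quotient.mk ann f₀ ∈
        Ideal.span (Set.range fun i => Ideal.Quotient.mk ann (η i)) :=
      Ideal.pow_le_self hm.ne' (hI ▸ Ideal.mem_span_singleton_self _)
    have hspan : Ideal.span (Set.range fun i => Ideal.Quotient.mk ann (η i)) =
        (Ideal.span (Set.range η)).map (Ideal.Quotient.mk ann) := by
      rw [Ideal.map_span, ← Set.range_comp]; rfl
    rw [hspan] at hmemI
    obtain ⟨g, hg, hgf⟩ := (Ideal.mem_map_iff_of_surjective _ Ideal.Quotient.mk_surjective).1 hmemI
    have h2 := Ideal.Quotient.eq.1 hgf x hx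
    rw [sub_smul, sub_eq_zero] at h2
    rw [← h2]
    clear h2 hgf
    induction hg using Submodule.span_induction with
    | mem a ha => obtain ⟨i, rfl⟩ := ha; exact hη i
    | zero => exact zero_smul R x
    | add a b _ _ ha hb => rw [add_smul, ha, hb, add_zero]
    | smul a b _ hb => rw [smul_eq_mul, mul_smul, hb, smul_zero]

end FLTAgent.MazurStep
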