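import Fermat.Agent.MazurStep.Inputs
import Fermat.Agent.MazurStep.Projector

/-!
# The Mazur step on `J₀(p)`

A rational point `y` reducing to `0` at a place of residue characteristic `≠ r` and to a rational
`(p - 1)`-torsion point `t` at `A` forces the `r`-primary part of `t` to reduce to `0` at `A`.
-/

set_option autoImplicit false

noncomputable section

namespace FLTAgent.MazurStep

open FLTAgent.Density ModularCurve

variable {p r : ℕ} [NeZero p]

/-- Endomorphism given by a Hecke operator. -/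
abbrev heckeEnd (p : ℕ) [NeZero p] (t : HeckeAlg) : JZero p →+ JZero p :=
  letI := heckeModuleBar p; DistribSMul.toAddMonoidHom (JZero p) t

theorem heckeEnd_galois (t : HeckeAlg) (σ : GalQ) (x : JZero p) :
    heckeEnd p t (σ • x) = σ • heckeEnd p t x := by
  let := heckeModuleBar p
  have := FLTAgent.HeckeJacobian.smulCommClass_heckeModuleBar p
  exact (smul_comm σ t x).symm

theorem coe_sub_pow {R M : Type*} [CommRing R] [AddCommGroup M] [Module R M] {G : AddSubgroup M}
    (T : AddMonoid.End G) (t : R) (hT : ∀ g : G, (T g : M) = t • (g : M)) (q : ℕ) :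
    ∀ (j : ℕ) (g : G), ((((T - 1 - (q : AddMonoid.End G)) ^ j) g : G) : M) =
      (t - 1 - (q : R)) ^ j • (g : M) := by
  intro j
  induction j with
  | zero => intro g; rw [pow_zero, pow_zero, one_smul]; rfl
  | succ j ih =>
    intro g
    rw [pow_succ', pow_succ', mul_smul, ← ih, sub_smul, sub_smul, one_smul,
      Nat.cast_smul_eq_nsmul, ← hT]
    rfl

/-- Rational `r`-power torsion is annihilated by `T_q - 1 - q`. -/
theorem heckeGen_sub_smul_eq_zero (F : JacobianFacts p r)
    {q : Nat.Primes} (hq : ¬ (q : ℕ) ∣ p * r) {x : JZero p} (hx : x ∈ rationalPts (JZero p)) {i : ℕ}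
    (hxr : r ^ i • x = 0) :
    letI := heckeModuleBar p
    (heckeGen q - 1 - (q : ℕ)) • x = 0 := by
  let := heckeModuleBar p
  have := FLTAgent.HeckeJacobian.smulCommClass_heckeModuleBar p
  obtain ⟨A, hA⟩ := exists_liesOverPrime (q := (q : ℕ)) q.2
  obtain ⟨σ, hσ⟩ := exists_isFrobeniusAt A q.2 hA
  have h := F.quadratic q q.2 hq A hA σ hσ x ⟨i, hxr⟩
  rw [hx σ trivial, hx σ trivial] at h
  rw [sub_smul, sub_smul, one_smul, Nat.cast_smul_eq_nsmul, sub_sub, sub_eq_zero]
  calc heckeGen q • x = x + (q : ℕ) • x - (x - heckeGen q • x + (q : ℕ) • x) := by abel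
    _ = x + (q : ℕ) • x :=
      (congrArg (fun z => x + (q : ℕ) • x - z) h).trans (sub_zero _)

/-- The descent bound on `J₀(p)`. -/
theorem exists_bound (F : JacobianFacts p r) (hp : p.Prime) (hr : r.Prime) (hpr : p ≠ r) :
    ∃ C : ℕ, ∀ (k : ℕ) (e : HeckeAlg), letI := heckeModuleBar p
      (∀ x : JZero p, r ^ k • x = 0 → e • e • x = e • x) →
      (∀ q : Nat.Primes, ¬ (q : ℕ) ∣ p * r → ∃ m : ℕ, ∀ x : JZero p, r ^ k • x = 0 →
        (heckeGen q - 1 - (q : ℕ)) ^ m • e • x = 0) →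
      ∀ P ∈ rationalPts (JZero p),
        ∃ u ∈ rationalPts (JZero p), r ^ C • e • P = r ^ k • u := by
  classical
  obtain ⟨A₀, hA₀⟩ := exists_liesOverPrime (q := p) hp
  obtain ⟨D, hD⟩ := F.conjugation
  have := F.fg
  obtain ⟨E, hE⟩ := exists_divisible_bound (N := rationalPts (JZero p)) hr
  -- the rational `r`-power torsion is bounded
  have : Finite {x : JZero p // r ^ E • x = 0} :=
      (F.finite_torsion _ (pow_pos hr.pos E).ne').to_subtype
  set B := Nat.card {x : JZero p // r ^ E • x = 0}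
  refine ⟨D * B ^ 2 + 1, fun k e => ?_⟩
  let := heckeModuleBar p
  intro he2 hnil P hP
  have : Finite (killedBy (JZero p) (r ^ k)) :=
      (F.finite_torsion _ (pow_pos hr.pos k).ne').to_subtype
  set G := piece (heckeEnd p e) (r ^ k) with hG
  have hGk : ∀ g ∈ G, r ^ k • g = 0 := by
    rintro _ ⟨a, ha, rfl⟩
    rw [← map_nsmul, show r ^ k • a = 0 from ha, map_zero]
  -- the piece is Eisenstein
  let act := pieceAct (heckeEnd p e) (heckeEnd_galois e) (r ^ k)
  have hlevel : ∃ L : IntermediateField ℚ Qbar, FiniteDimensional ℚ L ∧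
      ∀ σ : GalQ, (∀ x ∈ L, σ x = x) → act σ = 1 := by
    choose L hL hL1 using F.stab
    have : ∀ a : killedBy (JZero p) (r ^ k), FiniteDimensional ℚ (L (a : JZero p)) := fun a => hL a
    refine ⟨⨆ a : killedBy (JZero p) (r ^ k), L (a : JZero p), inferInstance, fun σ hσ => ?_⟩
    refine AddMonoidHom.ext fun g => Subtype.ext ?_
    exact hL1 _ σ fun z hz => hσ z
      (SetLike.le_def.1 (le_iSup (fun a : killedBy (JZero p) (r ^ k) => L (a : JZero p))
        ⟨_, mem_killedBy.2 (hGk g g.2)⟩) hz)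
  have : Finite G := Finite.of_surjective
    (fun a : killedBy (JZero p) (r ^ k) => (⟨heckeEnd p e a, a, a.2, rfl⟩ : G))
    fun ⟨_, a, ha, ea⟩ => ⟨⟨a, ha⟩, Subtype.ext ea⟩
  have hEis : IsEisensteinModule r act := by
    refine isEisensteinModule_of_frobenius hr hlevel {p, r}
      fun q hq hqS A hA σ hσ => ?_
    simp only [Finset.mem_insert, Finset.mem_singleton, not_or] at hqS
    have hqpr : ¬ q ∣ p * r := fun h => by
      rcases hq.dvd_mul.1 h with h | h
      · exact hqS.1 ((Nat.prime_dvd_prime_iff_eq hq hp).1 h)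
      · exact hqS.2 ((Nat.prime_dvd_prime_iff_eq hq hr).1 h)
    obtain ⟨m, hm⟩ := hnil ⟨q, hq⟩ hqpr
    have := FLTAgent.HeckeJacobian.smulCommClass_heckeModuleBar p
    let T : AddMonoid.End G :=
      ((DistribSMul.toAddMonoidHom (JZero p) (heckeGen ⟨q, hq⟩)).comp G.subtype).codRestrict G <| by
        rintro ⟨_, a, ha, rfl⟩
        refine ⟨heckeGen ⟨q, hq⟩ • a, ?_, smul_comm e _ a⟩
        show r ^ k • heckeGen ⟨q, hq⟩ • a = 0
        rw [smul_comm, show r ^ k • a = 0 from ha, smul_zero]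
    refine ⟨T, ?_, ?_, m, ?_⟩
    · exact AddMonoidHom.ext fun g => Subtype.ext
        (smul_comm σ (heckeGen ⟨q, hq⟩) (g : JZero p)).symm
    · refine AddMonoidHom.ext fun g => Subtype.ext ?_
      exact F.quadratic q hq hqpr A hA σ hσ g ⟨k, hGk g g.2⟩
    · have key := coe_sub_pow T (heckeGen ⟨q, hq⟩) (fun g => rfl) q
      refine AddMonoidHom.ext fun g => Subtype.ext ?_
      refine (key m g).trans ?_
      obtain ⟨a, ha, hag⟩ := g.2
      rw [← hag]
      exact hm a ha
  have hstep := hasScalarQuotients_of_isEisensteinModule hr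
    (fun g : G => Subtype.ext (hGk g g.2)) hEis
  have hB : Nat.card ↥(G ⊓ rationalPts (JZero p)) ≤ B := by
    have hmem : ∀ g : ↥(G ⊓ rationalPts (JZero p)), r ^ E • (g : JZero p) = 0 := fun g => by
      have h1 := hE E le_rfl ⟨g, g.2.2⟩ k (Subtype.ext (by
        show r ^ k • r ^ E • (g : JZero p) = 0
        rw [smul_comm, hGk _ g.2.1, smul_zero]))
      exact congrArg Subtype.val h1
    exact Nat.card_le_card_of_injective (fun g => (⟨g, hmem g⟩ : {x : JZero p // r ^ E • x = 0}))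
      fun a b h => Subtype.ext (congrArg (fun t : {x : JZero p // r ^ E • x = 0} =>
          (t : JZero p)) h)
  have hunr : ∀ Q : JZero p, (∀ σ : GalQ, σ • (r ^ k • Q) = r ^ k • Q) → ∀ q : ℕ, q.Prime → q ≠ p →
      q ≠ r → ∀ A : ValuationSubring Qbar, A.LiesOverPrime q →
      ∀ σ ∈ A.inertiaSubgroupIn ℚ, σ • Q = Q := by
    intro Q hQ q hq hqp hqr A hA σ hσ
    refine sub_eq_zero.1 (F.injective q hq hqp A hA (r ^ k) _ (fun h => hqr
      ((Nat.prime_dvd_prime_iff_eq hq hr).1 (hq.dvd_of_dvd_pow h))) (smul_sub_mem_killedBy hQ σ) ?_)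
    rw [map_sub, F.inertia q hq hqp A hA σ hσ, sub_self]
  obtain ⟨u, hu, hu'⟩ := descent_bound (c := complexConjugation) (e := heckeEnd p e) hr hp hpr hA₀
    complexConjugation_root_of_unity complexConjugation_mul_self (heckeEnd_galois e)
    (fun x hx => he2 x hx) F.stab hstep (F.torsor k) hunr (F.inertiaSq A₀ hA₀ k)
    (hD k e he2) hB hP (F.divisible _ (pow_pos hr.pos k).ne' P)
  -- absorb the factor `2`
  have heP : e • P ∈ rationalPts (JZero p) := fun σ hσ => by
    show σ • heckeEnd p e P = heckeEnd p e P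
    rw [← heckeEnd_galois, hP σ hσ]
  set C := D * B ^ 2
  have hu2 : (r ^ C * 2) • e • P = r ^ k • u := hu'
  rcases hr.eq_two_or_odd' with hr2 | hodd
  · exact ⟨u, hu, by rw [pow_succ]; exact (congrArg (fun t => (r ^ C * t) • e • P) hr2).trans hu2⟩
  · obtain ⟨a, b, hab⟩ : IsCoprime (2 : ℤ) ((r ^ k : ℕ) : ℤ) :=
      Int.isCoprime_iff_nat_coprime.2 (by simpa using (Nat.coprime_two_left.2 hodd.pow))
    refine ⟨(r : ℤ) • (a • u + (b * (r ^ C : ℕ)) • (e • P)),
      zsmul_mem (add_mem (zsmul_mem hu a) (zsmul_mem heP _)) _, ?_⟩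
    have hu3 : ((r ^ k : ℕ) : ℤ) • u = ((r ^ C * 2 : ℕ) : ℤ) • e • P := by
      rw [natCast_zsmul, natCast_zsmul, hu2]
    rw [← natCast_zsmul, ← natCast_zsmul, zsmul_add, zsmul_add, ← mul_zsmul', ← mul_zsmul',
      ← mul_zsmul', ← mul_zsmul',
      show a * ((r : ℤ) * ((r ^ k : ℕ) : ℤ)) = (a * r) * ((r ^ k : ℕ) : ℤ) by ring]
    rw [mul_zsmul u (a * r) ((r ^ k : ℕ) : ℤ), hu3, ← mul_zsmul, ← add_zsmul]
    congr 1
    push_cast at hab ⊢
    rw [pow_succ]
    linear_combination -((r : ℤ) ^ C * r) * hab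

/-- The Mazur step. -/
theorem reduction_contradiction (F : JacobianFacts p r) (hp : p.Prime) (hr : r.Prime) (hpr : p ≠ r)
    {y t : JZero p} (hy : ∀ σ : GalQ, σ • y = y) (ht : ∀ σ : GalQ, σ • t = t)
    (hpt : (p - 1) • t = 0) {q₀ : ℕ} (hq₀ : q₀.Prime) (hq₀p : q₀ ≠ p) (hq₀r : q₀ ≠ r)
    {B : ValuationSubring Qbar} (hB : B.LiesOverPrime q₀) (hyB : reductionModL B p y = 0)
    {ℓ : ℕ} (hℓ : ℓ.Prime) (hℓp : ℓ ≠ p) {A : ValuationSubring Qbar} (hA : A.LiesOverPrime ℓ)
    (hyA : reductionModL A p y = reductionModL A p t)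
    (hs : reductionModL A p (((p - 1) / r ^ (p - 1).factorization r) • t) ≠ 0) : False := by
  classical
  let := heckeModuleBar p
  set v := (p - 1).factorization r
  set m := (p - 1) / r ^ v
  have hmv : r ^ v * m = p - 1 := Nat.ordProj_mul_ordCompl_eq_self (p - 1) r
  set s := m • t with hsdef
  have hsv : r ^ v • s = 0 := by rw [hsdef, ← mul_nsmul', hmv, hpt]
  have hsfix : s ∈ rationalPts (JZero p) :=
    nsmul_mem (show t ∈ rationalPts (JZero p) from fun σ _ => ht σ) m
  obtain ⟨C, hC⟩ := exists_bound F hp hr hpr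
  have := F.fg
  -- the images of the rational points under reduction
  let RA : AddSubgroup _ := (rationalPts (JZero p)).map (reductionModL A p)
  let RB : AddSubgroup _ := (rationalPts (JZero p)).map (reductionModL B p)
  have : AddGroup.FG RA := AddGroup.fg_of_surjective
    (f := (reductionModL A p).addSubgroupMap (rationalPts (JZero p)))
    ((reductionModL A p).addSubgroupMap_surjective _)
  have : AddGroup.FG RB := AddGroup.fg_of_surjective
    (f := (reductionModL B p).addSubgroupMap (rationalPts (JZero p)))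
    ((reductionModL B p).addSubgroupMap_surjective _)
  obtain ⟨EA, hEA⟩ := exists_divisible_bound (N := RA) hr
  obtain ⟨EB, hEB⟩ := exists_divisible_bound (N := RB) hr
  obtain ⟨k, hkC, hkA, hkB, hkv⟩ : ∃ k, C ≤ k ∧ EA ≤ k - C ∧ EB ≤ k - C ∧ v ≤ k :=
    ⟨C + EA + EB + v, by omega, by omega, by omega, by omega⟩
  have : Finite {x : JZero p // r ^ k • x = 0} :=
    (F.finite_torsion _ (pow_pos hr.pos k).ne').to_subtype
  obtain ⟨e, he2, hnil, hfix⟩ := exists_projector (R := HeckeAlg) (M := JZero p) (r ^ k)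
    (fun q : {q : Nat.Primes // ¬ (q : ℕ) ∣ p * r} =>
      heckeGen q.1 - 1 - ((q.1 : ℕ) : HeckeAlg))
  have hes : e • s = s := hfix s
    (by rw [← Nat.add_sub_cancel' hkv, pow_add, mul_comm, mul_nsmul', hsv, smul_zero])
    fun q => heckeGen_sub_smul_eq_zero F q.2 hsfix hsv
  obtain ⟨u, hu, hu'⟩ := hC k e he2 (fun q hq => hnil ⟨q, hq⟩) y (fun σ _ => hy σ)
  have hey : e • y ∈ rationalPts (JZero p) := fun σ _ => by
    show σ • heckeEnd p e y = heckeEnd p e y
    rw [← heckeEnd_galois, hy σ]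
  -- `w := e y - r ^ (k - C) u` is torsion reducing to zero at `B`
  have hw : r ^ C • (e • y - r ^ (k - C) • u) = 0 := by
    rw [nsmul_sub, hu', ← mul_nsmul', ← pow_add, Nat.add_sub_cancel' hkC, sub_self]
  have hwB : reductionModL B p (e • y - r ^ (k - C) • u) = 0 := by
    rw [map_sub, F.hecke q₀ hq₀ hq₀p B hB e y hyB, zero_sub, neg_eq_zero, map_nsmul]
    have h1 := hEB (k - C) hkB ⟨reductionModL B p u, u, hu, rfl⟩ C (Subtype.ext (by
      show r ^ C • r ^ (k - C) • reductionModL B p u = 0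
      rw [← map_nsmul, ← map_nsmul]
      rw [nsmul_sub, sub_eq_zero] at hw
      rw [← hw, map_nsmul, F.hecke q₀ hq₀ hq₀p B hB e y hyB, smul_zero]))
    exact congrArg Subtype.val h1
  have hw0 : e • y = r ^ (k - C) • u := sub_eq_zero.1 <| F.injective q₀ hq₀ hq₀p B hB _ _
    (fun h => hq₀r ((Nat.prime_dvd_prime_iff_eq hq₀ hr).1 (hq₀.dvd_of_dvd_pow h))) hw hwB
  -- compare at `A`
  have h2 : reductionModL A p (e • y) = reductionModL A p (e • t) := by
    rw [← sub_eq_zero, ← map_sub, ← smul_sub]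
    exact F.hecke ℓ hℓ hℓp A hA e _ (by rw [map_sub, hyA, sub_self])
  have h3 : reductionModL A p s = r ^ (k - C) • (m • reductionModL A p u) := by
    conv_lhs => rw [← hes, hsdef, smul_comm e m t, map_nsmul, ← h2, hw0, map_nsmul]
    rw [smul_comm]
  have h4 := hEA (k - C) hkA ⟨m • reductionModL A p u,
    m • u, nsmul_mem hu m, map_nsmul _ _ _⟩ v (Subtype.ext (by
      show r ^ v • r ^ (k - C) • (m • reductionModL A p u) = 0
      rw [← h3, ← map_nsmul, hsv, map_zero]))
  exact hs (h3.trans (congrArg Subtype.val h4))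

end FLTAgent.MazurStep
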