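import Fermat.Agent.MazurStep.Descent
import Fermat.Prelude.Def_GaloisRep_ComplexConjugation
import Mathlib.GroupTheory.FiniteAbelian.Basic

/-!
# Generalities for the Mazur step

Complex conjugation on roots of unity and torsion of finitely generated groups.
-/

set_option autoImplicit false

noncomputable section

namespace FLTAgent.MazurStep

open FLTAgent.Density

/-- Complex conjugation inverts roots of unity. -/
theorem complexConjugation_root_of_unity (m : ℕ) (ξ : Qbar) (hm : 0 < m) (hξ : ξ ^ m = 1) :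
    complexConjugation ξ = ξ⁻¹ := by
  apply complexEmbedding.toRingHom.injective
  show complexEmbedding (complexConjugation ξ) = complexEmbedding ξ⁻¹
  have h : complexEmbedding ξ ^ m = 1 := by rw [← map_pow, hξ, map_one]
  have hn : ‖complexEmbedding ξ‖ = 1 := Complex.norm_eq_one_of_pow_eq_one h hm.ne'
  rw [complexEmbedding_complexConjugation, map_inv₀, Complex.inv_def, Complex.normSq_eq_norm_sq,
    hn]
  simp

/-- An `r`-power torsion element of a finitely generated group which is highly divisible by `r`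
vanishes. -/
theorem exists_divisible_bound {N : Type} [AddCommGroup N] [AddGroup.FG N] {r : ℕ}
    (hr : r.Prime) :
    ∃ E : ℕ, ∀ j ≥ E, ∀ x : N, ∀ i : ℕ, r ^ i • r ^ j • x = 0 → r ^ j • x = 0 := by
  have : Module.Finite ℤ N := Module.Finite.iff_addGroup_fg.mpr inferInstance
  have : Finite (AddCommGroup.torsion N) := by
    have : Module.Finite ℤ (AddSubgroup.toIntSubmodule (AddCommGroup.torsion N)) :=
      Module.Finite.iff_fg.mpr (IsNoetherian.noetherian _)
    have : AddGroup.FG (AddCommGroup.torsion N) :=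
      Module.Finite.iff_addGroup_fg.mp
        (inferInstanceAs (Module.Finite ℤ (AddSubgroup.toIntSubmodule (AddCommGroup.torsion N))))
    exact AddCommGroup.finite_of_fg_isAddTorsion (AddCommGroup.torsion N) fun x => by
      obtain ⟨m, hm, h⟩ := isOfFinAddOrder_iff_nsmul_eq_zero.1 x.2
      exact isOfFinAddOrder_iff_nsmul_eq_zero.2 ⟨m, hm, Subtype.ext h⟩
  refine ⟨Nat.card (AddCommGroup.torsion N), fun j hj x i h => ?_⟩
  have hx : x ∈ AddCommGroup.torsion N := by
    rw [AddCommGroup.mem_torsion, isOfFinAddOrder_iff_nsmul_eq_zero]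
    exact ⟨r ^ i * r ^ j, Nat.mul_pos (pow_pos hr.pos i) (pow_pos hr.pos j),
      by rw [mul_nsmul', h]⟩
  obtain ⟨a, -, ha⟩ := (Nat.dvd_prime_pow hr).1 (addOrderOf_dvd_of_nsmul_eq_zero
    (show r ^ (i + j) • x = 0 by rw [pow_add, mul_nsmul', h]))
  refine addOrderOf_dvd_iff_nsmul_eq_zero.1 ?_
  rw [ha]
  refine Nat.pow_dvd_pow r (le_trans ?_ hj)
  refine (Nat.lt_pow_self hr.one_lt).le.trans ?_
  rw [← ha, show x = ((⟨x, hx⟩ : AddCommGroup.torsion N) : N) from rfl, AddSubgroup.addOrderOf_coe]
  exact Nat.le_of_dvd Nat.card_pos (addOrderOf_dvd_natCard _)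

end FLTAgent.MazurStep
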