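import Fermat.Agent.MazurStep.Rigid
import Fermat.Agent.Density.Chebotarev
import Mathlib.GroupTheory.PGroup
import Mathlib.Algebra.CharP.Lemmas
import Mathlib.FieldTheory.Finite.Basic

/-!
# Constituents of Eisenstein modules

If every `σ` acts on a finite `r`-primary Galois module with `(σ - 1) (σ - ω σ)` nilpotent, then
every nonzero stable subgroup has a quotient `ℤ/r` or `μ_r`.
-/

set_option autoImplicit false

noncomputable section

namespace FLTAgent.MazurStep

open FLTAgent.Density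

variable {r : ℕ}

/-- The Eisenstein condition on a Galois module at `r`. -/
def IsEisensteinModule (r : ℕ) {M : Type} [AddCommGroup M] (act : GalQ →* AddMonoid.End M) :
    Prop :=
  ∀ σ, ∃ m : ℕ, (∀ ξ : Qbar, ξ ^ r = 1 → σ ξ = ξ ^ m) ∧
    IsNilpotent ((act σ - 1) * (act σ - (m : AddMonoid.End M)))

/-- A simple Eisenstein module is `ℤ/r` or `μ_r`. -/
theorem exists_scalar_of_simple (hr : r.Prime) {V : Type} [AddCommGroup V] [Finite V]
    [Nontrivial V] {g : GalQ →* AddMonoid.End V} (hrV : ∀ v : V, r • v = 0)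
    (hsimple : ∀ W : AddSubgroup V, (∀ σ, ∀ w ∈ W, g σ w ∈ W) → W = ⊥ ∨ W = ⊤)
    (hE : IsEisensteinModule r g) :
    ∃ π : V →+ ZMod r, Function.Bijective π ∧ ∃ ψ : GalQ → ZMod r,
      (∀ σ v, π (g σ v) = ψ σ * π v) ∧
      ((∀ σ, ψ σ = 1) ∨ ∀ σ (ξ : Qbar), ξ ^ r = 1 → σ ξ = ξ ^ (ψ σ).val) := by
  classical
  have : Fact r.Prime := ⟨hr⟩
  have : NeZero r := ⟨hr.ne_zero⟩
  choose m hm hnil using hE
  obtain ⟨v₀, hv₀⟩ := exists_ne (0 : V)
  have : Nontrivial (AddMonoid.End V) := ⟨⟨1, 0, fun e => hv₀ (DFunLike.congr_fun e v₀)⟩⟩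
  have : Finite (AddMonoid.End V) := Finite.of_injective (fun f => (f : V → V))
      DFunLike.coe_injective
  have hchar : CharP (AddMonoid.End V) r := by
    rw [CharP.charP_iff_prime_eq_zero hr]
    exact AddMonoidHom.ext fun v => hrV v
  have : ExpChar (AddMonoid.End V) r := ExpChar.prime hr
  obtain ⟨ζ, hζ⟩ : ∃ ζ : Qbar, IsPrimitiveRoot ζ r := by
    have : NeZero (r : Qbar) := ⟨Nat.cast_ne_zero.2 hr.ne_zero⟩
    obtain ⟨ζ, hζ⟩ := IsAlgClosed.exists_root (Polynomial.cyclotomic r Qbar)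
      (Polynomial.degree_cyclotomic_pos r Qbar hr.pos).ne'
    exact ⟨ζ, Polynomial.isRoot_cyclotomic_iff.1 hζ⟩
  have heq : ∀ {a b : ℕ}, ζ ^ a = ζ ^ b → (a : ZMod r) = b := fun {a b} e => by
    have e : (hζ.toRootsOfUnity : Qbarˣ) ^ a = (hζ.toRootsOfUnity : Qbarˣ) ^ b :=
      Units.ext (by simpa using e)
    rw [pow_inj_mod, ← orderOf_units] at e
    simp only [IsPrimitiveRoot.val_toRootsOfUnity_coe, ← hζ.eq_orderOf] at e
    exact (ZMod.natCast_eq_natCast_iff' a b r).2 e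
  have hmul : ∀ σ τ, (m (σ * τ) : ZMod r) = m σ * m τ := fun σ τ => by
    rw [← Nat.cast_mul]
    refine heq ?_
    rw [← hm _ ζ hζ.pow_eq_one, AlgEquiv.mul_apply, hm τ ζ hζ.pow_eq_one, map_pow,
      hm σ ζ hζ.pow_eq_one, ← pow_mul]
  have hone : (m 1 : ZMod r) = 1 := by
    rw [← Nat.cast_one]; refine heq ?_
    rw [← hm _ ζ hζ.pow_eq_one, pow_one]; rfl
  let mhom : GalQ →* ZMod r :=
    { toFun := fun σ => (m σ : ZMod r), map_one' := hone, map_mul' := hmul }
  let cast : ZMod r →+* AddMonoid.End V := ZMod.castHom (dvd_refl r) _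
  have hcast : ∀ σ, (m σ : AddMonoid.End V) = cast (mhom σ) := fun σ => (map_natCast cast _).symm
  have hmne : ∀ σ, mhom σ ≠ 0 := fun σ h0 => by
    have := hmul σ σ⁻¹
    rw [mul_inv_cancel, hone, show (m σ : ZMod r) = 0 from h0, zero_mul] at this
    exact one_ne_zero this
  -- elements fixing `μ_r` act unipotently, hence trivially
  have huni : ∀ σ, mhom σ = 1 → ∃ j, g σ ^ (r ^ j) = 1 := fun σ h1 => by
    obtain ⟨N, hN⟩ := hnil σ
    rw [hcast, h1, map_one, ← sq, ← pow_mul] at hN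
    refine ⟨2 * N, ?_⟩
    rw [← sub_eq_zero, ← one_pow (r ^ (2 * N)),
      ← sub_pow_char_pow_of_commute (p := r) _ (Commute.one_right (g σ))]
    exact pow_eq_zero_of_le (Nat.lt_pow_self hr.one_lt).le hN
  let u : GalQ →* (AddMonoid.End V)ˣ := g.toHomUnits
  let P : Subgroup (AddMonoid.End V)ˣ := mhom.ker.map u
  have hP : IsPGroup r P := by
    rintro ⟨_, σ, hσ, rfl⟩
    obtain ⟨j, hj⟩ := huni σ hσ
    refine ⟨j, Subtype.ext (Units.ext ?_)⟩
    simpa [u] using hj
  have hcard : r ∣ Nat.card V := by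
    rw [← addOrderOf_eq_prime (hrV v₀) hv₀]
    exact addOrderOf_dvd_natCard v₀
  obtain ⟨b, hb, hb0⟩ := hP.exists_fixed_point_of_prime_dvd_card_of_fixed_point V hcard (a := 0)
    fun x => smul_zero x
  have hK : ∀ σ, mhom σ = 1 → g σ = 1 := by
    let F : AddSubgroup V :=
      { carrier := {v | ∀ σ, mhom σ = 1 → g σ v = v}
        zero_mem' := fun σ _ => map_zero _
        add_mem' := fun ha hb σ hσ => by rw [map_add, ha σ hσ, hb σ hσ]
        neg_mem' := fun ha σ hσ => by rw [map_neg, ha σ hσ] }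
    have hF : F = ⊤ := by
      refine (hsimple F fun τ v hv σ hσ => ?_).resolve_left ?_
      · have h1 : mhom (τ⁻¹ * σ * τ) = 1 := by
          rw [map_mul, map_mul, hσ, mul_one, ← map_mul, inv_mul_cancel, map_one]
        have h2 := congrArg (g τ) (hv _ h1)
        have h3 : g τ (g (τ⁻¹ * σ * τ) v) = g σ (g τ v) := by
          show (g τ * g (τ⁻¹ * σ * τ)) v = (g σ * g τ) v
          rw [← map_mul, ← map_mul]; congr 2; group
        rwa [h3] at h2
      · intro hbot
        refine hb0 (AddSubgroup.mem_bot.1 (hbot ▸ fun σ hσ => ?_ : b ∈ (⊥ : AddSubgroup V))).symm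
        exact hb ⟨u σ, σ, hσ, rfl⟩
    intro σ hσ
    exact AddMonoidHom.ext fun v => (hF ▸ AddSubgroup.mem_top v : v ∈ F) σ hσ
  have hcomm : ∀ σ τ, Commute (g σ) (g τ) := fun σ τ => by
    show g σ * g τ = g τ * g σ
    have h1 : g ((τ * σ)⁻¹ * (σ * τ)) = 1 := hK _ (by
      rw [map_mul, map_mul mhom σ, mul_comm (mhom σ), ← map_mul, ← map_mul, inv_mul_cancel,
        map_one])
    rw [← map_mul, ← map_mul, ← mul_inv_cancel_left (τ * σ) (σ * τ), map_mul, h1, mul_one]
  have hpow : ∀ σ, g σ ^ r = g σ := fun σ => by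
    have h1 : g (σ ^ (r - 1)) = 1 := hK _ (by
      rw [map_pow]; exact ZMod.pow_card_sub_one_eq_one (hmne σ))
    conv_lhs => rw [show r = r - 1 + 1 by have := hr.pos; omega, pow_succ, ← map_pow, h1, one_mul]
  -- `(σ - 1) (σ - ω σ) = 0`
  have hsq : ∀ σ, (g σ - 1) * (g σ - cast (mhom σ)) = 0 := fun σ => by
    set a := cast (mhom σ) with ha
    have hga : Commute (g σ) a := by rw [ha, ← hcast]; exact Nat.commute_cast _ _
    have hca : Commute (g σ - 1) (g σ - a) :=
      ((Commute.refl (g σ)).sub_right hga).sub_left (Commute.one_left _)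
    have e : ((g σ - 1) * (g σ - a)) ^ r = (g σ - 1) * (g σ - a) := by
      rw [hca.mul_pow, ← pow_one r, sub_pow_char_pow_of_commute (p := r) _
        (Commute.one_right (g σ)),
        sub_pow_char_pow_of_commute (p := r) _ hga, pow_one, hpow, one_pow, ha, ← map_pow,
        ZMod.pow_card]
    obtain ⟨N, hN⟩ := hnil σ
    rw [hcast] at hN
    have e' : ∀ j : ℕ, ((g σ - 1) * (g σ - a)) ^ (r ^ j) = (g σ - 1) * (g σ - a) := fun j => by
      induction j with
      | zero => rw [pow_zero, pow_one]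
      | succ j ih => rw [pow_succ, pow_mul, ih, e]
    rw [← e' N]
    exact pow_eq_zero_of_le (Nat.lt_pow_self hr.one_lt).le hN
  have hdich : ∀ σ, g σ = 1 ∨ g σ = cast (mhom σ) := fun σ => by
    rcases hsimple (g σ - cast (mhom σ)).range (by
      rintro τ _ ⟨v, rfl⟩
      refine ⟨g τ v, ?_⟩
      have hc : Commute (g σ - cast (mhom σ)) (g τ) :=
        (hcomm σ τ).sub_left (by rw [← hcast]; exact Nat.cast_commute _ _)
      exact DFunLike.congr_fun hc.eq v) with h | h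
    · right
      rw [← sub_eq_zero]
      exact AddMonoidHom.ext fun v => AddSubgroup.mem_bot.1 (h ▸ ⟨v, rfl⟩)
    · left
      rw [← sub_eq_zero]
      refine AddMonoidHom.ext fun w => ?_
      obtain ⟨v, rfl⟩ := (h ▸ AddSubgroup.mem_top w : w ∈ (g σ - cast (mhom σ)).range)
      exact DFunLike.congr_fun (hsq σ) v
  have hunif : (∀ σ, g σ = 1) ∨ ∀ σ, g σ = cast (mhom σ) := by
    by_contra hne
    simp only [not_or, not_forall] at hne
    obtain ⟨⟨σ, hσ⟩, ⟨τ, hτ⟩⟩ := hne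
    have hσ' := (hdich σ).resolve_left hσ
    have hτ' := (hdich τ).resolve_right hτ
    have hst : g (σ * τ) = g σ := by rw [map_mul, hτ', mul_one]
    rcases hdich (σ * τ) with h | h
    · exact hσ (hst ▸ h)
    · rw [hst, hσ', map_mul] at h
      have h' := cast.injective h
      refine hτ (hτ'.trans ?_)
      rw [← mul_left_cancel₀ (hmne σ) ((mul_one (mhom σ)).trans h'), map_one]
  obtain ⟨ψ, hψ, hψ'⟩ : ∃ ψ : GalQ → ZMod r, (∀ σ, g σ = cast (ψ σ)) ∧
      ((∀ σ, ψ σ = 1) ∨ ∀ σ (ξ : Qbar), ξ ^ r = 1 → σ ξ = ξ ^ (ψ σ).val) := by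
    rcases hunif with h | h
    · exact ⟨fun _ => 1, fun σ => by rw [h, map_one], Or.inl fun _ => rfl⟩
    · refine ⟨mhom, h, Or.inr fun σ ξ hξ => ?_⟩
      show σ ξ = ξ ^ (m σ : ZMod r).val
      rw [hm σ ξ hξ, ZMod.val_natCast, ← pow_eq_pow_mod _ hξ]
  -- `V` is generated by `v₀`
  let f : ZMod r →+ V := (AddMonoidHom.eval v₀).comp (AddMonoidHom.comp
    { toFun := fun e : AddMonoid.End V => (e : V →+ V), map_zero' := rfl,
        map_add' := fun _ _ => rfl }
    cast.toAddMonoidHom)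
  have hf : ∀ a : ZMod r, f a = cast a v₀ := fun a => rfl
  have hfinj : Function.Injective f := (injective_iff_map_eq_zero f).2 fun a ha => by
    by_contra ha0
    refine hv₀ ?_
    have : cast (a⁻¹ * a) v₀ = 0 := by
      rw [map_mul]; show cast a⁻¹ (cast a v₀) = 0; rw [← hf, ha, map_zero]
    rwa [inv_mul_cancel₀ ha0, map_one] at this
  have hfsurj : Function.Surjective f := by
    rcases hsimple f.range (by
      rintro σ _ ⟨a, rfl⟩
      exact ⟨ψ σ * a, by rw [hf, hf, hψ, map_mul]; rfl⟩) with h | h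
    · refine absurd (AddSubgroup.mem_bot.1 (h ▸ ⟨1, ?_⟩ : v₀ ∈ (⊥ : AddSubgroup V))) hv₀
      rw [hf, map_one]; rfl
    · exact AddMonoidHom.range_eq_top.1 h
  let e : ZMod r ≃+ V := AddEquiv.ofBijective f ⟨hfinj, hfsurj⟩
  refine ⟨e.symm.toAddMonoidHom, e.symm.bijective, ψ, fun σ v => ?_, hψ'⟩
  obtain ⟨a, rfl⟩ := e.surjective v
  show e.symm (g σ (e a)) = ψ σ * e.symm (e a)
  rw [e.symm_apply_apply, AddEquiv.symm_apply_eq]
  show g σ (f a) = f (ψ σ * a)
  rw [hf, hf, hψ, map_mul]; rfl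

/-- Eisenstein `r`-primary modules have scalar quotients. -/
theorem hasScalarQuotients_of_isEisensteinModule (hr : r.Prime) {M : Type} [AddCommGroup M]
    [Finite M] {act : GalQ →* AddMonoid.End M} {k : ℕ} (hk : ∀ a : M, r ^ k • a = 0)
    (hE : IsEisensteinModule r act) : HasScalarQuotients r act := by
  intro H hH hstab
  -- a maximal stable proper subgroup
  obtain ⟨H', ⟨hlt, hst'⟩, hmax⟩ : ∃ H' : AddSubgroup M,
      (H' < H ∧ ∀ σ, ∀ h ∈ H', act σ h ∈ H') ∧
        ∀ K, (K < H ∧ ∀ σ, ∀ h ∈ K, act σ h ∈ K) → H' ≤ K → K ≤ H' := by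
    obtain ⟨H', hH'⟩ := (Set.toFinite {K : AddSubgroup M | K < H ∧ ∀ σ, ∀ h ∈ K,
      act σ h ∈ K}).exists_maximal
      ⟨⊥, bot_lt_iff_ne_bot.2 hH, fun σ h hh => by
        rw [AddSubgroup.mem_bot] at hh ⊢; rw [hh, map_zero]⟩
    exact ⟨H', hH'.1, fun K hK hle => hH'.2 hK hle⟩
  let K : AddSubgroup H := H'.addSubgroupOf H
  let actH : GalQ →* AddMonoid.End H :=
    { toFun := fun σ => ((act σ).comp H.subtype).codRestrict H fun e => hstab σ e e.2
      map_one' := AddMonoidHom.ext fun e => Subtype.ext <| by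
        show act 1 e = (e : M); rw [map_one]; rfl
      map_mul' := fun σ τ => AddMonoidHom.ext fun e => Subtype.ext <| by
        show act (σ * τ) e = act σ (act τ e); rw [map_mul]; rfl }
  have hK : ∀ σ, K ≤ K.comap (actH σ) := fun σ h hh => hst' σ h hh
  let g : GalQ →* AddMonoid.End (H ⧸ K) :=
    { toFun := fun σ => QuotientAddGroup.map K K (actH σ) (hK σ)
      map_one' := AddMonoidHom.ext fun e => by
        obtain ⟨e, rfl⟩ := QuotientAddGroup.mk_surjective e
        show ((actH 1 e : H) : H ⧸ K) = e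
        rw [map_one]; rfl
      map_mul' := fun σ τ => AddMonoidHom.ext fun e => by
        obtain ⟨e, rfl⟩ := QuotientAddGroup.mk_surjective e
        show ((actH (σ * τ) e : H) : H ⧸ K) = ((actH σ (actH τ e) : H) : H ⧸ K)
        rw [map_mul]; rfl }
  have : Nontrivial (H ⧸ K) := by
    obtain ⟨h, hh, hh'⟩ := SetLike.exists_of_lt hlt
    exact ⟨⟨((⟨h, hh⟩ : H) : H ⧸ K), 0, fun e =>
      hh' ((QuotientAddGroup.eq_zero_iff (⟨h, hh⟩ : H)).1 e)⟩⟩
  have hsimple : ∀ W : AddSubgroup (H ⧸ K), (∀ σ, ∀ w ∈ W, g σ w ∈ W) → W = ⊥ ∨ W = ⊤ := by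
    intro W hW
    let U : AddSubgroup M := (W.comap (QuotientAddGroup.mk' K)).map H.subtype
    have hUle : U ≤ H := by rintro _ ⟨h, -, rfl⟩; exact h.2
    have hU : H' ≤ U := fun h hh => ⟨⟨h, hlt.le hh⟩, by
      show ((⟨h, hlt.le hh⟩ : H) : H ⧸ K) ∈ W
      rw [(QuotientAddGroup.eq_zero_iff (⟨h, hlt.le hh⟩ : H)).2 hh]; exact zero_mem W, rfl⟩
    have hUst : ∀ σ, ∀ h ∈ U, act σ h ∈ U := by
      rintro σ _ ⟨h, hh, rfl⟩
      exact ⟨actH σ h, hW σ _ hh, rfl⟩
    by_cases hUH : U = H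
    · right
      refine (AddSubgroup.eq_top_iff' W).2 fun w => ?_
      obtain ⟨h, rfl⟩ := QuotientAddGroup.mk_surjective w
      obtain ⟨h₁, hh₁, e⟩ : (h : M) ∈ U := by rw [hUH]; exact h.2
      exact Subtype.ext e ▸ hh₁
    · left
      have hUH' : U ≤ H' := hmax U ⟨lt_of_le_of_ne hUle hUH, hUst⟩ hU
      refine (AddSubgroup.eq_bot_iff_forall W).2 fun w hw => ?_
      obtain ⟨h, rfl⟩ := QuotientAddGroup.mk_surjective w
      exact (QuotientAddGroup.eq_zero_iff h).2 (hUH' ⟨h, hw, rfl⟩)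
  have hrV : ∀ v : H ⧸ K, r • v = 0 := by
    intro v
    let W : AddSubgroup (H ⧸ K) := (nsmulAddMonoidHom r).range
    rcases hsimple W (by rintro σ _ ⟨w, rfl⟩; exact ⟨g σ w, (map_nsmul (g σ) r w).symm⟩) with h | h
    · exact AddSubgroup.mem_bot.1 (h ▸ ⟨v, rfl⟩)
    · have hsurj : ∀ (j : ℕ) (w : H ⧸ K), ∃ w', r ^ j • w' = w := by
        intro j
        induction j with
        | zero => exact fun w => ⟨w, by simp⟩
        | succ j ih =>
          intro w
          obtain ⟨w', rfl⟩ := ih w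
          obtain ⟨w'', rfl⟩ : w' ∈ W := h ▸ AddSubgroup.mem_top w'
          exact ⟨w'', by rw [pow_succ, mul_nsmul']; rfl⟩
      obtain ⟨w', rfl⟩ := hsurj k v
      obtain ⟨w', rfl⟩ := QuotientAddGroup.mk_surjective w'
      rw [← QuotientAddGroup.mk_nsmul, show r ^ k • w' = 0 from Subtype.ext (hk w')]
      simp
  have hEV : IsEisensteinModule r g := fun σ => by
    obtain ⟨m, hm, N, hN⟩ := hE σ
    refine ⟨m, hm, N, AddMonoidHom.ext fun v => ?_⟩
    obtain ⟨h, rfl⟩ := QuotientAddGroup.mk_surjective v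
    have key : ∀ j : ℕ, ∃ h' : H, (h' : M) =
      (((act σ - 1) * (act σ - (m : AddMonoid.End M))) ^ j) h ∧
        (((g σ - 1) * (g σ - (m : AddMonoid.End (H ⧸ K)))) ^ j) h = (h' : H ⧸ K) := by
      intro j
      induction j with
      | zero => exact ⟨h, by simp, by simp⟩
      | succ j ih =>
        obtain ⟨h₁, e₁, e₂⟩ := ih
        refine ⟨(actH σ (actH σ h₁ - m • h₁) - (actH σ h₁ - m • h₁)), ?_, ?_⟩
        · rw [pow_succ']
          show _ = ((act σ - 1) * (act σ - (m : AddMonoid.End M))) ((((act σ - 1) *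
            (act σ - (m : AddMonoid.End M))) ^ j) h)
          rw [← e₁]
          rfl
        · rw [pow_succ']
          show ((g σ - 1) * (g σ - (m : AddMonoid.End (H ⧸ K)))) ((((g σ - 1) *
            (g σ - (m : AddMonoid.End (H ⧸ K)))) ^ j) h) = _
          rw [e₂]
          rfl
    obtain ⟨h', e₁, e₂⟩ := key N
    refine e₂.trans ?_
    rw [hN] at e₁
    rw [show h' = 0 from Subtype.ext e₁]
    rfl
  obtain ⟨π, hπ, ψ, hψ, hψ'⟩ := exists_scalar_of_simple hr hrV hsimple hEV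
  refine ⟨π.comp (QuotientAddGroup.mk' K), hπ.2.comp QuotientAddGroup.mk_surjective, ψ,
    fun σ h h' e => ?_, hψ'⟩
  show π (h' : H ⧸ K) = ψ σ * π (h : H ⧸ K)
  rw [← hψ, show h' = actH σ h from Subtype.ext e]
  rfl

/-- Frobenius elements are dense (consequence of the Chebotarev density theorem). -/
theorem exists_frobenius_eqOn (L : IntermediateField ℚ Qbar) [FiniteDimensional ℚ L] (σ : GalQ)
    (S : Finset ℕ) :
    ∃ q : ℕ, q.Prime ∧ q ∉ S ∧ ∃ A : ValuationSubring Qbar, A.LiesOverPrime q ∧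
      ∃ τ : GalQ, A.IsFrobeniusAt τ q ∧ ∀ x ∈ L, τ x = σ x := by
  let L' := IntermediateField.normalClosure ℚ L Qbar
  have : FiniteDimensional ℚ L' := normalClosure.is_finiteDimensional ℚ L Qbar
  have : IsGalois ℚ L' := IsGalois.normalClosure ℚ L Qbar
  obtain ⟨q, hq, hqS, A, hA, -, τ, hτ, he⟩ := exists_frobenius_agree L' σ S
  exact ⟨q, hq, hqS, A, hA, τ, hτ, fun x hx =>
    (he x (IntermediateField.le_normalClosure L hx)).symm⟩

/-- A module on which Frobenius elements satisfy the Eichler–Shimura relation for operators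
congruent to `1 + q` modulo nilpotents is Eisenstein. -/
theorem isEisensteinModule_of_frobenius (hr : r.Prime) {M : Type}
    [AddCommGroup M] {act : GalQ →* AddMonoid.End M}
    (hlevel : ∃ L : IntermediateField ℚ Qbar, FiniteDimensional ℚ L ∧
      ∀ σ : GalQ, (∀ x ∈ L, σ x = x) → act σ = 1)
    (S : Finset ℕ)
    (hfrob : ∀ q : ℕ, q.Prime → q ∉ S → ∀ A : ValuationSubring Qbar, A.LiesOverPrime q →
      ∀ σ : GalQ, A.IsFrobeniusAt σ q → ∃ T : AddMonoid.End M, Commute T (act σ) ∧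
        act σ * act σ - T * act σ + (q : AddMonoid.End M) = 0 ∧
        IsNilpotent (T - 1 - (q : AddMonoid.End M))) : IsEisensteinModule r act := by
  classical
  intro σ
  obtain ⟨L, hL, hL1⟩ := hlevel
  obtain ⟨ζ, hζ⟩ : ∃ ζ : Qbar, IsPrimitiveRoot ζ r := by
    have : NeZero (r : Qbar) := ⟨Nat.cast_ne_zero.2 hr.ne_zero⟩
    obtain ⟨ζ, hζ⟩ := IsAlgClosed.exists_root (Polynomial.cyclotomic r Qbar)
      (Polynomial.degree_cyclotomic_pos r Qbar hr.pos).ne'
    exact ⟨ζ, Polynomial.isRoot_cyclotomic_iff.1 hζ⟩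
  have : FiniteDimensional ℚ (IntermediateField.adjoin ℚ {ζ} : IntermediateField ℚ Qbar) :=
    IntermediateField.adjoin.finiteDimensional (Algebra.IsIntegral.isIntegral ζ)
  obtain ⟨q, hq, hqS, A, hA, τ, hτ, hτσ⟩ := exists_frobenius_eqOn
    (L ⊔ IntermediateField.adjoin ℚ {ζ}) σ (insert r S)
  rw [Finset.mem_insert, not_or] at hqS
  have hact : act τ = act σ := by
    have h1 : act (σ⁻¹ * τ) = 1 := hL1 _ fun x hx => σ.injective <| by
      rw [← AlgEquiv.mul_apply, mul_inv_cancel_left]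
      exact hτσ x ((le_sup_left : L ≤ _) hx)
    rw [← mul_inv_cancel_left σ τ, map_mul, h1, mul_one]
  refine ⟨q, fun ξ hξ => ?_, ?_⟩
  · have hqr : ¬ q ∣ r := fun h => hqS.1 ((Nat.prime_dvd_prime_iff_eq hq hr).1 h)
    have : NeZero r := ⟨hr.ne_zero⟩
    obtain ⟨i, -, rfl⟩ := hζ.eq_pow_of_pow_eq_one hξ
    have hζ1 : ζ ∈ L ⊔ IntermediateField.adjoin ℚ {ζ} :=
      SetLike.le_def.1 (le_sup_right : IntermediateField.adjoin ℚ {ζ} ≤ _)
        (IntermediateField.mem_adjoin_simple_self ℚ ζ)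
    rw [map_pow, ← hτσ ζ hζ1, ← map_pow]
    exact isFrobeniusAt_apply_of_pow_eq_one hq hA hτ hqr hξ
  · obtain ⟨T, hT, hrel, hnil⟩ := hfrob q hq hqS.2 A hA τ hτ
    rw [hact] at hT hrel
    have e : (act σ - 1) * (act σ - (q : AddMonoid.End M)) =
        (T - 1 - (q : AddMonoid.End M)) * act σ := by
      rw [← sub_eq_zero, sub_mul (T - 1) (q : AddMonoid.End M), sub_mul T, one_mul,
        Nat.cast_comm, mul_sub, sub_mul, one_mul, sub_mul, one_mul]
      rw [← hrel]
      abel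
    rw [e]
    exact ((hT.sub_left (Commute.one_left _)).sub_left
      (Nat.cast_commute _ _)).isNilpotent_mul_right hnil

end FLTAgent.MazurStep
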