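import Fermat.Agent.Density.Inertia
import Mathlib.RingTheory.DedekindDomain.Ideal.Lemmas
import Mathlib.RingTheory.Filtration
import Mathlib.RingTheory.IntegralDomain
import Mathlib.NumberTheory.NumberField.Basic

/-!
# A generator of tame inertia at `p`

At a finite level the prime-to-`p` part of inertia at `p` is cyclic and Frobenius acts on it by
`p`-th powers.
-/

set_option autoImplicit false

noncomputable section

open scoped Pointwise NumberField

namespace FLTAgent.MazurStep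

open FLTAgent.Density

variable {O : Type*} [CommRing O] [IsDedekindDomain O] {P : Ideal O} [P.IsMaximal]

theorem exists_mul_sub_mem {π x : O} (hP0 : P ≠ ⊥) (hπ : π ∈ P) (hπ2 : π ∉ P ^ 2) (hx : x ∈ P) :
    ∃ a : O, x - a * π ∈ P ^ 2 := by
  have h1 : P ^ 2 ⊔ Ideal.span {π} = P ^ 1 := by
    refine Ideal.eq_prime_pow_of_succ_lt_of_le hP0 (lt_of_le_of_ne le_sup_left fun e => hπ2 ?_) ?_
    · rw [e]; exact Ideal.mem_sup_right (Ideal.mem_span_singleton_self π)
    · rw [pow_one]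
      exact sup_le (Ideal.pow_le_self two_ne_zero) (by simpa [Ideal.span_singleton_le_iff_mem])
  rw [pow_one] at h1
  obtain ⟨w, hw, v, hv, rfl⟩ := Submodule.mem_sup.1 (h1.symm ▸ hx : x ∈ P ^ 2 ⊔ Ideal.span {π})
  obtain ⟨a, rfl⟩ := Ideal.mem_span_singleton'.1 hv
  exact ⟨a, by simpa using hw⟩

omit [IsDedekindDomain O] in
theorem mem_of_mul_mem_sq {π a : O} (hπ : π ∈ P) (hπ2 : π ∉ P ^ 2) (h : a * π ∈ P ^ 2) :
    a ∈ P := by
  by_contra ha
  obtain ⟨v, w, hw, e⟩ := Ideal.IsMaximal.exists_inv inferInstance ha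
  refine hπ2 ?_
  rw [show π = v * (a * π) + w * π by linear_combination -π * e]
  exact add_mem ((P ^ 2).mul_mem_left v h) (by rw [pow_two]; exact Ideal.mul_mem_mul hw hπ)

/-- A level two tame element of order prime to the residue characteristic is trivial. -/
theorem apply_eq_of_sub_mem_sq (f : O →+* O) (hf : ∀ x, f x - x ∈ P) {π : O} (hP0 : P ≠ ⊥)
    (hπ : π ∈ P) (hπ2 : π ∉ P ^ 2) (hfπ : f π - π ∈ P ^ 2) {m : ℕ} (hm : (m : O) ∉ P)
    (hfm : ∀ x, (f^[m]) x = x) (x : O) : f x = x := by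
  have hfP : ∀ y ∈ P, f y ∈ P := fun y hy => by simpa using add_mem (hf y) hy
  have hbase : ∀ y ∈ P, f y - y ∈ P ^ 2 := fun y hy => by
    obtain ⟨a, ha⟩ := exists_mul_sub_mem hP0 hπ hπ2 hy
    have h1 : f (y - a * π) ∈ P ^ 2 := by
      generalize y - a * π = w at ha
      rw [pow_two] at ha ⊢
      refine Submodule.mul_induction_on ha (fun u hu v hv => ?_) fun u v hu hv => ?_
      · rw [map_mul]; exact Ideal.mul_mem_mul (hfP u hu) (hfP v hv)
      · rw [map_add]; exact add_mem hu hv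
    have h2 : f (a * π) - a * π ∈ P ^ 2 := by
      rw [map_mul, show f a * f π - a * π = (f a - a) * f π + a * (f π - π) by ring]
      exact add_mem (by rw [pow_two]; exact Ideal.mul_mem_mul (hf a) (hfP π hπ))
        ((P ^ 2).mul_mem_left a hfπ)
    rw [show f y - y = f (y - a * π) - (y - a * π) + (f (a * π) - a * π) by rw [map_sub]; ring]
    exact add_mem (sub_mem h1 ha) h2
  have hPi : ∀ i, ∀ y ∈ P ^ i, f y ∈ P ^ i ∧ f y - y ∈ P ^ (i + 1) := by
    intro i
    induction i with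
    | zero => intro y _; simpa using hf y
    | succ i ih =>
      intro y hy
      rw [pow_succ'] at hy
      refine Submodule.mul_induction_on hy (fun u hu v hv => ?_) fun u v hu hv => ?_
      · obtain ⟨hv1, hv2⟩ := ih v hv
        refine ⟨?_, ?_⟩
        · rw [map_mul, pow_succ']; exact Ideal.mul_mem_mul (hfP u hu) hv1
        · rw [map_mul, show f u * f v - u * v = (f u - u) * f v + u * (f v - v) by ring]
          refine add_mem ?_ ?_
          · rw [show i + 1 + 1 = 2 + i by ring, pow_add]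
            exact Ideal.mul_mem_mul (hbase u hu) hv1
          · rw [pow_succ' P (i + 1)]
            exact Ideal.mul_mem_mul hu hv2
      · exact ⟨by rw [map_add]; exact add_mem hu.1 hv.1, by
          rw [map_add, add_sub_add_comm]; exact add_mem hu.2 hv.2⟩
  suffices h : ∀ i, f x - x ∈ P ^ i by
    have hinf : f x - x ∈ (⨅ i, P ^ i : Ideal O) := Submodule.mem_iInf _ |>.2 h
    rw [Ideal.iInf_pow_eq_bot_of_isDomain P (Ideal.IsPrime.ne_top inferInstance)] at hinf
    exact sub_eq_zero.1 hinf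
  intro i
  induction i with
  | zero => simp
  | succ i ih =>
    rcases Nat.eq_zero_or_pos i with rfl | hi
    · simpa using hf x
    have key : ∀ j : ℕ, (f^[j]) x - x - j * (f x - x) ∈ P ^ (i + 1) := by
      intro j
      induction j with
      | zero => simp
      | succ j ihj =>
        rw [Function.iterate_succ_apply']
        have h1 := (hPi (i + 1) _ ihj).1
        have h2 := (P ^ (i + 1)).mul_mem_left (j : O) (hPi i _ ih).2
        convert add_mem h1 h2 using 1
        push_cast [map_sub, map_mul, map_natCast]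
        ring
    have h3 := key m
    rw [hfm, sub_self, zero_sub] at h3
    have h3' : (m : O) * (f x - x) ∈ P ^ (i + 1) := by simpa using neg_mem h3
    obtain ⟨v, w, hw, e⟩ := Ideal.IsMaximal.exists_inv inferInstance hm
    rw [show f x - x = v * ((m : O) * (f x - x)) + w * (f x - x) by
      linear_combination -(f x - x) * e]
    exact add_mem ((P ^ (i + 1)).mul_mem_left v h3')
      (by rw [pow_succ']; exact Ideal.mul_mem_mul hw ih)

/-- The tame character of inertia at a finite Galois level. -/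
theorem exists_tame_character {r : ℕ} (hr : r.Prime) {A : ValuationSubring Qbar}
    (hA : A.LiesOverPrime r) (L : IntermediateField ℚ Qbar) [FiniteDimensional ℚ L]
    [IsGalois ℚ L] :
    ∃ (k : Type) (_ : CommRing k) (_ : IsDomain k) (_ : Finite k)
      (φ : A.inertiaSubgroupIn ℚ →* kˣ),
      (∀ σ, φ σ = 1 → ∃ v, ∀ x ∈ L, ((σ : GalQ) ^ r ^ v) x = x) ∧
      ∀ Φ : GalQ, A.IsFrobeniusAt Φ r → ∀ σ σ' : A.inertiaSubgroupIn ℚ,
        (σ' : GalQ) = Φ * σ * Φ⁻¹ → φ σ' = φ σ ^ r := by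
  classical
  have : NumberField L := { }
  let res : GalQ →* (L ≃ₐ[ℚ] L) := AlgEquiv.restrictNormalHom L
  have hres : ∀ σ (y : L), ((res σ y : L) : Qbar) = σ (y : Qbar) := fun σ y =>
    AlgEquiv.restrictNormal_commutes σ L y
  let i : 𝓞 L →+* Qbar := (algebraMap L Qbar).comp (algebraMap (𝓞 L) L)
  have hiA : ∀ y, i y ∈ A := fun y =>
    mem_of_isIntegral A ((y.isIntegral_coe).map (L.val.restrictScalars ℤ))
  let P : Ideal (𝓞 L) := (IsLocalRing.maximalIdeal A).comap (i.codRestrict A.toSubring hiA)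
  have hmemP : ∀ y, y ∈ P ↔ i y ∈ A.nonunits := fun y => by
    rw [Ideal.mem_comap, ← ValuationSubring.coe_mem_nonunits_iff]; rfl
  have hrP : (r : 𝓞 L) ∈ P := by
    rw [hmemP, map_natCast]; exact hA
  have hP0 : P ≠ ⊥ := fun h => by
    rw [h, Ideal.mem_bot, Nat.cast_eq_zero] at hrP; exact hr.ne_zero hrP
  have : P.IsPrime := Ideal.comap_isPrime _ _
  have : P.IsMaximal := Ideal.IsPrime.isMaximal inferInstance hP0
  obtain ⟨π, hπ, hπ2⟩ : ∃ π ∈ P, π ∉ P ^ 2 := by
    have : P ^ 2 < P ^ 1 :=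
      Ideal.pow_right_strictAnti P hP0 (Ideal.IsPrime.ne_top inferInstance) one_lt_two
    exact SetLike.exists_of_lt (by simpa using this)
  let f : GalQ → (𝓞 L →+* 𝓞 L) := fun σ => MulSemiringAction.toRingHom (L ≃ₐ[ℚ] L) (𝓞 L) (res σ)
  have hfi : ∀ σ y, i (f σ y) = σ (i y) := fun σ y => hres σ (y : L)
  have hmul : ∀ σ τ y, f (σ * τ) y = f σ (f τ y) := fun σ τ y => by
    show (res (σ * τ)) • y = res σ • res τ • y
    rw [map_mul, mul_smul]
  have hone : ∀ y, f 1 y = y := fun y => by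
    show res 1 • y = y
    rw [map_one, one_smul]
  have hdecP : ∀ σ ∈ A.decompositionSubgroup ℚ, ∀ y ∈ P, f σ y ∈ P := fun σ hσ y hy => by
    rw [hmemP, hfi, apply_mem_nonunits_iff hσ, ← hmemP]
    exact hy
  have hdecP2 : ∀ σ ∈ A.decompositionSubgroup ℚ, ∀ y ∈ P ^ 2, f σ y ∈ P ^ 2 := fun σ hσ y hy => by
    have := Ideal.mem_map_of_mem (f σ) hy
    rw [Ideal.map_pow] at this
    exact Ideal.pow_right_mono (Ideal.map_le_iff_le_comap.2 (hdecP σ hσ)) 2 this
  have hinertia : ∀ σ ∈ A.inertiaSubgroupIn ℚ, ∀ y, f σ y - y ∈ P := fun σ hσ y => by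
    rw [hmemP, map_sub, hfi]
    exact (mem_inertiaSubgroupIn_iff.1 hσ).2 _ (hiA y)
  have hcoef : ∀ σ : A.inertiaSubgroupIn ℚ, ∃ a, f σ π - a * π ∈ P ^ 2 := fun σ =>
    exists_mul_sub_mem hP0 hπ hπ2 (by simpa using add_mem (hinertia σ σ.2 π) hπ)
  choose a ha using hcoef
  -- `f σ` acts on `P / P²` as multiplication by `a σ`
  have hscal : ∀ (σ : A.inertiaSubgroupIn ℚ) (y : 𝓞 L), y ∈ P → f σ y - a σ * y ∈ P ^ 2 := by
    intro σ y hy
    obtain ⟨b, hb⟩ := exists_mul_sub_mem hP0 hπ hπ2 hy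
    have h1 := hdecP2 σ (inertiaSubgroupIn_le_decompositionSubgroup A σ.2) _ hb
    rw [show f σ y - a σ * y = f σ (y - b * π) + ((f σ b - b) * f σ π +
      b * (f σ π - a σ * π) - a σ * (y - b * π)) by rw [map_sub, map_mul]; ring]
    refine add_mem h1 (sub_mem (add_mem ?_ ((P ^ 2).mul_mem_left b (ha σ)))
      ((P ^ 2).mul_mem_left _ hb))
    rw [pow_two]
    exact Ideal.mul_mem_mul (hinertia σ σ.2 b)
      (hdecP σ (inertiaSubgroupIn_le_decompositionSubgroup A σ.2) π hπ)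
  let φ₀ : A.inertiaSubgroupIn ℚ →* 𝓞 L ⧸ P :=
    { toFun := fun σ => Ideal.Quotient.mk P (a σ)
      map_one' := by
        rw [← map_one (Ideal.Quotient.mk P), Ideal.Quotient.eq]
        refine mem_of_mul_mem_sq hπ hπ2 ?_
        have h2 := neg_mem (ha 1)
        rw [OneMemClass.coe_one, hone] at h2
        convert h2 using 1
        ring
      map_mul' := fun σ τ => by
        rw [← map_mul, Ideal.Quotient.eq]
        refine mem_of_mul_mem_sq hπ hπ2 ?_
        have h1 := ha (σ * τ)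
        rw [Subgroup.coe_mul, hmul] at h1
        have hτP : f τ π ∈ P := hdecP τ (inertiaSubgroupIn_le_decompositionSubgroup A τ.2) π hπ
        have h2 : f σ (f τ π) - a σ * a τ * π ∈ P ^ 2 := by
          rw [show f σ (f τ π) - a σ * a τ * π =
            (f σ (f τ π) - a σ * f τ π) + a σ * (f τ π - a τ * π) by ring]
          exact add_mem (hscal σ _ hτP) ((P ^ 2).mul_mem_left _ (ha τ))
        convert sub_mem h2 h1 using 1
        ring }
  have : Finite (𝓞 L ⧸ P) := Ideal.finiteQuotientOfFreeOfNeBot P hP0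
  refine ⟨𝓞 L ⧸ P, inferInstance, inferInstance, inferInstance, φ₀.toHomUnits, ?_, ?_⟩
  · intro σ hσ
    have hσ' : φ₀ σ = 1 := congrArg Units.val hσ
    obtain ⟨v, m, hmr, hord⟩ :=
      Nat.exists_eq_pow_mul_and_not_dvd (orderOf_pos (res σ)).ne' r hr.ne_one
    refine ⟨v, ?_⟩
    set s : GalQ := (σ : GalQ) ^ r ^ v with hs
    have hsI : s ∈ A.inertiaSubgroupIn ℚ := pow_mem σ.2 _
    have hφs : φ₀ ⟨s, hsI⟩ = 1 := by
      rw [show (⟨s, hsI⟩ : A.inertiaSubgroupIn ℚ) = σ ^ r ^ v from Subtype.ext (by simp [hs]),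
        map_pow, hσ', one_pow]
    have hsπ : f s π - π ∈ P ^ 2 := by
      have h1 : a ⟨s, hsI⟩ - 1 ∈ P := by
        rw [← Ideal.Quotient.eq, map_one]; exact hφs
      have h2 := add_mem (ha ⟨s, hsI⟩)
        (show (a ⟨s, hsI⟩ - 1) * π ∈ P ^ 2 by rw [pow_two]; exact Ideal.mul_mem_mul h1 hπ)
      convert h2 using 1
      ring
    have hiter : ∀ (j : ℕ) y, ((f s)^[j]) y = f (s ^ j) y := fun j y => by
      induction j with
      | zero => rw [pow_zero, hone]; rfl
      | succ j ih => rw [Function.iterate_succ_apply', ih, pow_succ', hmul]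
    have hfix := apply_eq_of_sub_mem_sq (f s) (hinertia s hsI) hP0 hπ hπ2 hsπ (m := m)
      (fun hmP => by
        rw [hmemP, map_natCast] at hmP
        exact natCast_notMem_nonunits hr hA hmr hmP)
      (fun y => by
        rw [hiter, hs, ← pow_mul, ← hord]
        show res (σ.1 ^ orderOf (res σ)) • y = y
        rw [map_pow, pow_orderOf_eq_one, one_smul])
    intro z hz
    obtain ⟨b, c, hc, hbc⟩ := IsFractionRing.div_surjective (A := 𝓞 L) (⟨z, hz⟩ : L)
    have e : res s ⟨z, hz⟩ = ⟨z, hz⟩ := by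
      rw [← hbc, map_div₀]
      have h1 := congrArg (fun y : 𝓞 L => (y : L)) (hfix b)
      have h2 := congrArg (fun y : 𝓞 L => (y : L)) (hfix c)
      exact congrArg₂ (· / ·) h1 h2
    exact (hres s ⟨z, hz⟩).symm.trans (congrArg Subtype.val e)
  · intro Φ hΦ σ σ' e
    refine Units.ext ?_
    rw [Units.val_pow_eq_pow_val]
    show Ideal.Quotient.mk P (a σ') = Ideal.Quotient.mk P (a σ) ^ r
    have hΦd := (isFrobeniusAt_iff.1 hΦ).1
    rw [← map_pow, Ideal.Quotient.eq]
    have hcP : f Φ π ∈ P := hdecP Φ hΦd π hπ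
    have hc2 : f Φ π ∉ P ^ 2 := fun h => hπ2 (by
      have := hdecP2 Φ⁻¹ (inv_mem hΦd) _ h
      rwa [← hmul, inv_mul_cancel, hone] at this)
    refine mem_of_mul_mem_sq hcP hc2 ?_
    have h1 : f σ' (f Φ π) = f Φ (f σ π) := by
      rw [← hmul, ← hmul, e, inv_mul_cancel_right]
    have h2 := hscal σ' _ hcP
    have h3 := hdecP2 Φ hΦd _ (ha σ)
    have h4 : f Φ (a σ) - a σ ^ r ∈ P := by
      rw [hmemP, map_sub, map_pow, hfi]
      exact (isFrobeniusAt_iff.1 hΦ).2 _ (hiA _)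
    rw [h1] at h2
    rw [map_sub, map_mul] at h3
    have h5 : (f Φ (a σ) - a σ ^ r) * f Φ π ∈ P ^ 2 := by
      rw [pow_two]; exact Ideal.mul_mem_mul h4 hcP
    convert add_mem (sub_mem h3 h2) h5 using 1
    ring

/-- A generator of the tame part of inertia at `p`, for points fixed by a given finite level and
by `r`-power powers of inertia elements. -/
theorem exists_inertia_generator {p r k : ℕ} (hp : p.Prime) (hr : r.Prime) (hpr : p ≠ r)
    {A : ValuationSubring Qbar} (hA : A.LiesOverPrime p) (L₀ : IntermediateField ℚ Qbar)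
    [FiniteDimensional ℚ L₀] (J : Type) [MulAction GalQ J] :
    ∃ τ ∈ A.inertiaSubgroupIn ℚ, ∀ y : J, (∀ σ : GalQ, (∀ x ∈ L₀, σ x = x) → σ • y = y) →
      (∀ σ ∈ A.inertiaSubgroupIn ℚ, (σ ^ r ^ k) • y = y) → τ • y = y →
      ∀ σ ∈ A.inertiaSubgroupIn ℚ, σ • y = y := by
  classical
  let L := IntermediateField.normalClosure ℚ L₀ Qbar
  have : FiniteDimensional ℚ L := normalClosure.is_finiteDimensional ℚ L₀ Qbar
  have : IsGalois ℚ L := IsGalois.normalClosure ℚ L₀ Qbar
  obtain ⟨K, _, _, _, φ, hker, -⟩ := exists_tame_character hp hA L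
  -- the kernel of the tame character fixes the points in question
  have hker' : ∀ σ : A.inertiaSubgroupIn ℚ, φ σ = 1 → ∀ y : J,
      (∀ σ : GalQ, (∀ x ∈ L₀, σ x = x) → σ • y = y) →
      (∀ σ ∈ A.inertiaSubgroupIn ℚ, (σ ^ r ^ k) • y = y) → (σ : GalQ) • y = y := by
    intro σ hσ y hy hpow
    obtain ⟨v, hv⟩ := hker σ hσ
    let S : Subgroup GalQ := MulAction.stabilizer GalQ y
    have h1 : (σ : GalQ) ^ ((p : ℤ) ^ v) ∈ S := by
      rw [← Nat.cast_pow, zpow_natCast]
      exact hy _ fun x hx => hv x (IntermediateField.le_normalClosure L₀ hx)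
    have h2 : (σ : GalQ) ^ ((r : ℤ) ^ k) ∈ S := by
      rw [← Nat.cast_pow, zpow_natCast]
      exact hpow σ σ.2
    have hcop : IsCoprime ((p : ℤ) ^ v) ((r : ℤ) ^ k) :=
      (Int.isCoprime_iff_nat_coprime.2 (by simpa using (Nat.coprime_primes hp hr).2 hpr)).pow
    obtain ⟨x, z, hxz⟩ := hcop
    have h3 : (σ : GalQ) ^ (x * (p : ℤ) ^ v + z * (r : ℤ) ^ k) ∈ S := by
      rw [zpow_add, mul_comm x, mul_comm z, zpow_mul, zpow_mul]
      exact mul_mem (zpow_mem h1 x) (zpow_mem h2 z)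
    rwa [hxz, zpow_one] at h3
  have : IsCyclic φ.range := inferInstance
  obtain ⟨⟨_, τ, rfl⟩, hτ⟩ := IsCyclic.exists_generator (α := φ.range)
  refine ⟨τ, τ.2, fun y hy hpow hτy σ hσ => ?_⟩
  obtain ⟨j, hj⟩ := hτ ⟨φ ⟨σ, hσ⟩, ⟨σ, hσ⟩, rfl⟩
  have hj' : φ (τ ^ j) = φ ⟨σ, hσ⟩ := by
    rw [map_zpow]; exact congrArg Subtype.val hj
  have h1 := hker' ((τ ^ j)⁻¹ * ⟨σ, hσ⟩)
    (by rw [map_mul, map_inv, hj', inv_mul_cancel]) y hy hpow
  simp only [Subgroup.coe_mul, Subgroup.coe_inv, SubgroupClass.coe_zpow] at h1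
  have h2 : ((τ : GalQ) ^ j) ∈ MulAction.stabilizer GalQ y :=
    zpow_mem (show (τ : GalQ) ∈ MulAction.stabilizer GalQ y from hτy) j
  have h3 : ((τ : GalQ) ^ j)⁻¹ * σ ∈ MulAction.stabilizer GalQ y := h1
  have h4 := mul_mem h2 h3
  rw [mul_inv_cancel_left] at h4
  exact h4

end FLTAgent.MazurStep
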