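import Fermat.Agent.MazurStep.Constituents
import Fermat.Agent.MazurStep.TameInertia
import Mathlib.GroupTheory.Index

/-!
# The bound for an Eisenstein descent

`J` is a Galois module, `e` an equivariant projector on `J[r^k]`. If torsors of rational points
are flat at `r`, unramified outside `{p, r}` and inertia at `p` is unipotent of level two on them,
then `e` maps the rational points to a group of bounded order modulo `r^k`.
-/

set_option autoImplicit false

noncomputable section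

open scoped Pointwise

namespace FLTAgent.MazurStep

open GaloisRep FLTAgent.FiniteFlat FLTAgent.Density

variable {J : Type} [AddCommGroup J] [DistribMulAction GalQ J]

/-- The points killed by `n`. -/
def killedBy (J : Type) [AddCommGroup J] (n : ℕ) : AddSubgroup J :=
  (nsmulAddMonoidHom n).ker

theorem gal_smul_nsmul (σ : GalQ) (m : ℕ) (x : J) : σ • (m • x) = m • (σ • x) :=
  map_nsmul (DistribSMul.toAddMonoidHom J σ) m x

omit [DistribMulAction GalQ J] in
theorem mem_killedBy {n : ℕ} {x : J} : x ∈ killedBy J n ↔ n • x = 0 := Iff.rfl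

/-- The points fixed by a set of Galois elements. -/
def fixedBy (S : Set GalQ) : AddSubgroup J where
  carrier := {x | ∀ σ ∈ S, σ • x = x}
  zero_mem' := fun σ _ => smul_zero σ
  add_mem' := fun ha hb σ hσ => by rw [smul_add, ha σ hσ, hb σ hσ]
  neg_mem' := fun ha σ hσ => by rw [smul_neg, ha σ hσ]

theorem mem_fixedBy {S : Set GalQ} {x : J} : x ∈ fixedBy S ↔ ∀ σ ∈ S, σ • x = x := Iff.rfl

/-- The rational points. -/
abbrev rationalPts (J : Type) [AddCommGroup J] [DistribMulAction GalQ J] : AddSubgroup J :=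
  fixedBy Set.univ

theorem smul_sub_mem_killedBy {n : ℕ} {Q : J} (hQ : ∀ σ : GalQ, σ • (n • Q) = n • Q) (σ : GalQ) :
    σ • Q - Q ∈ killedBy J n := by
  rw [mem_killedBy, smul_sub, ← gal_smul_nsmul, hQ, sub_self]

/-- The torsor of `Q` has a flat model at `r`. -/
def HasTorsorModel (r n : ℕ) (Q : J) : Prop :=
  ∃ (E : Type) (_ : AddCommGroup E) (_ : Finite E) (act : GalQ →* AddMonoid.End E)
    (ι : killedBy J n →+ E) (x : E), HasFlatModel r act ∧ Function.Injective ι ∧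
    (∀ (σ : GalQ) (a b : killedBy J n), (b : J) = σ • (a : J) → ι b = act σ (ι a)) ∧
    ∀ (σ : GalQ) (b : killedBy J n), (b : J) = σ • Q - Q → act σ x = x + ι b

/-- The image of `e` on the points killed by `n`. -/
def piece (e : J →+ J) (n : ℕ) : AddSubgroup J := (killedBy J n).map e

/-- The Galois action on the piece. -/
def pieceAct (e : J →+ J) (he : ∀ (σ : GalQ) x, e (σ • x) = σ • e x) (n : ℕ) :
    GalQ →* AddMonoid.End (piece e n) where
  toFun σ := ((DistribSMul.toAddMonoidHom J σ).comp (piece e n).subtype).codRestrict _ <| by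
    rintro ⟨_, a, ha, rfl⟩
    refine ⟨σ • a, ?_, he σ a⟩
    show n • (σ • a) = 0
    rw [← gal_smul_nsmul, show n • a = 0 from ha, smul_zero]
  map_one' := AddMonoidHom.ext fun a => Subtype.ext (one_smul GalQ (a : J))
  map_mul' σ τ := AddMonoidHom.ext fun a => Subtype.ext (mul_smul σ τ (a : J))

/-- Number of elements of a finite kernel and range. -/
theorem card_range_mul_card_ker {A B : Type} [AddCommGroup A] [AddCommGroup B] (f : A →+ B) :
    Nat.card f.range * Nat.card f.ker = Nat.card A := by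
  rw [AddSubgroup.card_eq_card_quotient_mul_card_addSubgroup f.ker,
    Nat.card_congr (QuotientAddGroup.quotientKerEquivRange f).toEquiv]

variable {p r k : ℕ} {A₀ : ValuationSubring Qbar} {c : GalQ} {e : J →+ J}

/-- If the torsor of `Q` is trivial on complex conjugation, then `e Q` is rational. -/
theorem e_mem_rationalPts (hr : r.Prime) (hp : p.Prime) (hpr : p ≠ r) (hA₀ : A₀.LiesOverPrime p)
    (hc : ∀ (m : ℕ) (ξ : Qbar), 0 < m → ξ ^ m = 1 → c ξ = ξ⁻¹)
    (he : ∀ (σ : GalQ) x, e (σ • x) = σ • e x)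
    (hstep : HasScalarQuotients r (pieceAct e he (r ^ k)))
    (hflat : ∀ Q : J, (∀ σ : GalQ, σ • (r ^ k • Q) = r ^ k • Q) → HasTorsorModel r (r ^ k) Q)
    (hunr : ∀ Q : J, (∀ σ : GalQ, σ • (r ^ k • Q) = r ^ k • Q) → ∀ q : ℕ, q.Prime → q ≠ p → q ≠ r →
      ∀ A : ValuationSubring Qbar, A.LiesOverPrime q → ∀ σ ∈ A.inertiaSubgroupIn ℚ, σ • Q = Q)
    {Q : J} (hQ : ∀ σ : GalQ, σ • (r ^ k • Q) = r ^ k • Q)
    (hQp : ∀ σ ∈ A₀.inertiaSubgroupIn ℚ, e (σ • Q - Q) = 0) (hQc : e (c • Q - Q) = 0) :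
    e Q ∈ rationalPts J := by
  set n := r ^ k
  obtain ⟨E, _, _, act, ι, x, hmod, hι, hιact, hx⟩ := hflat Q hQ
  let eT : killedBy J n →+ piece e n :=
    (e.comp (killedBy J n).subtype).codRestrict _ fun a => ⟨a, a.2, rfl⟩
  have heT : Function.Surjective eT := fun ⟨_, a, ha, rfl⟩ => ⟨⟨a, ha⟩, rfl⟩
  have hkill : ∀ (σ : GalQ) (a : killedBy J n), σ • (a : J) ∈ killedBy J n := fun σ a => by
    rw [mem_killedBy, ← gal_smul_nsmul, show n • (a : J) = 0 from a.2, smul_zero]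
  let K : AddSubgroup E := eT.ker.map ι
  have hK : ∀ σ, K ≤ K.comap (act σ) := by
    rintro σ _ ⟨a, ha, rfl⟩
    refine ⟨⟨_, hkill σ a⟩, Subtype.ext ?_, hιact σ a _ rfl⟩
    show e (σ • (a : J)) = 0
    rw [he, show e (a : J) = 0 from congrArg Subtype.val (show eT a = 0 from ha), smul_zero]
  let actQ : GalQ →* AddMonoid.End (E ⧸ K) :=
    { toFun := fun σ => QuotientAddGroup.map K K (act σ) (hK σ)
      map_one' := AddMonoidHom.ext fun b => by
        obtain ⟨b, rfl⟩ := QuotientAddGroup.mk_surjective b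
        show ((act 1 b : E) : E ⧸ K) = b
        rw [map_one]; rfl
      map_mul' := fun σ τ => AddMonoidHom.ext fun b => by
        obtain ⟨b, rfl⟩ := QuotientAddGroup.mk_surjective b
        show ((act (σ * τ) b : E) : E ⧸ K) = ((act σ (act τ b) : E) : E ⧸ K)
        rw [map_mul]; rfl }
  have hmodQ : HasFlatModel r actQ :=
    hmod.of_surjective (QuotientAddGroup.mk' K) (fun _ _ => rfl) QuotientAddGroup.mk_surjective
  let g : killedBy J n →+ E ⧸ K := (QuotientAddGroup.mk' K).comp ι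
  have hg : g.ker = eT.ker := by
    ext a
    simp only [g, AddMonoidHom.mem_ker, AddMonoidHom.comp_apply, QuotientAddGroup.mk'_apply,
      QuotientAddGroup.eq_zero_iff, K, AddSubgroup.mem_map]
    exact ⟨fun ⟨b, hb, eb⟩ => hι eb ▸ hb, fun ha => ⟨a, ha, rfl⟩⟩
  let ι' : piece e n →+ E ⧸ K := eT.liftOfSurjective heT ⟨g, hg.ge⟩
  have hι' : ∀ a, ι' (eT a) = g a := fun a =>
    AddMonoidHom.liftOfRightInverse_comp_apply _ _ _ ⟨g, hg.ge⟩ a
  have hι'inj : Function.Injective ι' := (injective_iff_map_eq_zero ι').2 fun b hb => by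
    obtain ⟨a, rfl⟩ := heT b
    rw [hι'] at hb
    exact AddMonoidHom.mem_ker.1 (hg ▸ hb)
  let z : GalQ → piece e n := fun σ => eT ⟨_, smul_sub_mem_killedBy hQ σ⟩
  have hz0 : ∀ σ, σ • Q = Q → z σ = 0 := fun σ h => Subtype.ext <| by
    show e (σ • Q - Q) = 0
    rw [h, sub_self, map_zero]
  have key := cocycle_eq_zero (c := c) hr hp hpr hA₀ hc hmodQ ι' hι'inj
    (actM := pieceAct e he n) (fun σ b => by
      obtain ⟨a, rfl⟩ := heT b
      have e1 : pieceAct e he n σ (eT a) = eT ⟨_, hkill σ a⟩ := Subtype.ext (he σ a).symm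
      rw [e1, hι', hι']
      exact congrArg _ (hιact σ a ⟨_, hkill σ a⟩ rfl))
    (x : E ⧸ K) z (fun σ => by
      show ((act σ x : E) : E ⧸ K) = (x : E ⧸ K) + ι' (z σ)
      rw [hι', hx σ ⟨_, smul_sub_mem_killedBy hQ σ⟩ rfl]
      rfl)
    hstep (fun q hq h1 h2 A hA σ hσ => hz0 σ (hunr Q hQ q hq h1 h2 A hA σ hσ))
    (fun σ hσ => Subtype.ext (hQp σ hσ)) (Subtype.ext hQc)
  intro σ _
  rw [← he, ← sub_eq_zero, ← map_sub]
  exact congrArg Subtype.val (key σ)

/-- An inertia element `τ` at `p` such that a division point of a multiple of `P` whose torsor is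
trivial at complex conjugation and at `τ` is sent by `e` to a rational point. -/
private theorem exists_rigid_inertia (hr : r.Prime) (hp : p.Prime) (hpr : p ≠ r)
    (hA₀ : A₀.LiesOverPrime p) (hc : ∀ (m : ℕ) (ξ : Qbar), 0 < m → ξ ^ m = 1 → c ξ = ξ⁻¹)
    (he : ∀ (σ : GalQ) x, e (σ • x) = σ • e x) [Finite (killedBy J (r ^ k))]
    (hstab : ∀ x : J, ∃ L : IntermediateField ℚ Qbar, FiniteDimensional ℚ L ∧
      ∀ σ : GalQ, (∀ z ∈ L, σ z = z) → σ • x = x)
    (hstep : HasScalarQuotients r (pieceAct e he (r ^ k)))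
    (hflat : ∀ Q : J, (∀ σ : GalQ, σ • (r ^ k • Q) = r ^ k • Q) → HasTorsorModel r (r ^ k) Q)
    (hunr : ∀ Q : J, (∀ σ : GalQ, σ • (r ^ k • Q) = r ^ k • Q) → ∀ q : ℕ, q.Prime → q ≠ p → q ≠ r →
      ∀ A : ValuationSubring Qbar, A.LiesOverPrime q → ∀ σ ∈ A.inertiaSubgroupIn ℚ, σ • Q = Q)
    (hsq : ∀ σ ∈ A₀.inertiaSubgroupIn ℚ, ∀ Q : J,
      (∀ ρ : GalQ, ρ • (r ^ k • Q) = r ^ k • Q) → σ • (σ • Q - Q) = σ • Q - Q)
    {P : J} (hP : P ∈ rationalPts J) (hdiv : ∃ Q : J, r ^ k • Q = P) :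
    ∃ τ ∈ A₀.inertiaSubgroupIn ℚ, ∀ Q : J, r ^ k • Q ∈ AddSubgroup.zmultiples P →
      e (c • Q - Q) = 0 → e (τ • Q - Q) = 0 → e Q ∈ rationalPts J := by
  obtain ⟨Q₀, hQ₀⟩ := hdiv
  choose Lx hLx hLx1 using hstab
  have : FiniteDimensional ℚ (Lx Q₀) := hLx Q₀
  have : ∀ a : killedBy J (r ^ k), FiniteDimensional ℚ (Lx (a : J)) := fun a => hLx a
  let L₀ := Lx Q₀ ⊔ ⨆ a : killedBy J (r ^ k), Lx (a : J)
  obtain ⟨τ, hτI, hτ⟩ := exists_inertia_generator (k := k) hp hr hpr hA₀ L₀ J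
  refine ⟨τ, hτI, fun Q hQ h1 h2 => ?_⟩
  have hT : ∀ σ : GalQ, σ • (r ^ k • Q) = r ^ k • Q := fun σ =>
    (AddSubgroup.zmultiples_le.2 hP hQ : r ^ k • Q ∈ rationalPts J) σ trivial
  have hL : ∀ σ : GalQ, (∀ z ∈ L₀, σ z = z) → σ • Q = Q := by
    intro σ hσ
    obtain ⟨j, hj⟩ := AddSubgroup.mem_zmultiples_iff.1 hQ
    have hmem : Q - j • Q₀ ∈ killedBy J (r ^ k) := by
      rw [mem_killedBy, smul_sub, smul_comm, hQ₀, sub_eq_zero]
      exact hj.symm
    have h1 : σ • (Q - j • Q₀) = Q - j • Q₀ := hLx1 _ σ fun z hz => hσ z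
      (SetLike.le_def.1 ((le_iSup (fun a : killedBy J (r ^ k) => Lx (a : J)) ⟨_, hmem⟩).trans
          le_sup_right) hz)
    have h2 : σ • (j • Q₀) = j • Q₀ := by
      rw [show σ • (j • Q₀) = j • (σ • Q₀) from map_zsmul (DistribSMul.toAddMonoidHom J σ) j Q₀,
        hLx1 Q₀ σ fun z hz => hσ z (SetLike.le_def.1 le_sup_left hz)]
    rw [smul_sub, h2, sub_left_inj] at h1
    exact h1
  have hpow : ∀ σ ∈ A₀.inertiaSubgroupIn ℚ, (σ ^ r ^ k) • Q = Q := by
    intro σ hσ
    have key : ∀ j : ℕ, (σ ^ j) • Q = Q + j • (σ • Q - Q) := fun j => by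
      induction j with
      | zero => simp
      | succ j ih =>
        rw [pow_succ', mul_smul, ih, smul_add, gal_smul_nsmul, hsq σ hσ Q hT, succ_nsmul]
        abel
    rw [key, show r ^ k • (σ • Q - Q) = 0 from smul_sub_mem_killedBy hT σ, add_zero]
  refine e_mem_rationalPts hr hp hpr hA₀ hc he hstep hflat hunr hT (fun σ hσ => ?_) h1
  rw [map_sub, he, sub_eq_zero]
  refine hτ (e Q) (fun ρ hρ => by rw [← he, hL ρ hρ]) (fun ρ hρ => by rw [← he, hpow ρ hρ]) ?_ σ hσ
  rwa [map_sub, he, sub_eq_zero] at h2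

omit [DistribMulAction GalQ J] in
/-- Two subgroups of a finite group have at most its order times the order of their intersection
as product of their orders. -/
private theorem card_mul_card_le_card_mul_card_inf {G U V : AddSubgroup J} [Finite G] (hU : U ≤ G)
    (hV : V ≤ G) : Nat.card U * Nat.card V ≤ Nat.card G * Nat.card ↥(U ⊓ V) := by
  have : Finite ↥(U ⊓ V) := Finite.of_injective _
    (AddSubgroup.inclusion_injective (inf_le_left.trans hU : U ⊓ V ≤ G))
  let sum : U × V →+ J := U.subtype.coprod V.subtype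
  have hsum : Nat.card sum.range ≤ Nat.card G :=
    AddSubgroup.card_le_of_le (K := G) (by rintro _ ⟨q, rfl⟩; exact add_mem (hU q.1.2) (hV q.2.2))
  have hker : Nat.card sum.ker ≤ Nat.card ↥(U ⊓ V) :=
    Nat.card_le_card_of_injective (fun q : sum.ker => (⟨((q : U × V).1 : J), (q : U × V).1.2, by
        rw [eq_neg_of_add_eq_zero_left (show ((q : U × V).1 : J) + (q : U × V).2 = 0 from q.2)]
        exact V.neg_mem (q : U × V).2.2⟩ : ↥(U ⊓ V)))
      fun a b h => by
        have h1 : ((a : U × V).1 : J) = ((b : U × V).1 : J) :=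
          congrArg (fun t : ↥(U ⊓ V) => (t : J)) h
        refine Subtype.ext (Prod.ext (Subtype.ext h1) (Subtype.ext ?_))
        have ha : ((a : U × V).1 : J) + (a : U × V).2 = 0 := a.2
        have hb : ((b : U × V).1 : J) + (b : U × V).2 = 0 := b.2
        rw [eq_neg_of_add_eq_zero_right ha, eq_neg_of_add_eq_zero_right hb, h1]
  rw [← Nat.card_prod, ← card_range_mul_card_ker sum]
  exact Nat.mul_le_mul hsum hker

/-- If `ker Λ ≤ ker μ` and `μ ∘ f = 0`, the image of `μ` is at most the quotient of the image of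
`Λ` by the image of `Λ ∘ f`. -/
private theorem card_range_mul_card_range_comp_le {T H X Y : Type} [AddCommGroup T] [AddCommGroup H]
    [AddCommGroup X] [AddCommGroup Y] (Λ : T →+ Y) (μ : T →+ X) [Finite Λ.range]
    (hker : Λ.ker ≤ μ.ker) (f : H →+ T) (hf : ∀ h, μ (f h) = 0) :
    Nat.card μ.range * Nat.card (Λ.comp f).range ≤ Nat.card Λ.range := by
  let ρ : Λ.range →+ X := Λ.rangeRestrict.liftOfSurjective Λ.rangeRestrict_surjective
    ⟨μ, by rw [AddMonoidHom.ker_rangeRestrict]; exact hker⟩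
  have hρ : ∀ Q, ρ (Λ.rangeRestrict Q) = μ Q := fun Q =>
    AddMonoidHom.liftOfRightInverse_comp_apply _ _ _ _ Q
  have hrange : ρ.range = μ.range := by
    ext x
    constructor
    · rintro ⟨⟨_, Q, rfl⟩, rfl⟩
      exact ⟨Q, (hρ Q).symm⟩
    · rintro ⟨Q, rfl⟩
      exact ⟨_, hρ Q⟩
  calc Nat.card μ.range * Nat.card (Λ.comp f).range ≤ Nat.card ρ.range * Nat.card ρ.ker := by
        rw [hrange]
        refine Nat.mul_le_mul_left _ (Nat.card_le_card_of_injective
          (fun b : (Λ.comp f).range => (⟨⟨b, by obtain ⟨h, hh⟩ := b.2; exact ⟨_, hh⟩⟩, by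
            obtain ⟨h, hh⟩ := b.2
            rw [AddMonoidHom.mem_ker]
            convert (hρ (f h)).trans (hf h) using 2
            exact Subtype.ext hh.symm⟩ : ρ.ker))
          fun a b h => Subtype.ext (congrArg (fun t : ρ.ker => ((t : Λ.range) : Y)) h))
    _ = Nat.card Λ.range := card_range_mul_card_ker ρ

/-- An element killed by a power of `r` in a finite subgroup of order at most `N` is killed by
`r ^ N`. -/
private theorem pow_nsmul_eq_zero_of_card_le {X : Type} [AddCommGroup X] {S : AddSubgroup X}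
    [Finite S] {r k N : ℕ} (hr : r.Prime) {x : X} (hx : x ∈ S) (hS : Nat.card S ≤ N)
    (hk : r ^ k • x = 0) : r ^ N • x = 0 := by
  obtain ⟨j, -, hj⟩ := (Nat.dvd_prime_pow hr).1 (addOrderOf_dvd_of_nsmul_eq_zero hk)
  have hjle : j ≤ N := by
    refine (Nat.lt_pow_self hr.one_lt).le.trans (le_trans ?_ hS)
    rw [← hj, show x = ((⟨x, hx⟩ : S) : X) from rfl, AddSubgroup.addOrderOf_coe]
    exact Nat.le_of_dvd Nat.card_pos (addOrderOf_dvd_natCard _)
  exact addOrderOf_dvd_iff_nsmul_eq_zero.1 (hj ▸ Nat.pow_dvd_pow r hjle)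

/-- The count of the descent: `x` divisions, a group of order `g` with fixed parts of orders `t`
and `γ` and coboundaries of order `d`. -/
private theorem le_mul_sq_of_counts {x g t γ d B D : ℕ} (hg : 0 < g) (hγ : 0 < γ)
    (h1 : x * g ≤ d * t * B) (h2 : t * γ ≤ g * B) (hd : d * γ = g) (hD : g ≤ D * γ ^ 2) :
    x ≤ D * B ^ 2 := by
  refine Nat.le_of_mul_le_mul_left ?_ (Nat.mul_pos hg (pow_pos hγ 2))
  calc g * γ ^ 2 * x = x * g * γ ^ 2 := by ring
    _ ≤ d * t * B * γ ^ 2 := by gcongr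
    _ = (d * γ) * (t * γ) * B := by ring
    _ ≤ g * (g * B) * B := by rw [hd]; gcongr
    _ ≤ g * (D * γ ^ 2 * B) * B := by gcongr
    _ = g * γ ^ 2 * (D * B ^ 2) := by ring

/-- The classes `r ^ k • e Q` of the divisions `Q` whose torsor at complex conjugation is a
coboundary lie in a group of order at most `D * B ^ 2`. -/
private theorem exists_division_bound (he : ∀ (σ : GalQ) x, e (σ • x) = σ • e x)
    [Finite (piece e (r ^ k))] (hGfix : ∀ g ∈ piece e (r ^ k), e g = g ∧ r ^ k • g = 0)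
    {P : J} (hP : P ∈ rationalPts J) {τ : GalQ}
    (hsq : ∀ Q : J, (∀ ρ : GalQ, ρ • (r ^ k • Q) = r ^ k • Q) → τ • (τ • Q - Q) = τ • Q - Q)
    (hrig : ∀ Q : J, r ^ k • Q ∈ AddSubgroup.zmultiples P →
      e (c • Q - Q) = 0 → e (τ • Q - Q) = 0 → e Q ∈ rationalPts J)
    {B D : ℕ}
    (hC : Nat.card (piece e (r ^ k)) ≤ D * Nat.card ↥(piece e (r ^ k) ⊓ fixedBy {c}) ^ 2)
    (hB : Nat.card ↥(piece e (r ^ k) ⊓ rationalPts J) ≤ B) :
    ∃ S : AddSubgroup (J ⧸ (rationalPts J).map (nsmulAddMonoidHom (r ^ k))),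
      Finite S ∧ Nat.card S ≤ D * B ^ 2 ∧ ∀ Q : J, r ^ k • Q ∈ AddSubgroup.zmultiples P →
        (∃ g ∈ piece e (r ^ k), c • g - g = e (c • Q - Q)) →
        ((r ^ k • e Q : J) : J ⧸ (rationalPts J).map (nsmulAddMonoidHom (r ^ k))) ∈ S := by
  classical
  set n := r ^ k
  set G := piece e n
  -- the group of divisions and its two coboundaries
  let δ : GalQ → J →+ J := fun σ => DistribSMul.toAddMonoidHom J σ - AddMonoidHom.id J
  let T : AddSubgroup J :=
    (AddSubgroup.zmultiples P).comap (nsmulAddMonoidHom n) ⊓ (G.map (δ c)).comap (e.comp (δ c))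
  let lam : T →+ J × J := ((e.comp (δ c)).prod (e.comp (δ τ))).comp T.subtype
  let R : AddSubgroup J := (rationalPts J).map (nsmulAddMonoidHom n)
  let μ : T →+ J ⧸ R :=
    (QuotientAddGroup.mk' R).comp (((nsmulAddMonoidHom n).comp e).comp T.subtype)
  have hker : lam.ker ≤ μ.ker := fun Q hQ => (QuotientAddGroup.eq_zero_iff _).2
    ⟨_, hrig Q Q.2.1 (congrArg Prod.fst hQ) (congrArg Prod.snd hQ), rfl⟩
  -- the target of `lam`
  let Gτ : AddSubgroup J := G ⊓ fixedBy {τ}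
  let Gc : AddSubgroup J := G ⊓ fixedBy {c}
  let δG : G →+ J := (δ c).comp G.subtype
  have hfin : ∀ U : AddSubgroup J, U ≤ G → Finite U := fun U hU =>
    Finite.of_injective _ (AddSubgroup.inclusion_injective hU)
  have : Finite Gτ := hfin _ inf_le_left
  have : Finite ↥(G ⊓ rationalPts J) := hfin _ inf_le_left
  have : Finite Gc := hfin _ inf_le_left
  have : Finite δG.range := Finite.of_surjective δG.rangeRestrict δG.rangeRestrict_surjective
  have : Finite ↥(δG.range.prod Gτ) :=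
    Finite.of_equiv _ (AddSubgroup.prodEquiv δG.range Gτ).symm.toEquiv
  have hlamle : lam.range ≤ δG.range.prod Gτ := by
    rintro _ ⟨Q, rfl⟩
    obtain ⟨g, hg, hgQ⟩ := Q.2.2
    have hQ : ∀ σ : GalQ, σ • (n • (Q : J)) = n • (Q : J) := fun σ =>
      (AddSubgroup.zmultiples_le.2 hP Q.2.1 : n • (Q : J) ∈ rationalPts J) σ trivial
    refine ⟨⟨⟨g, hg⟩, hgQ⟩, ⟨_, smul_sub_mem_killedBy hQ τ, rfl⟩, fun σ hσ => ?_⟩
    obtain rfl := Set.mem_singleton_iff.mp hσ
    show σ • e (σ • (Q : J) - Q) = e (σ • (Q : J) - Q)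
    rw [← he, hsq Q hQ]
  have : Finite lam.range := Finite.of_injective _ (AddSubgroup.inclusion_injective hlamle)
  have : Finite μ.range := Finite.of_surjective (lam.rangeRestrict.liftOfSurjective
    lam.rangeRestrict_surjective ⟨μ.rangeRestrict, by
      rw [AddMonoidHom.ker_rangeRestrict, AddMonoidHom.ker_rangeRestrict]; exact hker⟩) fun b => by
    obtain ⟨Q, rfl⟩ := μ.rangeRestrict_surjective b
    exact ⟨_, AddMonoidHom.liftOfRightInverse_comp_apply _ _ _ _ Q⟩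
  -- coboundaries of `G`, and `G^τ ⊓ G^c`, inside the rational points
  have hGT : G ≤ T := fun g hg => ⟨by
    show n • g ∈ AddSubgroup.zmultiples P
    rw [(hGfix g hg).2]; exact zero_mem _, g, hg, by
    show c • g - g = e (c • g - g)
    rw [map_sub, he, (hGfix g hg).1]⟩
  let lamG : G →+ J × J := lam.comp (AddSubgroup.inclusion hGT)
  have hrigG : ∀ g ∈ G, e (c • g - g) = 0 → e (τ • g - g) = 0 → g ∈ G ⊓ rationalPts J :=
    fun g hg h1 h2 => ⟨hg, (hGfix g hg).1 ▸ hrig g (hGT hg).1 h1 h2⟩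
  have hkerG : Nat.card lamG.ker ≤ Nat.card ↥(G ⊓ rationalPts J) :=
    Nat.card_le_card_of_injective (fun g => (⟨((g : G) : J), hrigG _ (g : G).2
        (congrArg Prod.fst g.2) (congrArg Prod.snd g.2)⟩ : ↥(G ⊓ rationalPts J)))
      fun a b h => Subtype.ext
        (Subtype.ext (congrArg (fun t : ↥(G ⊓ rationalPts J) => (t : J)) h))
  have hinf : Nat.card ↥(Gτ ⊓ Gc) ≤ Nat.card ↥(G ⊓ rationalPts J) :=
    AddSubgroup.card_le_of_le fun g hg => hrigG g hg.1.1
      (by rw [show c • g = g from hg.2.2 c rfl, sub_self, map_zero])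
      (by rw [show τ • g = g from hg.1.2 τ rfl, sub_self, map_zero])
  have hGc : Nat.card δG.ker = Nat.card Gc :=
    Nat.card_congr
      { toFun := fun g => ⟨(g : G), (g : G).2, fun σ hσ => by
          rw [Set.mem_singleton_iff] at hσ; rw [hσ]; exact sub_eq_zero.1 g.2⟩
        invFun := fun g => ⟨⟨g, g.2.1⟩, sub_eq_zero.2 (g.2.2 c rfl)⟩
        left_inv := fun _ => rfl
        right_inv := fun _ => rfl }
  -- the count
  have h1 : Nat.card μ.range * Nat.card G ≤ Nat.card δG.range * Nat.card Gτ * B := by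
    rw [← card_range_mul_card_ker lamG, ← mul_assoc]
    refine Nat.mul_le_mul ((card_range_mul_card_range_comp_le lam μ hker _ fun g => ?_).trans
      ((AddSubgroup.card_le_of_le hlamle).trans ?_)) (hkerG.trans hB)
    · show ((n • e (g : J) : J) : J ⧸ R) = 0
      rw [(hGfix _ g.2).1, (hGfix _ g.2).2]; rfl
    · exact (Nat.card_congr (AddSubgroup.prodEquiv _ _).toEquiv).trans (Nat.card_prod _ _) |>.le
  have h2 : Nat.card Gτ * Nat.card Gc ≤ Nat.card G * B :=
    (card_mul_card_le_card_mul_card_inf inf_le_left inf_le_left).trans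
      (Nat.mul_le_mul_left _ (hinf.trans hB))
  have hX := le_mul_sq_of_counts Nat.card_pos Nat.card_pos h1 h2
    (hGc ▸ card_range_mul_card_ker δG) hC
  exact ⟨μ.range, inferInstance, hX, fun Q hQ1 hQ2 => ⟨⟨Q, hQ1, hQ2⟩, rfl⟩⟩

/-- The descent bound: `e` maps rational points to a group of bounded order modulo `r ^ k`. -/
theorem descent_bound (hr : r.Prime) (hp : p.Prime) (hpr : p ≠ r) (hA₀ : A₀.LiesOverPrime p)
    (hc : ∀ (m : ℕ) (ξ : Qbar), 0 < m → ξ ^ m = 1 → c ξ = ξ⁻¹) (hc2 : c * c = 1)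
    (he : ∀ (σ : GalQ) x, e (σ • x) = σ • e x)
    (he2 : ∀ x ∈ killedBy J (r ^ k), e (e x) = e x)
    [Finite (killedBy J (r ^ k))]
    (hstab : ∀ x : J, ∃ L : IntermediateField ℚ Qbar, FiniteDimensional ℚ L ∧
      ∀ σ : GalQ, (∀ z ∈ L, σ z = z) → σ • x = x)
    (hstep : HasScalarQuotients r (pieceAct e he (r ^ k)))
    (hflat : ∀ Q : J, (∀ σ : GalQ, σ • (r ^ k • Q) = r ^ k • Q) → HasTorsorModel r (r ^ k) Q)
    (hunr : ∀ Q : J, (∀ σ : GalQ, σ • (r ^ k • Q) = r ^ k • Q) → ∀ q : ℕ, q.Prime → q ≠ p → q ≠ r →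
      ∀ A : ValuationSubring Qbar, A.LiesOverPrime q → ∀ σ ∈ A.inertiaSubgroupIn ℚ, σ • Q = Q)
    (hsq : ∀ σ ∈ A₀.inertiaSubgroupIn ℚ, ∀ Q : J,
      (∀ ρ : GalQ, ρ • (r ^ k • Q) = r ^ k • Q) → σ • (σ • Q - Q) = σ • Q - Q)
    {B D : ℕ}
    (hC : Nat.card (piece e (r ^ k)) ≤ D * Nat.card ↥(piece e (r ^ k) ⊓ fixedBy {c}) ^ 2)
    (hB : Nat.card ↥(piece e (r ^ k) ⊓ rationalPts J) ≤ B)
    {P : J} (hP : P ∈ rationalPts J) (hdiv : ∃ Q : J, r ^ k • Q = P) :
    ∃ u ∈ rationalPts J, (r ^ (D * B ^ 2) * 2) • e P = r ^ k • u := by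
  classical
  obtain ⟨τ, hτI, hrig⟩ :=
    exists_rigid_inertia hr hp hpr hA₀ hc he hstab hstep hflat hunr hsq hP hdiv
  obtain ⟨Q₀, hQ₀⟩ := hdiv
  set n := r ^ k
  set G := piece e n
  have hGfix : ∀ g ∈ G, e g = g ∧ n • g = 0 := by
    rintro _ ⟨a, ha, rfl⟩
    exact ⟨he2 a ha, by rw [← map_nsmul, show n • a = 0 from ha, map_zero]⟩
  have : Finite G := Finite.of_surjective
    (fun a : killedBy J n => (⟨e a, a, a.2, rfl⟩ : G)) fun ⟨_, a, ha, ea⟩ =>
      ⟨⟨a, ha⟩, Subtype.ext ea⟩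
  obtain ⟨S, hSfin, hS, hmem⟩ :=
    exists_division_bound he hGfix hP (hsq τ hτI) hrig hC hB
  have hxP : ((2 • e P : J) : J ⧸ (rationalPts J).map (nsmulAddMonoidHom n)) ∈ S := by
    rw [show 2 • e P = n • e (2 • Q₀) by
      rw [← map_nsmul, ← map_nsmul, ← hQ₀, ← mul_nsmul', ← mul_nsmul', mul_comm]]
    refine hmem (2 • Q₀) ?_ ⟨e (Q₀ - c • Q₀), ⟨_, ?_, rfl⟩, ?_⟩
    · rw [← mul_nsmul', mul_comm, mul_nsmul', hQ₀]
      exact nsmul_mem (AddSubgroup.mem_zmultiples P) 2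
    · show n • (Q₀ - c • Q₀) = 0
      rw [smul_sub, ← gal_smul_nsmul, hQ₀, hP c trivial, sub_self]
    · rw [← he, ← map_sub, gal_smul_nsmul]
      congr 1
      rw [smul_sub, ← mul_smul, hc2, one_smul, two_nsmul, two_nsmul]
      abel
  have h4 := pow_nsmul_eq_zero_of_card_le hr hxP hS (k := k) <| by
      rw [← QuotientAddGroup.mk_nsmul, QuotientAddGroup.eq_zero_iff]
      exact ⟨_, nsmul_mem (show e P ∈ rationalPts J from fun σ hσ => by rw [← he, hP σ hσ]) 2, rfl⟩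
  rw [← QuotientAddGroup.mk_nsmul, QuotientAddGroup.eq_zero_iff, ← mul_nsmul'] at h4
  obtain ⟨u, hu, hu'⟩ := h4
  exact ⟨u, hu, hu'.symm⟩

end FLTAgent.MazurStep
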