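import Fermat.Agent.MazurStep.InertiaBranch
import Fermat.Agent.Semistable.Setting

/-!
# What inertia fixes in the reduction of `X₀(Mq)` at `q`

Multiplicities prime to `q` are admissible (`admissible_residue`), and an automorphism fixing a
function fixes its polar divisor (`smul_pol`).
-/

set_option autoImplicit false

noncomputable section

open AlgebraicCurve ModularCurve FLTAgent.Deuring FLTAgent.FFBasic

namespace FLTAgent.MazurStep

open FLTAgent.Semistable FLTAgent.Semistable.Level FLTAgent.Semistable.PairReduction

local notation "Qbar" => AlgebraicClosure ℚ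

variable {M q : ℕ} [NeZero M] [Fact q.Prime]

/-- Multiplicities prime to `q` are admissible. -/
theorem admissible_residue {A : ValuationSubring Qbar} (hA : A.LiesOverPrime q) {m : ℕ}
    (hm : ¬ q ∣ m) : Admissible (IsLocalRing.residue A) m :=
  ⟨Deuring.natCast_residue_ne_zero hA hm, Deuring.exists_residue_eq_zero hA,
    Deuring.exists_dvd_pow hA⟩

theorem smul_jA (σ : Qbar ≃ₐ[ℚ] Qbar) :
    arithmeticGalois (modularFunctionFieldFull (M * q)) σ • jA M q = jA M q :=
  Subtype.ext (by rw [coe_arithmeticGalois_smul, coe_jA]; exact coeffMap_jqModC _)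

/-- A semilinear automorphism fixing a function fixes its divisor of poles. -/
theorem smul_pol {K F : Type*} [Field K] [Field F] [Algebra K F] [IsFunctionField K F]
    {g : SemilinearAut K F} {x : F} (hx : g • x = x) : g • pol (K := K) x = pol (K := K) x := by
  ext v
  rw [SemilinearAut.divisor_smul_apply, pol_apply, pol_apply]
  have h := SemilinearAut.ord_smul g (g⁻¹ • v) x
  rw [hx, smul_inv_smul] at h
  rw [h]

end FLTAgent.MazurStep
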