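import Fermat.Agent.MazurStep.Characters
import Fermat.Agent.MazurStep.Ramification

/-!
# Rigidity of flat torsors

A torsor under a finite Galois module with a filtration by trivial and cyclotomic pieces, flat
at `r`, unramified outside `{p, r}`, trivial on one inertia group at `p` and on complex
conjugation, is trivial.
-/

set_option autoImplicit false

noncomputable section

open scoped Pointwise

namespace FLTAgent.MazurStep

open GaloisRep FLTAgent.FiniteFlat FLTAgent.Density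

/-- Inertia at `q` fixes roots of unity of order prime to `q`. -/
theorem inertia_fixes_root_of_unity {q m : ℕ} (hq : q.Prime) (hm : ¬ q ∣ m)
    {A : ValuationSubring Qbar} (hA : A.LiesOverPrime q) {σ : GalQ}
    (hσ : σ ∈ A.inertiaSubgroupIn ℚ) {ξ : Qbar} (hξ : ξ ^ m = 1) : σ ξ = ξ := by
  obtain ⟨φ, hφ⟩ := exists_isFrobeniusAt A hq hA
  obtain ⟨hφd, hφc⟩ := isFrobeniusAt_iff.mp hφ
  obtain ⟨hσd, hσc⟩ := mem_inertiaSubgroupIn_iff.mp hσ
  have hφσ : A.IsFrobeniusAt (φ * σ) q := by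
    refine isFrobeniusAt_iff.mpr ⟨mul_mem hφd hσd, fun x hx => ?_⟩
    rw [AlgEquiv.mul_apply, show φ (σ x) - x ^ q = φ (σ x - x) + (φ x - x ^ q) by
      rw [map_sub]; ring]
    exact A.nonunits.add_mem ((apply_mem_nonunits_iff hφd _).mpr (hσc x hx)) (hφc x hx)
  exact φ.injective ((isFrobeniusAt_apply_of_pow_eq_one hq hA hφσ hm hξ).trans
    (isFrobeniusAt_apply_of_pow_eq_one hq hA hφ hm hξ).symm)

/-- A positive integer all of whose multiplicities are divisible by `r` is an `r`-th power. -/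
theorem exists_eq_pow_of_dvd_padicValNat {r n : ℕ} (hn : n ≠ 0)
    (h : ∀ q, q.Prime → r ∣ padicValNat q n) : ∃ m : ℕ, n = m ^ r := by
  refine ⟨n.factorization.prod fun q e => q ^ (e / r), ?_⟩
  conv_lhs => rw [← Nat.prod_factorization_pow_eq_self hn]
  rw [Finsupp.prod, Finsupp.prod, ← Finset.prod_pow]
  refine Finset.prod_congr rfl fun q hq => ?_
  rw [← pow_mul]
  congr 1
  have hqp : q.Prime := Nat.prime_of_mem_primeFactors (Nat.support_factorization n ▸ hq)
  have := h q hqp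
  rw [← Nat.factorization_def _ hqp] at this
  exact (Nat.div_mul_cancel this).symm

/-- A rational number all of whose valuations are divisible by `r` is `±` an `r`-th power. -/
theorem exists_eq_pm_pow {r : ℕ} {a : ℚ} (ha : a ≠ 0)
    (h : ∀ q, q.Prime → (r : ℤ) ∣ padicValRat q a) : ∃ b : ℚ, a = b ^ r ∨ a = -(b ^ r) := by
  have hboth : ∀ q, q.Prime → r ∣ padicValNat q a.num.natAbs ∧ r ∣ padicValNat q a.den := by
    intro q hq
    have hv := h q hq
    rw [padicValRat_def, padicValInt] at hv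
    by_cases h1 : q ∣ a.num.natAbs
    · have h2 : padicValNat q a.den = 0 :=
        padicValNat.eq_zero_of_not_dvd fun h2 => Nat.not_coprime_of_dvd_of_dvd hq.one_lt
            h1 h2 a.reduced
      rw [h2, Nat.cast_zero, sub_zero, Int.natCast_dvd_natCast] at hv
      exact ⟨hv, h2 ▸ dvd_zero r⟩
    · have h2 := padicValNat.eq_zero_of_not_dvd h1
      rw [h2, Nat.cast_zero, zero_sub, dvd_neg, Int.natCast_dvd_natCast] at hv
      exact ⟨h2 ▸ dvd_zero r, hv⟩
  obtain ⟨m, hm⟩ := exists_eq_pow_of_dvd_padicValNat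
    (Int.natAbs_ne_zero.2 (Rat.num_ne_zero.2 ha)) fun q hq => (hboth q hq).1
  obtain ⟨l, hl⟩ := exists_eq_pow_of_dvd_padicValNat a.den_nz fun q hq => (hboth q hq).2
  refine ⟨(m : ℚ) / l, ?_⟩
  have e : ((a.num.natAbs : ℤ) : ℚ) / a.den = ((m : ℚ) / l) ^ r := by
    rw [hm, hl, div_pow]; push_cast; rfl
  rcases Int.natAbs_eq a.num with h' | h'
  · left; rw [← e, ← h', Rat.num_div_den]
  · right
    rw [← e]
    conv_lhs => rw [← Rat.num_div_den a, h']
    push_cast; ring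

/-- If all valuations of `α ^ r ∈ ℚ` are divisible by `r` and complex conjugation fixes `α`, then
`α` is rational. -/
theorem apply_eq_self_of_conj {r : ℕ} (hr : 0 < r) {c : GalQ}
    (hc : ∀ (m : ℕ) (ξ : Qbar), 0 < m → ξ ^ m = 1 → c ξ = ξ⁻¹) {a : ℚ} (ha : a ≠ 0)
    (h : ∀ q, q.Prime → (r : ℤ) ∣ padicValRat q a) {α : Qbar}
    (hα : α ^ r = algebraMap ℚ Qbar a) (hcα : c α = α) (σ : GalQ) : σ α = α := by
  obtain ⟨b, hb⟩ := exists_eq_pm_pow ha h
  have hb0 : b ≠ 0 := by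
    rintro rfl
    rcases hb with hb | hb <;> simp [zero_pow hr.ne'] at hb <;> exact ha hb
  have hbα : algebraMap ℚ Qbar b ≠ 0 := by simpa using hb0
  set ξ := α / algebraMap ℚ Qbar b with hξ
  have hαξ : α = ξ * algebraMap ℚ Qbar b := by rw [hξ, div_mul_cancel₀ _ hbα]
  have hξr : (ξ ^ r) ^ 2 = 1 := by
    rw [hξ, div_pow, hα]
    rcases hb with hb | hb <;> rw [hb] <;> simp [hb0]
  have h2 : c ξ = ξ⁻¹ := hc (r * 2) ξ (by omega) (by rw [pow_mul, hξr])
  have h3 : c ξ = ξ := by rw [hξ, map_div₀, hcα, c.commutes]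
  have hξ0 : ξ ≠ 0 := by
    intro h0; rw [h0, zero_pow hr.ne', zero_pow two_ne_zero] at hξr; exact zero_ne_one hξr
  have h4 : ξ = 1 ∨ ξ = -1 := by
    rw [← sq_eq_one_iff, sq]
    nth_rw 2 [← h3]
    rw [h2, mul_inv_cancel₀ hξ0]
  rcases h4 with h4 | h4 <;> rw [hαξ, h4] <;> simp

variable {r : ℕ}

/-- The rigidity statement for a single piece. -/
theorem piece_eq_zero {p : ℕ} (hr : r.Prime) (hp : p.Prime) (hpr : p ≠ r)
    {A₀ : ValuationSubring Qbar} (hA₀ : A₀.LiesOverPrime p) {c : GalQ}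
    (hc : ∀ (m : ℕ) (ξ : Qbar), 0 < m → ξ ^ m = 1 → c ξ = ξ⁻¹)
    {E : Type} [AddCommGroup E] [Finite E] {actE : GalQ →* AddMonoid.End E}
    (hflat : HasFlatModel r actE) (i : ZMod r →+ E) (hi : Function.Injective i)
    (x : E) (w : GalQ → ZMod r) (hx : ∀ σ, actE σ x = x + i (w σ))
    (ψ : GalQ → ZMod r) (hψ : ∀ σ a, actE σ (i a) = i (ψ σ * a))
    (hψ' : (∀ σ, ψ σ = 1) ∨ ∀ σ (ξ : Qbar), ξ ^ r = 1 → σ ξ = ξ ^ (ψ σ).val)
    (hunr : ∀ q : ℕ, q.Prime → q ≠ p → q ≠ r → ∀ A : ValuationSubring Qbar, A.LiesOverPrime q →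
      ∀ σ ∈ A.inertiaSubgroupIn ℚ, w σ = 0)
    (hp0 : ∀ σ ∈ A₀.inertiaSubgroupIn ℚ, w σ = 0) (hwc : w c = 0) : ∀ σ, w σ = 0 := by
  have : Fact r.Prime := ⟨hr⟩
  have : NeZero r := ⟨hr.ne_zero⟩
  obtain ⟨H, h⟩ := hflat
  have hact : ∀ σ τ e, actE (σ * τ) e = actE σ (actE τ e) := fun σ τ e => by rw [map_mul]; rfl
  have hψmul : ∀ σ τ, ψ (σ * τ) = ψ σ * ψ τ := fun σ τ => hi <| by
    have := hact σ τ (i 1)
    rwa [hψ, hψ, hψ, mul_one, mul_one] at this
  have hψone : ψ 1 = 1 := hi <| by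
    have := hψ 1 1
    rw [map_one, mul_one] at this
    exact this.symm
  have hw : ∀ σ τ, w (σ * τ) = w σ + ψ σ * w τ := fun σ τ => hi <| by
    have := hact σ τ x
    rw [hx, hx, map_add, hx, hψ, add_assoc] at this
    rw [map_add]; exact add_left_cancel this
  by_cases hcyc : ∀ σ (ξ : Qbar), ξ ^ r = 1 → σ ξ = ξ ^ (ψ σ).val
  · obtain ⟨ζ, hζ⟩ : ∃ ζ : Qbar, IsPrimitiveRoot ζ r := by
      have : NeZero (r : Qbar) := ⟨Nat.cast_ne_zero.2 hr.ne_zero⟩
      obtain ⟨ζ, hζ⟩ := IsAlgClosed.exists_root (Polynomial.cyclotomic r Qbar)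
        (Polynomial.degree_cyclotomic_pos r Qbar hr.pos).ne'
      exact ⟨ζ, Polynomial.isRoot_cyclotomic_iff.1 hζ⟩
    let χ : ZMod r → Qbar := fun a => ζ ^ a.val
    have hχadd : ∀ a b, χ (a + b) = χ a * χ b := fun a b => by
      simp only [χ]; rw [← pow_add, ZMod.val_add, ← pow_eq_pow_mod _ hζ.pow_eq_one]
    let actP : GalQ →* AddMonoid.End (ZMod r) :=
      { toFun := fun σ => AddMonoidHom.mulLeft (ψ σ)
        map_one' := AddMonoidHom.ext fun a => by
          show ψ 1 * a = a; rw [hψone, one_mul]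
        map_mul' := fun σ τ => AddMonoidHom.ext fun a => by
          show ψ (σ * τ) * a = ψ σ * (ψ τ * a); rw [hψmul, mul_assoc] }
    have hχeq : ∀ σ a, χ (actP σ a) = σ (χ a) := fun σ a => by
      show ζ ^ (ψ σ * a).val = σ (ζ ^ a.val)
      rw [map_pow, hcyc σ ζ hζ.pow_eq_one, ← pow_mul, ZMod.val_mul,
        ← pow_eq_pow_mod _ hζ.pow_eq_one]
    obtain ⟨A, hA⟩ := exists_liesOverPrime (q := r) hr
    obtain ⟨α, hαv, hα⟩ := exists_eigen_unit hr hA h (actP := actP) i hi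
      (fun σ a => (hψ σ a).symm) (χ := χ) (by simp [χ]) hχadd hχeq x w hx
    have hfix : ∀ σ, w σ = 0 → σ α = α := fun σ h0 => by rw [hα, h0]; simp [χ]
    obtain ⟨a, ha⟩ : α ^ r ∈ Set.range (algebraMap ℚ Qbar) := by
      rw [InfiniteGalois.mem_range_algebraMap_iff_fixed]
      intro σ
      rw [map_pow, hα, mul_pow, ← pow_mul, mul_comm (w σ).val, pow_mul, hζ.pow_eq_one, one_pow,
        one_mul]
    have hα0 : α ≠ 0 := fun h0 => by simp [h0] at hαv
    have ha0 : a ≠ 0 := by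
      rintro rfl; rw [map_zero] at ha; exact pow_ne_zero r hα0 ha.symm
    have hva : padicValRat r a = 0 := by
      have h1 : A.valuation (a.num : Qbar) = A.valuation ((a.den : ℕ) : Qbar) := by
        have e : α ^ r * ((a.den : ℕ) : Qbar) = (a.num : Qbar) := by
          rw [← ha, ← map_natCast (algebraMap ℚ Qbar), ← map_mul, Rat.mul_den_eq_num, map_intCast]
        rw [← e, map_mul, map_pow, hαv, one_pow, one_mul]
      have h2 : ((r : ℤ) ∣ a.num) ↔ r ∣ a.den := by
        rw [← natCast_mem_nonunits_iff hr hA, ← Int.natCast_dvd_natCast,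
          ← natCast_mem_nonunits_iff hr hA, A.mem_nonunits_iff, A.mem_nonunits_iff, h1,
          Int.cast_natCast]
      have h3 : ¬ r ∣ a.den := fun hd =>
        Nat.not_coprime_of_dvd_of_dvd hr.one_lt (Int.natCast_dvd.1 (h2.2 hd)) hd a.reduced
      rw [padicValRat_def, padicValInt.eq_zero_of_not_dvd (mt h2.1 h3),
        padicValNat.eq_zero_of_not_dvd h3, Nat.cast_zero, sub_zero]
    have hdiv : ∀ q, q.Prime → (r : ℤ) ∣ padicValRat q a := by
      intro q hq
      by_cases hqr : q = r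
      · rw [hqr, hva]; exact dvd_zero _
      refine dvd_padicValRat_of_fixed hq hr ha0 ha.symm fun B hB σ hσ => ?_
      by_cases hqp : q = p
      · subst hqp
        obtain ⟨τ, rfl⟩ := exists_smul_eq_of_liesOverPrime hp hA₀ hB
        have hs : τ⁻¹ * σ * τ ∈ A₀.inertiaSubgroupIn ℚ := by
          simpa using mem_inertiaSubgroupIn_smul hσ τ⁻¹
        set s := τ⁻¹ * σ * τ with hsdef
        have hsζ : s ζ = ζ := inertia_fixes_root_of_unity hp
          (fun hd => hpr ((Nat.prime_dvd_prime_iff_eq hp hr).1 hd)) hA₀ hs hζ.pow_eq_one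
        have e : s (τ⁻¹ α) = τ⁻¹ α := by
          rw [hα, map_mul, hfix s (hp0 s hs), map_pow, hsζ]
        rw [hsdef, AlgEquiv.mul_apply, AlgEquiv.mul_apply, ← AlgEquiv.mul_apply τ τ⁻¹,
          mul_inv_cancel, AlgEquiv.one_apply] at e
        exact τ⁻¹.injective e
      · exact hfix σ (hunr q hq hqp hqr B hB σ hσ)
    have hrat := apply_eq_self_of_conj hr.pos hc ha0 hdiv ha.symm (hfix c hwc)
    intro σ
    have h1 : χ (w σ) = 1 := by
      have := hα σ
      rw [hrat σ] at this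
      exact (mul_eq_right₀ hα0).1 this.symm
    rw [← ZMod.val_eq_zero]
    exact Nat.eq_zero_of_dvd_of_lt (hζ.dvd_of_pow_eq_one _ h1) (ZMod.val_lt _)
  · -- trivial action: `w` is a homomorphism killing all inertia groups
    have hψ1 : ∀ σ, ψ σ = 1 := hψ'.resolve_right hcyc
    have hr2 : 2 < r := by
      refine lt_of_le_of_ne hr.two_le fun h2 => hcyc fun σ ξ hξ => ?_
      subst h2
      rw [hψ1, ZMod.val_one, pow_one]
      rcases sq_eq_one_iff.1 hξ with rfl | rfl <;> simp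
    let f : GalQ →* Multiplicative (ZMod r) :=
      { toFun := fun σ => Multiplicative.ofAdd (w σ)
        map_one' := by
          have := hw 1 1
          rw [one_mul, hψ1, one_mul] at this
          rw [show w 1 = 0 by simpa using this.symm]; rfl
        map_mul' := fun σ τ => by rw [hw, hψ1, one_mul]; rfl }
    obtain ⟨L, hL, hL1, -⟩ := h.exists_valueField
    have hopen : IsOpen (f.ker : Set GalQ) := by
      refine Subgroup.isOpen_mono (H₁ := L.fixingSubgroup) (fun σ hσ => ?_)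
        (IntermediateField.fixingSubgroup_isOpen L)
      have h0 := hx σ
      rw [hL1 σ ((IntermediateField.mem_fixingSubgroup_iff L σ).1 hσ)] at h0
      have : i (w σ) = 0 := by simpa using h0.symm
      exact congrArg Multiplicative.ofAdd (hi (this.trans (map_zero i).symm))
    have htop : f.ker = ⊤ := by
      refine FLTAgent.ECReduction.eq_top_of_inertia_le _ hopen fun q hq A hA σ hσ => ?_
      show f σ = 1
      by_cases hqr : q = r
      · subst q
        -- reduction at `r`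
        have hcong : CongrAt A H (x + i (w σ)) x := fun g hg => by
          rw [← hx, h.equivariant g hg]
          exact A.mem_nonunits_iff.1 ((mem_inertiaSubgroupIn_iff.1 hσ).2 _
            ((A.valuation_le_one_iff _).1 (val_le_one_of_isIntegral hr hA (h.integral g hg x))))
        have hcong0 : CongrAt A H (i (w σ)) 0 := by
          simpa [add_comm] using hcong.add_right hr hA h (-x)
        have hP := isFlatModel_map h (actN := (1 : GalQ →* AddMonoid.End (ZMod r))) i hi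
          fun τ a => by rw [hψ, hψ1, one_mul]; rfl
        refine congrArg Multiplicative.ofAdd (eq_zero_of_congrAt hr hr2 hA hP (fun _ _ => rfl) 1
          (w σ) (by simp) ?_)
        rintro _ ⟨g, hg, rfl⟩
        simpa using hcong0 g hg
      · by_cases hqp : q = p
        · subst q
          exact forall_inertia_eq_one_of_one_place hp hA₀
            (fun s hs => congrArg Multiplicative.ofAdd (hp0 s hs)) hA σ hσ
        · exact congrArg Multiplicative.ofAdd (hunr q hq hqp hqr A hA σ hσ)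
    intro σ
    have : σ ∈ f.ker := htop ▸ Subgroup.mem_top σ
    exact Multiplicative.ofAdd.injective this

/-- The hypothesis that a finite module has composition factors `ℤ/r` and `μ_r` only. -/
def HasScalarQuotients (r : ℕ) {M : Type} [AddCommGroup M] (act : GalQ →* AddMonoid.End M) :
    Prop :=
  ∀ H : AddSubgroup M, H ≠ ⊥ → (∀ σ, ∀ h ∈ H, act σ h ∈ H) →
    ∃ π : H →+ ZMod r, Function.Surjective π ∧ ∃ ψ : GalQ → ZMod r,
      (∀ σ (h h' : H), (h' : M) = act σ h → π h' = ψ σ * π h) ∧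
      ((∀ σ, ψ σ = 1) ∨ ∀ σ (ξ : Qbar), ξ ^ r = 1 → σ ξ = ξ ^ (ψ σ).val)

/-- Rigidity: a flat torsor which is unramified outside `{p, r}`, trivial on an inertia group at
`p` and trivial on complex conjugation is trivial. -/
theorem cocycle_eq_zero {p : ℕ} (hr : r.Prime) (hp : p.Prime) (hpr : p ≠ r)
    {A₀ : ValuationSubring Qbar} (hA₀ : A₀.LiesOverPrime p) {c : GalQ}
    (hc : ∀ (m : ℕ) (ξ : Qbar), 0 < m → ξ ^ m = 1 → c ξ = ξ⁻¹)
    {E : Type} [AddCommGroup E] [Finite E] {actE : GalQ →* AddMonoid.End E}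
    (hflat : HasFlatModel r actE) {M : Type} [AddCommGroup M] {actM : GalQ →* AddMonoid.End M}
    (ι : M →+ E) (hι : Function.Injective ι) (hιact : ∀ σ a, ι (actM σ a) = actE σ (ι a))
    (x : E) (z : GalQ → M) (hx : ∀ σ, actE σ x = x + ι (z σ))
    (hstep : HasScalarQuotients r actM)
    (hunr : ∀ q : ℕ, q.Prime → q ≠ p → q ≠ r → ∀ A : ValuationSubring Qbar, A.LiesOverPrime q →
      ∀ σ ∈ A.inertiaSubgroupIn ℚ, z σ = 0)
    (hp0 : ∀ σ ∈ A₀.inertiaSubgroupIn ℚ, z σ = 0) (hzc : z c = 0) : ∀ σ, z σ = 0 := by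
  have : Finite M := Finite.of_injective ι hι
  suffices key : ∀ H : AddSubgroup M, (∀ σ, ∀ h ∈ H, actM σ h ∈ H) → (∀ σ, z σ ∈ H) →
      ∀ σ, z σ = 0 from
    key ⊤ (fun _ _ _ => AddSubgroup.mem_top _) (fun _ => AddSubgroup.mem_top _)
  intro H
  induction H using WellFoundedLT.induction with
  | _ H ih => ?_
  intro hstab hz
  rcases eq_or_ne H ⊥ with rfl | hH
  · exact fun σ => AddSubgroup.mem_bot.1 (hz σ)
  obtain ⟨π, hπ, ψ, hπψ, hψ'⟩ := hstep H hH hstab
  let H' : AddSubgroup M := π.ker.map H.subtype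
  have hH'le : H' ≤ H := by rintro _ ⟨h, -, rfl⟩; exact h.2
  have hmem : ∀ h : H, (h : M) ∈ H' ↔ π h = 0 := fun h =>
    ⟨fun ⟨_, hk, e⟩ => Subtype.ext e ▸ hk, fun hk => ⟨h, hk, rfl⟩⟩
  have hstab' : ∀ σ, ∀ h ∈ H', actM σ h ∈ H' := fun σ h hh => by
    have h1 := hπψ σ ⟨h, hH'le hh⟩ ⟨actM σ h, hstab σ h (hH'le hh)⟩ rfl
    rw [(hmem ⟨h, hH'le hh⟩).1 hh, mul_zero] at h1
    exact (hmem ⟨actM σ h, hstab σ h (hH'le hh)⟩).2 h1
  -- the piece
  let EH : AddSubgroup E := H.map ι ⊔ AddSubgroup.zmultiples x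
  have hιmem : ∀ h : H, ι h ∈ EH := fun h => AddSubgroup.mem_sup_left ⟨h, h.2, rfl⟩
  have hEH : ∀ σ, ∀ e ∈ EH, actE σ e ∈ EH := fun σ => by
    show EH ≤ EH.comap (actE σ)
    refine sup_le ?_ ((AddSubgroup.zmultiples_le).2 ?_)
    · rintro _ ⟨h, hh, rfl⟩
      show actE σ (ι h) ∈ EH
      rw [← hιact]
      exact hιmem ⟨_, hstab σ h hh⟩
    · show actE σ x ∈ EH
      rw [hx]
      exact add_mem (AddSubgroup.mem_sup_right (AddSubgroup.mem_zmultiples x)) (hιmem ⟨_, hz σ⟩)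
  let actS : GalQ →* AddMonoid.End EH :=
    { toFun := fun σ => ((actE σ).comp EH.subtype).codRestrict EH fun e => hEH σ e e.2
      map_one' := AddMonoidHom.ext fun e => Subtype.ext <| by
        show actE 1 e = (e : E); rw [map_one]; rfl
      map_mul' := fun σ τ => AddMonoidHom.ext fun e => Subtype.ext <| by
        show actE (σ * τ) e = actE σ (actE τ e); rw [map_mul]; rfl }
  obtain ⟨𝓗, h𝓗⟩ := hflat
  have hflatS : HasFlatModel r actS :=
    ⟨_, isFlatModel_map h𝓗 EH.subtype Subtype.val_injective fun _ _ => rfl⟩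
  let ιH : H →+ EH := (ι.comp H.subtype).codRestrict EH hιmem
  let K : AddSubgroup EH := π.ker.map ιH
  have hK : ∀ σ, K ≤ K.comap (actS σ) := by
    rintro σ _ ⟨h, hh, rfl⟩
    refine ⟨⟨actM σ h, hstab σ h h.2⟩, ?_, Subtype.ext (hιact σ h)⟩
    show π _ = 0
    rw [hπψ σ h _ rfl, (show π h = 0 from hh), mul_zero]
  let actQ : GalQ →* AddMonoid.End (EH ⧸ K) :=
    { toFun := fun σ => QuotientAddGroup.map K K (actS σ) (hK σ)
      map_one' := AddMonoidHom.ext fun e => by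
        obtain ⟨e, rfl⟩ := QuotientAddGroup.mk_surjective e
        show ((actS 1 e : EH) : EH ⧸ K) = e
        rw [map_one]; rfl
      map_mul' := fun σ τ => AddMonoidHom.ext fun e => by
        obtain ⟨e, rfl⟩ := QuotientAddGroup.mk_surjective e
        show ((actS (σ * τ) e : EH) : EH ⧸ K) = ((actS σ (actS τ e) : EH) : EH ⧸ K)
        rw [map_mul]; rfl }
  have hflatQ : HasFlatModel r actQ :=
    hflatS.of_surjective (QuotientAddGroup.mk' K) (fun _ _ => rfl) QuotientAddGroup.mk_surjective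
  let g : H →+ EH ⧸ K := (QuotientAddGroup.mk' K).comp ιH
  have hg : g.ker = π.ker := by
    ext h
    simp only [g, AddMonoidHom.mem_ker, AddMonoidHom.comp_apply, QuotientAddGroup.mk'_apply,
      QuotientAddGroup.eq_zero_iff, K, AddSubgroup.mem_map]
    refine ⟨fun ⟨k, hk, e⟩ => ?_, fun hk => ⟨h, hk, rfl⟩⟩
    rw [← show k = h from Subtype.ext (hι (congrArg Subtype.val e))]
    exact hk
  let i : ZMod r →+ EH ⧸ K := π.liftOfSurjective hπ ⟨g, hg.ge⟩
  have hi : ∀ h, i (π h) = g h := fun h => by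
    exact AddMonoidHom.liftOfRightInverse_comp_apply _ _ _ ⟨g, hg.ge⟩ h
  have hiinj : Function.Injective i := (injective_iff_map_eq_zero i).2 fun a ha => by
    obtain ⟨h, rfl⟩ := hπ a
    rw [hi] at ha
    exact AddMonoidHom.mem_ker.1 (hg ▸ ha)
  let x₀ : EH := ⟨x, AddSubgroup.mem_sup_right (AddSubgroup.mem_zmultiples x)⟩
  have hw : ∀ σ, π ⟨z σ, hz σ⟩ = 0 :=
    piece_eq_zero hr hp hpr hA₀ hc hflatQ i hiinj (x₀ : EH ⧸ K) (fun σ => π ⟨z σ, hz σ⟩)
      (fun σ => by
        rw [hi]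
        show ((actS σ x₀ : EH) : EH ⧸ K) = ((x₀ + ιH ⟨z σ, hz σ⟩ : EH) : EH ⧸ K)
        exact congrArg _ (Subtype.ext (hx σ)))
      ψ (fun σ a => by
        obtain ⟨h, rfl⟩ := hπ a
        rw [← hπψ σ h ⟨_, hstab σ h h.2⟩ rfl, hi, hi]
        show ((actS σ (ιH h) : EH) : EH ⧸ K) = _
        exact congrArg _ (Subtype.ext (hιact σ h).symm))
      hψ' (fun q hq h1 h2 A hA σ hσ => by
        rw [show (⟨z σ, hz σ⟩ : H) = 0 from Subtype.ext (hunr q hq h1 h2 A hA σ hσ), map_zero])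
      (fun σ hσ => by
        rw [show (⟨z σ, hz σ⟩ : H) = 0 from Subtype.ext (hp0 σ hσ), map_zero])
      (by rw [show (⟨z c, hz c⟩ : H) = 0 from Subtype.ext hzc, map_zero])
  refine ih H' ?_ hstab' fun σ => (hmem ⟨z σ, hz σ⟩).2 (hw σ)
  refine lt_of_le_of_ne hH'le fun e => ?_
  have : Fact r.Prime := ⟨hr⟩
  obtain ⟨h, h1⟩ := hπ 1
  exact one_ne_zero (h1.symm.trans ((hmem h).1 (by rw [e]; exact h.2)))

end FLTAgent.MazurStep
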